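import Mathlib
import Fermat.Prelude.Def_ModularForm_HeckeOperator
import Fermat.Prelude.Thm_ModularForm_heckeT_slash_eq_self_of_mem_Gamma0

set_option autoImplicit false

/-!
# Families of forms for `Γ₀(N)` indexed by `(ℤ/N)ˣ` (forms on `Γ₁(N)` with their diamond translates)
and their Hecke operators.
-/

open CongruenceSubgroup ModularForm UpperHalfPlane Matrix.SpecialLinearGroup
open scoped MatrixGroups ModularForm Manifold OnePoint

namespace Fermat.Agent.WOne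

variable {N : ℕ}

/-- The lower right entry modulo `N`, as a unit. -/
noncomputable def del (N : ℕ) : Gamma0 N →* (ZMod N)ˣ := (Gamma0Map N).toHomUnits

lemma coe_del (γ : Gamma0 N) : ((del N γ : (ZMod N)ˣ) : ZMod N) =
    (((γ : SL(2, ℤ)) 1 1 : ℤ) : ZMod N) := rfl

lemma del_eq_iff (γ : Gamma0 N) (d : (ZMod N)ˣ) :
    del N γ = d ↔ (((γ : SL(2, ℤ)) 1 1 : ℤ) : ZMod N) = d := by
  rw [← coe_del, Units.ext_iff]

lemma isCoprime_of_unit {d' : ℤ} {d : (ZMod N)ˣ} (h : ((d' : ℤ) : ZMod N) = d) :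
    IsCoprime (N : ℤ) d' := by
  obtain ⟨e, he⟩ := ZMod.intCast_surjective ((d⁻¹ : (ZMod N)ˣ) : ZMod N)
  have h1 : ((d' * e - 1 : ℤ) : ZMod N) = 0 := by
    push_cast
    rw [h, he]; simp
  rw [ZMod.intCast_zmod_eq_zero_iff_dvd] at h1
  obtain ⟨m, hm⟩ := h1
  exact ⟨-m, e, by linear_combination hm⟩

lemma exists_del_eq (d : (ZMod N)ˣ) : ∃ γ : Gamma0 N, del N γ = d := by
  obtain ⟨d', hd'⟩ := ZMod.intCast_surjective (d : ZMod N)
  obtain ⟨g, hg0, hg1⟩ := (isCoprime_of_unit hd').exists_SL2_row 1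
  refine ⟨⟨g, ?_⟩, ?_⟩
  · rw [Gamma0_mem, hg0]; simp
  · rw [del_eq_iff]
    simp only
    rw [hg1, hd']

/-- A lift of a unit to `Γ₀(N)`. -/
noncomputable def lft (N : ℕ) (d : (ZMod N)ˣ) : Gamma0 N := (exists_del_eq d).choose

@[simp] lemma del_lft (d : (ZMod N)ˣ) : del N (lft N d) = d := (exists_del_eq d).choose_spec

/-- A `Γ₀(N)`-family: `f d` is the diamond translate of `f 1` by `d`. -/
def IsFam (N : ℕ) (k : ℤ) (f : (ZMod N)ˣ → ℍ → ℂ) : Prop :=
  ∀ (γ : Gamma0 N) (d : (ZMod N)ˣ), f d ∣[k] (γ : SL(2, ℤ)) = f (d * del N γ)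

lemma mem_Gamma1_iff_del (γ : Gamma0 N) : (γ : SL(2, ℤ)) ∈ Gamma1 N ↔ del N γ = 1 := by
  rw [del_eq_iff, Gamma1_mem]
  have h0 : (((γ : SL(2, ℤ)) 1 0 : ℤ) : ZMod N) = 0 := Gamma0_mem.mp γ.2
  have hdet := congrArg (Int.cast : ℤ → ZMod N) (γ : SL(2, ℤ)).det_coe
  rw [Matrix.det_fin_two] at hdet
  push_cast at hdet
  constructor
  · rintro ⟨h1, h2, h3⟩
    rw [h2]; simp
  · intro h
    have h' : (((γ : SL(2, ℤ)) 1 1 : ℤ) : ZMod N) = 1 := by rw [h]; simp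
    refine ⟨?_, h', h0⟩
    linear_combination hdet - (((γ : SL(2, ℤ)) 0 0 : ℤ) : ZMod N) * h' +
      (((γ : SL(2, ℤ)) 0 1 : ℤ) : ZMod N) * h0

lemma IsFam.slash_eq {k : ℤ} {f : (ZMod N)ˣ → ℍ → ℂ} (hf : IsFam N k f) (g : SL(2, ℤ))
    (hg : g ∈ Gamma0 N) (d e : (ZMod N)ˣ) (he : ((g 1 1 : ℤ) : ZMod N) * d = e) :
    f d ∣[k] g = f e := by
  have h1 := hf ⟨g, hg⟩ d
  rw [h1]
  congr 1
  ext
  rw [Units.val_mul, coe_del, ← he, mul_comm]

lemma IsFam.slash_Gamma1 {k : ℤ} {f : (ZMod N)ˣ → ℍ → ℂ} (hf : IsFam N k f) (g : SL(2, ℤ))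
    (hg : g ∈ Gamma1 N) (d : (ZMod N)ˣ) : f d ∣[k] g = f d := by
  rw [Gamma1_mem] at hg
  exact hf.slash_eq g (Gamma0_mem.mpr hg.2.2) d d (by rw [hg.2.1, one_mul])

/-- The family of diamond translates of a function invariant under `Γ₁(N)`. -/
noncomputable def fam (N : ℕ) (k : ℤ) (f : ℍ → ℂ) (d : (ZMod N)ˣ) : ℍ → ℂ :=
  f ∣[k] (lft N d : SL(2, ℤ))

lemma fam_eq {k : ℤ} {f : ℍ → ℂ} (hf : ∀ g ∈ Gamma1 N, f ∣[k] g = f) (γ : Gamma0 N) :
    f ∣[k] (γ : SL(2, ℤ)) = fam N k f (del N γ) := by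
  have h1 : ((γ * (lft N (del N γ))⁻¹ : Gamma0 N) : SL(2, ℤ)) ∈ Gamma1 N := by
    rw [mem_Gamma1_iff_del, map_mul, map_inv, del_lft, mul_inv_cancel]
  have h2 := hf _ h1
  have h3 : (γ : SL(2, ℤ)) = ((γ * (lft N (del N γ))⁻¹ : Gamma0 N) : SL(2, ℤ)) *
      (lft N (del N γ) : SL(2, ℤ)) := by
    rw [Subgroup.coe_mul, Subgroup.coe_inv, inv_mul_cancel_right]
  rw [h3, SlashAction.slash_mul, h2, fam]

lemma isFam_fam {k : ℤ} {f : ℍ → ℂ} (hf : ∀ g ∈ Gamma1 N, f ∣[k] g = f) :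
    IsFam N k (fam N k f) := by
  intro γ d
  rw [fam, ← SlashAction.slash_mul, ← Subgroup.coe_mul, fam_eq hf, map_mul, del_lft]

lemma fam_one {k : ℤ} {f : ℍ → ℂ} (hf : ∀ g ∈ Gamma1 N, f ∣[k] g = f) : fam N k f 1 = f := by
  have h := fam_eq hf 1
  rw [map_one] at h
  rw [← h, Subgroup.coe_one, SlashAction.slash_one]

lemma IsFam.add {k : ℤ} {f g : (ZMod N)ˣ → ℍ → ℂ} (hf : IsFam N k f) (hg : IsFam N k g) :
    IsFam N k (f + g) := by
  intro γ d
  rw [Pi.add_apply, SlashAction.add_slash, hf γ d, hg γ d, Pi.add_apply]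

lemma IsFam.smul {k : ℤ} {f : (ZMod N)ˣ → ℍ → ℂ} (hf : IsFam N k f) (c : ℂ) :
    IsFam N k (c • f) := by
  intro γ d
  rw [Pi.smul_apply, ModularForm.SL_smul_slash, hf γ d, Pi.smul_apply]

/-- The diamond operators act on families by translation. -/
def dia (u : (ZMod N)ˣ) (f : (ZMod N)ˣ → ℍ → ℂ) : (ZMod N)ˣ → ℍ → ℂ := fun d => f (u * d)

lemma IsFam.dia {k : ℤ} {f : (ZMod N)ˣ → ℍ → ℂ} (hf : IsFam N k f) (u : (ZMod N)ˣ) :
    IsFam N k (dia u f) := by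
  intro γ d
  rw [WOne.dia, hf γ (u * d), WOne.dia, mul_assoc]

lemma IsFam.eq_fam {k : ℤ} {f : (ZMod N)ˣ → ℍ → ℂ} (hf : IsFam N k f) (d : (ZMod N)ˣ) :
    f d = fam N k (f 1) d := by
  rw [fam, hf (lft N d) 1, del_lft, one_mul]

/-- The Hecke operator on families. -/
noncomputable def famT (k : ℤ) (p : ℕ) (u : (ZMod N)ˣ) (f : (ZMod N)ˣ → ℍ → ℂ) :
    (ZMod N)ˣ → ℍ → ℂ :=
  fun d => heckeU k p (f d) + (f (u * d)) ∣[k] heckeDiagMatrix p

section Hecke

open P2MW.S_ModularForm_heckeT_slash_eq_self_of_mem_Gamma0.ModularForm.HeckeSlashInvariance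

/-- The summands of the Hecke operator. -/
noncomputable def term (k : ℤ) (p : ℕ) (u : (ZMod N)ˣ) (f : (ZMod N)ˣ → ℍ → ℂ)
    (d : (ZMod N)ˣ) (x : OnePoint (ZMod p)) : ℍ → ℂ :=
  x.elim ((f (u * d)) ∣[k] heckeDiagMatrix p) (fun j => (f d) ∣[k] heckeMatrix p j.val)

lemma famT_eq_sum (k : ℤ) (p : ℕ) [NeZero p] (u : (ZMod N)ˣ) (f : (ZMod N)ˣ → ℍ → ℂ)
    (d : (ZMod N)ˣ) : famT k p u f d = ∑ x : OnePoint (ZMod p), term k p u f d x := by
  rw [famT, heckeU_eq_sum_zmod, add_comm]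
  exact (Fintype.sum_option (fun x : OnePoint (ZMod p) ↦ term k p u f d x)).symm

lemma entry_one (A B : GL (Fin 2) ℝ) (i j : Fin 2) (h : A = B) :
    (A : Matrix (Fin 2) (Fin 2) ℝ) i j = (B : Matrix (Fin 2) (Fin 2) ℝ) i j := by rw [h]

lemma slash_mapGL_of {k : ℤ} {f f' : ℍ → ℂ} {g : SL(2, ℤ)} (h : f ∣[k] g = f') :
    f ∣[k] (mapGL ℝ g : GL (Fin 2) ℝ) = f' := h

lemma term_slash {k : ℤ} {p : ℕ} [Fact p.Prime] (hpN : ¬ p ∣ N) {u : (ZMod N)ˣ}
    (hu : (u : ZMod N) = (p : ZMod N)) {f : (ZMod N)ˣ → ℍ → ℂ} (hf : IsFam N k f)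
    (γ : Gamma0 N) (d : (ZMod N)ˣ) (x : OnePoint (ZMod p)) :
    (term k p u f d x) ∣[k] (γ : SL(2, ℤ)) =
      term k p u f (d * del N γ) (redMatrix p (γ : SL(2, ℤ)) • x) := by
  have hp : p ≠ 0 := (Fact.out : p.Prime).ne_zero
  have hpR : (p : ℝ) ≠ 0 := by exact_mod_cast hp
  set g : SL(2, ℤ) := (γ : SL(2, ℤ)) with hg
  have hgN : (N : ℤ) ∣ g 1 0 :=
    (ZMod.intCast_zmod_eq_zero_iff_dvd _ _).mp (Gamma0_mem.mp γ.2)
  obtain ⟨g', hg'N, hmul⟩ := heckeRep_mul hpN g hgN x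
  have hg'0 : g' ∈ Gamma0 N := Gamma0_mem.mpr ((ZMod.intCast_zmod_eq_zero_iff_dvd _ _).mpr hg'N)
  have hg'z : ((g' 1 0 : ℤ) : ZMod N) = 0 := Gamma0_mem.mp hg'0
  have hgz : ((g 1 0 : ℤ) : ZMod N) = 0 := Gamma0_mem.mp γ.2
  have e10 := entry_one _ _ 1 0 hmul
  have e11 := entry_one _ _ 1 1 hmul
  rw [ModularForm.SL_slash]
  induction x using OnePoint.rec with
  | infty =>
    have hterm : term k p u f d ∞ = (f (u * d)) ∣[k] heckeRep p ∞ := rfl
    rw [hterm, ← SlashAction.slash_mul]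
    change (f (u * d)) ∣[k] (heckeRep p ∞ * mapGL ℝ g) = _
    rw [hmul, SlashAction.slash_mul]
    generalize hy : redMatrix p g • (∞ : OnePoint (ZMod p)) = y at *
    induction y using OnePoint.rec with
    | infty =>
      have h1 : f (u * d) ∣[k] g' = f (u * (d * del N γ)) := by
        apply hf.slash_eq g' hg'0
        have h2 : g 1 1 = g' 1 1 := by
          have : ((g 1 1 : ℤ) : ℝ) = ((g' 1 1 : ℤ) : ℝ) := by
            simpa [heckeRep, val_heckeDiagMatrix hp, Matrix.mul_apply, Fin.sum_univ_two] using e11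
          exact_mod_cast this
        rw [Units.val_mul, Units.val_mul, Units.val_mul, coe_del, ← hg, h2]
        ring
      rw [slash_mapGL_of h1]
      rfl
    | coe j' =>
      have h1 : f (u * d) ∣[k] g' = f (d * del N γ) := by
        apply hf.slash_eq g' hg'0
        have h2 : g 1 1 = g' 1 0 * (j'.val : ℤ) + g' 1 1 * p := by
          have : ((g 1 1 : ℤ) : ℝ) = ((g' 1 0 : ℤ) : ℝ) * (j'.val : ℝ) + ((g' 1 1 : ℤ) : ℝ) * p := by
            simpa [heckeRep, val_heckeDiagMatrix hp, val_heckeMatrix hp, Matrix.mul_apply,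
              Fin.sum_univ_two] using e11
          exact_mod_cast this
        have h3 := congrArg (Int.cast : ℤ → ZMod N) h2
        push_cast at h3
        rw [Units.val_mul, Units.val_mul, coe_del, ← hg, h3, hu, hg'z]
        ring
      rw [slash_mapGL_of h1]
      rfl
  | coe j =>
    have hterm : term k p u f d (j : OnePoint (ZMod p)) = (f d) ∣[k] heckeRep p j := rfl
    rw [hterm, ← SlashAction.slash_mul]
    change (f d) ∣[k] (heckeRep p j * mapGL ℝ g) = _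
    rw [hmul, SlashAction.slash_mul]
    generalize hy : redMatrix p g • (j : OnePoint (ZMod p)) = y at *
    induction y using OnePoint.rec with
    | infty =>
      have h1 : f d ∣[k] g' = f (u * (d * del N γ)) := by
        apply hf.slash_eq g' hg'0
        have h2 : p * g 1 1 = g' 1 1 := by
          have : (p : ℝ) * ((g 1 1 : ℤ) : ℝ) = ((g' 1 1 : ℤ) : ℝ) := by
            simpa [heckeRep, val_heckeDiagMatrix hp, val_heckeMatrix hp, Matrix.mul_apply,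
              Fin.sum_univ_two] using e11
          exact_mod_cast this
        rw [Units.val_mul, Units.val_mul, coe_del, ← hg, ← h2, hu]
        push_cast
        ring
      rw [slash_mapGL_of h1]
      rfl
    | coe j' =>
      have h1 : f d ∣[k] g' = f (d * del N γ) := by
        apply hf.slash_eq g' hg'0
        have h2 : (p : ℤ) * g 1 1 = g' 1 0 * (j'.val : ℤ) + g' 1 1 * p := by
          have : (p : ℝ) * ((g 1 1 : ℤ) : ℝ) =
              ((g' 1 0 : ℤ) : ℝ) * (j'.val : ℝ) + ((g' 1 1 : ℤ) : ℝ) * p := by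
            simpa [heckeRep, val_heckeDiagMatrix hp, val_heckeMatrix hp, Matrix.mul_apply,
              Fin.sum_univ_two] using e11
          exact_mod_cast this
        have h4 : (p : ℤ) * g 1 0 = g' 1 0 := by
          have : (p : ℝ) * ((g 1 0 : ℤ) : ℝ) = ((g' 1 0 : ℤ) : ℝ) := by
            simpa [heckeRep, val_heckeDiagMatrix hp, val_heckeMatrix hp, Matrix.mul_apply,
              Fin.sum_univ_two] using e10
          exact_mod_cast this
        have h5 : g 1 1 = g 1 0 * (j'.val : ℤ) + g' 1 1 := by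
          have hpZ : (p : ℤ) ≠ 0 := by exact_mod_cast hp
          apply mul_left_cancel₀ hpZ
          rw [h2, ← h4]; ring
        have h3 := congrArg (Int.cast : ℤ → ZMod N) h5
        push_cast at h3
        rw [Units.val_mul, coe_del, ← hg, h3, hgz]
        ring
      rw [slash_mapGL_of h1]
      rfl

/-- Hecke operators preserve families. -/
theorem IsFam.famT {k : ℤ} {p : ℕ} (hp : p.Prime) (hpN : ¬ p ∣ N) {u : (ZMod N)ˣ}
    (hu : (u : ZMod N) = (p : ZMod N)) {f : (ZMod N)ˣ → ℍ → ℂ} (hf : IsFam N k f) :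
    IsFam N k (famT k p u f) := by
  have : Fact p.Prime := ⟨hp⟩
  have : NeZero p := ⟨hp.ne_zero⟩
  intro γ d
  rw [famT_eq_sum, famT_eq_sum, ModularForm.SL_slash, SlashAction.sum_slash]
  rw [← Equiv.sum_comp (MulAction.toPerm (redMatrix p (γ : SL(2, ℤ))))
    (fun x ↦ term k p u f (d * del N γ) x)]
  refine Finset.sum_congr rfl fun x _ => ?_
  rw [← ModularForm.SL_slash, term_slash hpN hu hf]
  rfl

end Hecke

end Fermat.Agent.WOne
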