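import Fermat.Agent.WOne.P6Count

set_option autoImplicit false

/-!
# Deligne–Serre, Proposition 7.2
-/

open Matrix Projectivization MulAction
open scoped LinearAlgebra.Projectivization

universe u

namespace Fermat.Agent.WOne

namespace GL2

variable {k : Type u} [Field k] {G : Subgroup (GL (Fin 2) k)}

open Classical in
theorem wild_case [IsAlgClosed k] [Fintype G] (ℓ : ℕ) [Fact ℓ.Prime] [Algebra (ZMod ℓ) k]
    (hss : ∀ v : Fin 2 → k, v ≠ 0 → (∀ g ∈ G, ∃ c : k, g.1 *ᵥ v = c • v) →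
      ∃ w : Fin 2 → k, (∀ c : k, w ≠ c • v) ∧ ∀ g ∈ G, ∃ c : k, g.1 *ᵥ w = c • w)
    (htr : ∀ g ∈ G, ∃ t : ZMod ℓ, algebraMap (ZMod ℓ) k t = g.1.trace)
    {g : GL (Fin 2) k} (hg : g ∈ G) (hd : g.1.trace ^ 2 = 4 * g.1.det)
    (hns : ¬ ∃ c : k, g.1 = c • (1 : Matrix (Fin 2) (Fin 2) k)) :
    Fintype.card G ≤ ℓ ^ 4 ∧ ℓ ^ 2 * (ℓ - 1) ≤ Fintype.card G ∧
    ∀ τ δ : k, (Finset.univ.filter fun g : G => (g : GL (Fin 2) k).1.trace = τ ∧
        (g : GL (Fin 2) k).1.det = δ).card ≤ 2 * ℓ ^ 2 := by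
  have : CharP k ℓ := charP_of_injective_algebraMap (algebraMap (ZMod ℓ) k).injective ℓ
  obtain ⟨u, hu, hu1, hut, v, hv, huv⟩ := exists_unipotent (G := G) ℓ hg hd hns
  obtain ⟨h, hh, hhv⟩ := no_stable_line hss hg hd hns v hv
  have hhi : ((h : GL (Fin 2) k)⁻¹).1 * h.1 = 1 := by
    rw [← Units.val_mul, inv_mul_cancel, Units.val_one]
  have hw0 : h.1 *ᵥ v ≠ 0 := by
    intro h0
    exact hhv 0 (by rw [h0, zero_smul])
  have hdet : v 0 * (h.1 *ᵥ v) 1 - v 1 * (h.1 *ᵥ v) 0 ≠ 0 := by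
    intro h0
    have h1 : (h.1 *ᵥ v) 0 * v 1 - (h.1 *ᵥ v) 1 * v 0 = 0 := by linear_combination -h0
    have h2 := mk_eq_of_det hw0 hv h1
    rw [mk_eq_mk_iff'] at h2
    obtain ⟨a, ha⟩ := h2
    exact hhv a ha.symm
  have hu' : h * u * h⁻¹ ∈ G := mul_mem (mul_mem hh hu) (inv_mem hh)
  have hu'1 : h * u * h⁻¹ ≠ 1 := by
    intro h1
    apply hu1
    have : u = h⁻¹ * (h * u * h⁻¹) * h := by group
    rw [this, h1]
    group
  have hu't : (h * u * h⁻¹).1.trace = 2 := by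
    rw [Units.val_mul, Units.val_mul, ← hut]
    exact Matrix.trace_units_conj h u.1
  have hu'w : (h * u * h⁻¹).1 *ᵥ (h.1 *ᵥ v) = h.1 *ᵥ v := by
    rw [Matrix.mulVec_mulVec, Units.val_mul, Units.val_mul, mul_assoc, hhi, mul_one,
      ← Matrix.mulVec_mulVec, huv]
  obtain ⟨Q, c, hc0, hU, hU'⟩ := exists_conj hu1 hu'1 hut hu't hdet huv hu'w
  obtain ⟨t, ht⟩ := htr _ (mul_mem hu hu')
  have hct : algebraMap (ZMod ℓ) k (t - 2) = c := by
    rw [map_sub, ht, ← cj_trace Q, cj_mul]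
    have h1 : cj Q u = !![1, 1; 0, 1] := hU
    have h2 : cj Q (h * u * h⁻¹) = !![1, 0; c, 1] := hU'
    rw [h1, h2, Matrix.trace_fin_two, map_ofNat]
    simp [Matrix.mul_apply, Fin.sum_univ_two]
    ring
  have hc₀ : t - 2 ≠ 0 := by
    intro h0
    rw [h0, map_zero] at hct
    exact hc0 hct.symm
  exact wild_count ℓ hc₀ htr hu hu' hU (by rw [hct]; exact hU')

end GL2

open GL2

/-- Deligne–Serre, Proposition 7.2. -/
theorem bounded_card (η : ℝ) (hη : η < 1 / 2) (m : ℕ) : ∃ A : ℕ, ∀ (ℓ : ℕ) [Fact ℓ.Prime]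
    (k : Type u) [Field k] [IsAlgClosed k] [Algebra (ZMod ℓ) k] (G : Subgroup (GL (Fin 2) k))
    [Finite G],
    (∀ v : Fin 2 → k, v ≠ 0 → (∀ g ∈ G, ∃ c : k, g.1 *ᵥ v = c • v) →
      ∃ w : Fin 2 → k, (∀ c : k, w ≠ c • v) ∧ ∀ g ∈ G, ∃ c : k, g.1 *ᵥ w = c • w) →
    (∀ g ∈ G, ∃ t : ZMod ℓ, algebraMap (ZMod ℓ) k t = g.1.trace) →
    ∀ P : Finset (k × k), P.card ≤ m →
    (1 - η) * Nat.card G ≤ Nat.card
      {g : G // ((g : GL (Fin 2) k).1.trace, (g : GL (Fin 2) k).1.det) ∈ P} →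
    Nat.card G ≤ A := by
  classical
  refine ⟨max ((4 * m + 1) ^ 4) ⌈(120 * m : ℝ) / (1 / 2 - η)⌉₊, ?_⟩
  intro ℓ hℓ k _ _ _ G _ hss htr P hPm hP
  have hfin : Fintype G := Fintype.ofFinite G
  have hη' : 0 < 1 / 2 - η := by linarith
  set S : Finset G := Finset.univ.filter fun g : G =>
    ((g : GL (Fin 2) k).1.trace, (g : GL (Fin 2) k).1.det) ∈ P with hS
  have hScard : Nat.card {g : G // ((g : GL (Fin 2) k).1.trace, (g : GL (Fin 2) k).1.det) ∈ P} =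
      S.card := by
    rw [Nat.card_eq_fintype_card, Fintype.card_subtype]
  rw [hScard, Nat.card_eq_fintype_card] at hP
  rw [Nat.card_eq_fintype_card]
  -- the general bound
  have hgen : ∀ (T : Finset G) (B : ℕ), (∀ τ δ : k, (T.filter fun g : G =>
      (g : GL (Fin 2) k).1.trace = τ ∧ (g : GL (Fin 2) k).1.det = δ).card ≤ B) →
      (S ∩ T).card ≤ B * m := by
    intro T B hB
    refine (Finset.card_le_mul_card_image_of_maps_to (n := B) (s := S ∩ T) (t := P)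
      (f := fun g : G => ((g : GL (Fin 2) k).1.trace, (g : GL (Fin 2) k).1.det)) ?_ ?_).trans
      (Nat.mul_le_mul_left _ hPm)
    · intro g hg
      have := Finset.mem_of_mem_inter_left hg
      rw [hS, Finset.mem_filter] at this
      exact this.2
    · rintro ⟨τ, δ⟩ _
      refine le_trans (Finset.card_le_card ?_) (hB τ δ)
      intro g hg
      rw [Finset.mem_filter, Finset.mem_inter] at hg
      rw [Finset.mem_filter]
      exact ⟨hg.1.2, (Prod.mk.injEq _ _ _ _).mp hg.2⟩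
  by_cases hA : ∀ g ∈ G, g.1.trace ^ 2 = 4 * g.1.det →
      ∃ c : k, g.1 = c • (1 : Matrix (Fin 2) (Fin 2) k)
  · obtain ⟨T, hT, hTB⟩ := tame_case hA
    have h1 := hgen T 120 hTB
    have h2 : S.card + T.card ≤ Fintype.card G + (S ∩ T).card := by
      rw [← Finset.card_union_add_card_inter]
      exact Nat.add_le_add_right (Finset.card_le_univ _) _
    have h1' : ((S ∩ T).card : ℝ) ≤ 120 * m := by exact_mod_cast h1
    have h2' : (S.card : ℝ) + T.card ≤ Fintype.card G + (S ∩ T).card := by exact_mod_cast h2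
    have hT' : (Fintype.card G : ℝ) ≤ 2 * T.card := by exact_mod_cast hT
    have h3 : (Fintype.card G : ℝ) * (1 / 2 - η) ≤ 120 * m := by nlinarith
    have h4 : (Fintype.card G : ℝ) ≤ 120 * m / (1 / 2 - η) := by
      rwa [le_div_iff₀ hη']
    refine le_trans ?_ (le_max_right _ _)
    exact_mod_cast h4.trans (Nat.le_ceil _)
  · push Not at hA
    obtain ⟨g, hg, hd, hns⟩ := hA
    obtain ⟨h1, h2, h3⟩ := wild_case ℓ hss htr hg hd (by push Not; exact hns)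
    have h4 := hgen Finset.univ (2 * ℓ ^ 2) h3
    rw [Finset.inter_univ] at h4
    have h4' : (S.card : ℝ) ≤ 2 * (ℓ : ℝ) ^ 2 * m := by exact_mod_cast h4
    have hℓ1 : 1 ≤ ℓ := (Fact.out : ℓ.Prime).one_le
    have h2' : (ℓ : ℝ) ^ 2 * ((ℓ : ℝ) - 1) ≤ Fintype.card G := by
      have : ((ℓ ^ 2 * (ℓ - 1) : ℕ) : ℝ) ≤ Fintype.card G := by exact_mod_cast h2
      push_cast [Nat.cast_sub hℓ1] at this
      exact this
    have hℓ0 : (0 : ℝ) < (ℓ : ℝ) ^ 2 := by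
      have : (0 : ℝ) < ℓ := by exact_mod_cast hℓ1
      positivity
    have h5 : (1 / 2 : ℝ) * ((ℓ : ℝ) ^ 2 * ((ℓ : ℝ) - 1)) ≤ 2 * (ℓ : ℝ) ^ 2 * m := by
      have hc : (0 : ℝ) ≤ Fintype.card G := by positivity
      nlinarith
    have h6 : (ℓ : ℝ) ≤ 4 * m + 1 := by
      by_contra hcon
      push Not at hcon
      nlinarith
    have h7 : ℓ ≤ 4 * m + 1 := by exact_mod_cast h6
    refine le_trans ?_ (le_max_left _ _)
    exact h1.trans (Nat.pow_le_pow_left h7 4)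

end Fermat.Agent.WOne
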