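import Fermat.Agent.WOne.P7Dens

set_option autoImplicit false

/-!
# Finitely many values of `a p` off a set of small density
-/

open Filter Topology NumberField

namespace Fermat.Agent.WOne

open Classical in
theorem exists_finite_values (K : Type) [Field K] [NumberField K] (N : ℕ) (a : ℕ → 𝓞 K)
    (hR : ∀ τ : K →+* ℂ,
      DensLE (fun p => if (p : ℕ) ∣ N then 0 else ‖τ (a p : K)‖ ^ 2) 1)
    (η : ℝ) (hη : 0 < η) :
    ∃ Y : Finset (𝓞 K), DensLE (fun p => if ¬ (p : ℕ) ∣ N ∧ a p ∉ Y then 1 else 0) η := by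
  set d : ℕ := Fintype.card (K →+* ℂ) with hd
  have hd0 : 0 < d := by
    rw [hd, NumberField.Embeddings.card]
    exact Module.finrank_pos
  have hd0' : (0 : ℝ) < d := by exact_mod_cast hd0
  set c : ℝ := d / η with hc
  have hc0 : 0 < c := by positivity
  have hfin : {x : 𝓞 K | ∀ τ : K →+* ℂ, ‖τ (x : K)‖ ≤ Real.sqrt c}.Finite := by
    have h1 := NumberField.Embeddings.finite_of_norm_le K ℂ (Real.sqrt c)
    have h2 := h1.preimage (f := fun x : 𝓞 K => (x : K))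
      (RingOfIntegers.coe_injective.injOn)
    refine h2.subset fun x hx => ?_
    exact ⟨x.2, hx⟩
  refine ⟨hfin.toFinset, ?_⟩
  have hsum : DensLE (fun p => ∑ τ : K →+* ℂ,
      c⁻¹ * (if (p : ℕ) ∣ N then 0 else ‖τ (a p : K)‖ ^ 2)) (∑ _τ : K →+* ℂ, c⁻¹ * 1) :=
    DensLE.sum _ fun τ _ => (hR τ).const_mul (by positivity)
  have hval : ∑ _τ : K →+* ℂ, c⁻¹ * 1 = η := by
    rw [Finset.sum_const, Finset.card_univ, ← hd, nsmul_eq_mul, mul_one, hc]
    field_simp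
  rw [hval] at hsum
  refine DensLE.mono (fun p => by split_ifs <;> simp) (fun p => ?_) hsum
  have hnn : ∀ τ : K →+* ℂ, 0 ≤ c⁻¹ * (if (p : ℕ) ∣ N then 0 else ‖τ (a p : K)‖ ^ 2) := by
    intro τ
    split_ifs <;> positivity
  by_cases h : ¬ (p : ℕ) ∣ N ∧ a p ∉ hfin.toFinset
  · rw [if_pos h]
    obtain ⟨hpN, hY⟩ := h
    rw [Set.Finite.mem_toFinset, Set.mem_ofPred_eq] at hY
    push Not at hY
    obtain ⟨τ, hτ⟩ := hY
    refine le_trans ?_ (Finset.single_le_sum (f := fun τ : K →+* ℂ =>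
      c⁻¹ * (if (p : ℕ) ∣ N then 0 else ‖τ (a p : K)‖ ^ 2)) (fun τ _ => hnn τ)
      (Finset.mem_univ τ))
    rw [if_neg hpN]
    rw [← div_eq_inv_mul, one_le_div hc0]
    have h1 := pow_le_pow_left₀ (Real.sqrt_nonneg c) hτ.le 2
    rwa [Real.sq_sqrt hc0.le] at h1
  · rw [if_neg h]
    exact Finset.sum_nonneg fun τ _ => hnn τ

/-- Ring homomorphisms to `ZMod ℓ` for large `ℓ` do not kill given nonzero integers. -/
theorem exists_bound_ne_zero (K : Type) [Field K] [NumberField K] (F : Finset (𝓞 K))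
    (hF : ∀ x ∈ F, x ≠ 0) : ∃ B : ℕ, ∀ ℓ : ℕ, ℓ.Prime → B ≤ ℓ → ∀ φ : 𝓞 K →+* ZMod ℓ,
      ∀ x ∈ F, φ x ≠ 0 := by
  refine ⟨∑ x ∈ F, Ideal.absNorm (Ideal.span {x}) + 1, fun ℓ hℓ hB φ x hx h0 => ?_⟩
  have hn0 : Ideal.absNorm (Ideal.span {x}) ≠ 0 := by
    rw [Ne, Ideal.absNorm_eq_zero_iff, Ideal.span_singleton_eq_bot]
    exact hF x hx
  have h1 : ((Ideal.absNorm (Ideal.span {x}) : ℕ) : ZMod ℓ) = 0 := by
    obtain ⟨y, hy⟩ := Ideal.mem_span_singleton'.mp (Ideal.absNorm_mem (Ideal.span {x}))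
    have h2 := congrArg φ hy
    rw [map_mul, h0, mul_zero, map_natCast] at h2
    exact h2.symm
  rw [ZMod.natCast_eq_zero_iff] at h1
  have h3 := Nat.le_of_dvd (Nat.pos_of_ne_zero hn0) h1
  have h4 : Ideal.absNorm (Ideal.span {x}) ≤ ∑ x ∈ F, Ideal.absNorm (Ideal.span {x}) :=
    Finset.single_le_sum (f := fun x : 𝓞 K => Ideal.absNorm (Ideal.span {x}))
      (fun _ _ => Nat.zero_le _) hx
  lia

end Fermat.Agent.WOne
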