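import Fermat.Agent.WOne.P7Basic
import Fermat.Agent.WOne.P7Values
import Fermat.Agent.WOne.P6Main

set_option autoImplicit false

/-!
# The mod `ℓ` representations attached to a weight one form have bounded image
-/

open Filter Topology NumberField Matrix

local notation "Γℚ" => (AlgebraicClosure ℚ ≃ₐ[ℚ] AlgebraicClosure ℚ)

namespace Fermat.Agent.WOne

/-- Some Frobenius element at `p` is mapped into `C` and `ρ` is unramified there. -/
def FrobIn {G : Type} [Group G] (ρ : Γℚ →* G) (C : Set G) (p : ℕ) : Prop :=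
  ∃ A : ValuationSubring (AlgebraicClosure ℚ), A.LiesOverPrime p ∧
    (∀ σ ∈ A.inertiaSubgroupIn ℚ, ρ σ = 1) ∧ ∃ σ : Γℚ, A.IsFrobeniusAt σ p ∧ ρ σ ∈ C

open Classical in
/-- Chebotarev's theorem (lower bound for the lower Dirichlet density). -/
def ChebStmt : Prop :=
  ∀ (G : Type) [Group G] [Finite G] (ρ : Γℚ →* G), Function.Surjective ρ →
    GaloisFactorsThroughFiniteLevel ρ → ∀ C : Set G, (∀ g h : G, h ∈ C → g * h * g⁻¹ ∈ C) →
    DensGE (fun p => if FrobIn ρ C p then 1 else 0) ((Nat.card C : ℝ) / Nat.card G)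

/-- A mod `ℓ` representation attached to the systems `a`, `e`. -/
structure ModRep (N : ℕ) {K : Type} [Field K] [NumberField K] (a e : ℕ → 𝓞 K) (ℓ : ℕ)
    [Fact ℓ.Prime] (φ : 𝓞 K →+* ZMod ℓ) : Type 1 where
  k : Type
  [field : Field k]
  [algClosed : IsAlgClosed k]
  [alg : Algebra (ZMod ℓ) k]
  ρ : Γℚ →* GL (Fin 2) k
  level : GaloisFactorsThroughFiniteLevel ρ
  ss : ∀ v : Fin 2 → k, v ≠ 0 → (∀ σ, ∃ c : k, (ρ σ).1 *ᵥ v = c • v) →
    ∃ w : Fin 2 → k, (∀ c : k, w ≠ c • v) ∧ ∀ σ, ∃ c : k, (ρ σ).1 *ᵥ w = c • w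
  inertia : ∀ p : ℕ, p.Prime → ¬ p ∣ N → p ≠ ℓ → ∀ A : ValuationSubring (AlgebraicClosure ℚ),
    A.LiesOverPrime p → ∀ σ ∈ A.inertiaSubgroupIn ℚ, ρ σ = 1
  frob : ∀ p : ℕ, p.Prime → ¬ p ∣ N → p ≠ ℓ → ∀ A : ValuationSubring (AlgebraicClosure ℚ),
    A.LiesOverPrime p → ∀ σ : Γℚ, A.IsFrobeniusAt σ p →
      (ρ σ).1.trace = algebraMap (ZMod ℓ) k (φ (a p)) ∧
      (ρ σ).1.det = algebraMap (ZMod ℓ) k (φ (e p))

attribute [instance] ModRep.field ModRep.algClosed ModRep.alg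

lemma trace_pow_mem {F k : Type*} [Field F] [Field k] [Algebra F k]
    (M : Matrix (Fin 2) (Fin 2) k) {t d : F} (ht : M.trace = algebraMap F k t)
    (hd : M.det = algebraMap F k d) (j : ℕ) :
    ∃ x y : F, M ^ j = algebraMap F k x • M + algebraMap F k y • (1 : Matrix (Fin 2) (Fin 2) k) := by
  induction j with
  | zero => exact ⟨0, 1, by simp⟩
  | succ j ih =>
    obtain ⟨x, y, h⟩ := ih
    refine ⟨x * t + y, -(x * d), ?_⟩
    rw [pow_succ, h, add_mul, smul_mul_assoc, smul_mul_assoc, one_mul, GL2.cayley_hamilton_two, ht,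
      hd]
    simp only [map_add, map_mul, map_neg]
    module

section

variable {N : ℕ} {K : Type} [Field K] [NumberField K] {a e : ℕ → 𝓞 K}

lemma ModRep.exists_frobenius (hN : N ≠ 0) {ℓ : ℕ} [Fact ℓ.Prime] {φ : 𝓞 K →+* ZMod ℓ}
    (M : ModRep N a e ℓ φ) (σ : Γℚ) : ∃ p : ℕ, p.Prime ∧ ¬ p ∣ N ∧ p ≠ ℓ ∧
      ∃ τ : Γℚ, (M.ρ τ).1.trace = algebraMap (ZMod ℓ) M.k (φ (a p)) ∧
      (M.ρ τ).1.det = algebraMap (ZMod ℓ) M.k (φ (e p)) ∧ ∃ j : ℕ, M.ρ τ ^ j = M.ρ σ := by
  obtain ⟨p, hp, hpS, A, hA, τ, hτ, ⟨j, hj⟩, -⟩ :=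
    exists_frobenius_hom M.ρ M.level σ (insert ℓ N.divisors)
  rw [Finset.mem_insert, Nat.mem_divisors] at hpS
  push Not at hpS
  have hpN : ¬ p ∣ N := fun h => hN (hpS.2 h)
  obtain ⟨h1, h2⟩ := M.frob p hp hpN hpS.1 A hA τ hτ
  exact ⟨p, hp, hpN, hpS.1, τ, h1, h2, j, hj⟩

lemma ModRep.trace_mem (hN : N ≠ 0) {ℓ : ℕ} [Fact ℓ.Prime] {φ : 𝓞 K →+* ZMod ℓ}
    (M : ModRep N a e ℓ φ) (g : GL (Fin 2) M.k) (hg : g ∈ M.ρ.range) :
    ∃ t : ZMod ℓ, algebraMap (ZMod ℓ) M.k t = g.1.trace := by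
  obtain ⟨σ, rfl⟩ := hg
  obtain ⟨p, hp, hpN, hpℓ, τ, ht, hd, j, hj⟩ := M.exists_frobenius hN σ
  obtain ⟨x, y, h⟩ := trace_pow_mem (M.ρ τ).1 ht hd j
  refine ⟨x * φ (a p) + y * 2, ?_⟩
  rw [← hj, Units.val_pow_eq_pow_val, h, Matrix.trace_add, Matrix.trace_smul, Matrix.trace_smul,
    Matrix.trace_one, ht, map_add, map_mul, map_mul, map_ofNat]
  simp

open Classical in
/-- The images of the mod `ℓ` representations are bounded. -/
theorem exists_card_bound (cheb : ChebStmt) (hN : N ≠ 0) {E : ℕ} (hE : 0 < E)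
    (he : ∀ p : ℕ, p.Prime → ¬ p ∣ N → e p ^ E = 1)
    (hR : ∀ τ : K →+* ℂ,
      DensLE (fun p => if (p : ℕ) ∣ N then 0 else ‖τ (a p : K)‖ ^ 2) 1) :
    ∃ B : ℕ, ∀ (ℓ : ℕ) [Fact ℓ.Prime] (φ : 𝓞 K →+* ZMod ℓ) (M : ModRep N a e ℓ φ),
      Nat.card M.ρ.range ≤ B := by
  obtain ⟨Y, hY⟩ := exists_finite_values K N a hR (1 / 4) (by norm_num)
  set R : Finset (𝓞 K) := (Polynomial.nthRoots E (1 : 𝓞 K)).toFinset with hRdef
  obtain ⟨B, hB⟩ := bounded_card.{0} (1 / 4) (by norm_num) (Y.card * R.card)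
  refine ⟨B, fun ℓ _ φ M => ?_⟩
  have hfin : Finite M.ρ.range := finite_range M.ρ M.level
  set P : Finset (M.k × M.k) := (Y ×ˢ R).image fun x =>
    (algebraMap (ZMod ℓ) M.k (φ x.1), algebraMap (ZMod ℓ) M.k (φ x.2)) with hP
  refine hB ℓ M.k M.ρ.range ?_ (M.trace_mem hN) P ?_ ?_
  · intro v hv h
    obtain ⟨w, hw, hw'⟩ := M.ss v hv fun σ => h _ ⟨σ, rfl⟩
    exact ⟨w, hw, by rintro g ⟨σ, rfl⟩; exact hw' σ⟩
  · rw [← Finset.card_product]
    exact Finset.card_image_le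
  · set C : Set M.ρ.range := {g | ((g : GL (Fin 2) M.k).1.trace, (g : GL (Fin 2) M.k).1.det) ∉ P}
      with hC
    have hlev : GaloisFactorsThroughFiniteLevel M.ρ.rangeRestrict := by
      obtain ⟨L, hL, hρ⟩ := M.level
      exact ⟨L, hL, fun σ hσ => Subtype.ext (hρ σ hσ)⟩
    have hconj : ∀ g h : M.ρ.range, h ∈ C → g * h * g⁻¹ ∈ C := by
      intro g h hh
      have h1 : ((g * h * g⁻¹ : M.ρ.range) : GL (Fin 2) M.k).1.trace =
          (h : GL (Fin 2) M.k).1.trace :=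
        Matrix.trace_units_conj (g : GL (Fin 2) M.k) (h : GL (Fin 2) M.k).1
      have h2 : ((g * h * g⁻¹ : M.ρ.range) : GL (Fin 2) M.k).1.det =
          (h : GL (Fin 2) M.k).1.det :=
        Matrix.det_units_conj (g : GL (Fin 2) M.k) (h : GL (Fin 2) M.k).1
      rw [hC, Set.mem_ofPred_eq, h1, h2]
      exact hh
    have hge := cheb M.ρ.range M.ρ.rangeRestrict M.ρ.rangeRestrict_surjective hlev C hconj
    have hle : DensLE (fun p => if FrobIn M.ρ.rangeRestrict C p then 1 else 0) (1 / 4 + 0) := by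
      have hbad : DensLE (fun p : Nat.Primes => if (p : ℕ) ∣ N * ℓ then (1 : ℝ) else 0) 0 := by
        apply densLE_of_finite_support
        · intro p
          split_ifs <;> norm_num
        · have hNℓ : N * ℓ ≠ 0 := mul_ne_zero hN (Fact.out : ℓ.Prime).ne_zero
          refine Set.Finite.subset (Set.Finite.preimage (f := fun p : Nat.Primes => (p : ℕ))
            (Subtype.val_injective.injOn) (N * ℓ).divisors.finite_toSet) ?_
          intro p hp
          rw [Function.mem_support] at hp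
          have : (p : ℕ) ∣ N * ℓ := by
            by_contra h
            exact hp (if_neg h)
          simp [this, hN, (Fact.out : ℓ.Prime).ne_zero]
      refine DensLE.mono (fun p => ?_) (fun p => ?_) (hY.add hbad)
      · split_ifs <;> norm_num
      · by_cases hF : FrobIn M.ρ.rangeRestrict C p
        · rw [if_pos hF]
          by_cases hpN : (p : ℕ) ∣ N * ℓ
          · rw [if_pos hpN]
            split_ifs <;> norm_num
          · rw [if_neg hpN, if_pos]
            · norm_num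
            have hp1 : ¬ (p : ℕ) ∣ N := fun h => hpN (h.mul_right ℓ)
            have hp2 : (p : ℕ) ≠ ℓ := by
              intro h
              exact hpN (h ▸ Dvd.intro_left N rfl)
            refine ⟨hp1, fun hYp => ?_⟩
            obtain ⟨A, hA, -, σ, hσ, hσC⟩ := hF
            obtain ⟨h1, h2⟩ := M.frob p p.2 hp1 hp2 A hA σ hσ
            apply hσC
            show ((M.ρ σ).1.trace, (M.ρ σ).1.det) ∈ P
            rw [h1, h2, hP, Finset.mem_image]
            refine ⟨(a p, e p), ?_, rfl⟩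
            rw [Finset.mem_product]
            refine ⟨hYp, ?_⟩
            rw [hRdef, Multiset.mem_toFinset, Polynomial.mem_nthRoots hE]
            exact he p p.2 hp1
        · rw [if_neg hF]
          have h1 : (0 : ℝ) ≤ if (¬ (p : ℕ) ∣ N ∧ a p ∉ Y) then 1 else 0 := by
            split_ifs <;> norm_num
          have h2 : (0 : ℝ) ≤ if (p : ℕ) ∣ N * ℓ then 1 else 0 := by
            split_ifs <;> norm_num
          exact add_nonneg h1 h2
    have hcomp := hge.le_of_densLE hle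
    have hpos : (0 : ℝ) < Nat.card M.ρ.range := by exact_mod_cast Nat.card_pos
    rw [add_zero, div_le_iff₀ hpos] at hcomp
    have hsum : Nat.card C + Nat.card {g : M.ρ.range // ((g : GL (Fin 2) M.k).1.trace,
        (g : GL (Fin 2) M.k).1.det) ∈ P} = Nat.card M.ρ.range := by
      have hf : Fintype M.ρ.range := Fintype.ofFinite _
      rw [Nat.card_eq_fintype_card, Nat.card_eq_fintype_card, Nat.card_eq_fintype_card]
      have h1 := Fintype.card_subtype_compl (fun g : M.ρ.range =>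
        ((g : GL (Fin 2) M.k).1.trace, (g : GL (Fin 2) M.k).1.det) ∈ P)
      have h2 : Fintype.card C = Fintype.card {g : M.ρ.range // ¬ ((g : GL (Fin 2) M.k).1.trace,
        (g : GL (Fin 2) M.k).1.det) ∈ P} := Fintype.card_congr (Equiv.refl _)
      rw [h2, h1]
      exact Nat.sub_add_cancel (Fintype.card_subtype_le _)
    have hsum' : (Nat.card C : ℝ) + Nat.card {g : M.ρ.range // ((g : GL (Fin 2) M.k).1.trace,
        (g : GL (Fin 2) M.k).1.det) ∈ P} = Nat.card M.ρ.range := by exact_mod_cast hsum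
    linarith

end

end Fermat.Agent.WOne
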