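import Fermat.Agent.WOne.P7Level
import Fermat.Agent.Cheb.Final

set_option autoImplicit false

/-!
# Chebotarev's theorem in the form used by the assembly
-/

open Fermat.Agent.Cheb

namespace Fermat.Agent.WOne

theorem chebStmt : ChebStmt := by
  classical
  intro G _ _ ρ hρ hlev C hC δ hδ
  obtain ⟨E, hfin, hE⟩ := hlev
  obtain ⟨s₀, hs₀, h⟩ := chebotarev_lower ρ hρ E hfin
    (fun σ hσ => hE σ fun x hx => (IntermediateField.mem_fixingSubgroup_iff _ _).1 hσ x hx)
    C (fun g hg y => hC y g hg) hδ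
  refine ⟨s₀, hs₀, fun s hs hss => (h s hs hss).trans (le_of_eq ?_)⟩
  refine tsum_congr fun p => ?_
  beta_reduce
  by_cases hp : FrobIn ρ C p
  · have h1 : (if FrobIn ρ C p then (1 : ℝ) else 0) = 1 := if_pos hp
    rw [h1, one_mul]
    exact if_pos hp
  · have h1 : (if FrobIn ρ C p then (1 : ℝ) else 0) = 0 := if_neg hp
    rw [h1, zero_mul]
    exact if_neg hp

end Fermat.Agent.WOne
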