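import Fermat.Agent.WOne.P7Irr

set_option autoImplicit false

/-!
# From mod `ℓ` representations to an Artin representation
-/

open Filter Topology NumberField Matrix CongruenceSubgroup
open scoped MatrixGroups

local notation "Γℚ" => (AlgebraicClosure ℚ ≃ₐ[ℚ] AlgebraicClosure ℚ)

namespace Fermat.Agent.WOne

theorem artin_abstract (cheb : ChebStmt) {N : ℕ} (hN : N ≠ 0) {K : Type} [Field K] [NumberField K]
    (ι : K →+* ℂ) (a e : ℕ → 𝓞 K) {E : ℕ} (hE : 0 < E)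
    (he : ∀ p : ℕ, p.Prime → ¬ p ∣ N → e p ^ E = 1)
    (hR : ∀ τ : K →+* ℂ,
      DensLE (fun p => if (p : ℕ) ∣ N then 0 else ‖τ (a p : K)‖ ^ 2) 1)
    (hmod : ∃ ℓ₀ : ℕ, ∀ (ℓ : ℕ) [Fact ℓ.Prime], ℓ₀ ≤ ℓ → ∀ φ : 𝓞 K →+* ZMod ℓ,
      Nonempty (ModRep N a e ℓ φ)) :
    ∃ ρ : Γℚ →* GL (Fin 2) ℂ, GaloisFactorsThroughFiniteLevel ρ ∧
      (Deformation.matrixRepresentation ρ).IsIrreducible ∧
      ∀ p : ℕ, p.Prime → ¬ p ∣ N →
        ∀ A : ValuationSubring (AlgebraicClosure ℚ), A.LiesOverPrime p →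
          (∀ σ ∈ A.inertiaSubgroupIn ℚ, ρ σ = 1) ∧
          ∀ σ : Γℚ, A.IsFrobeniusAt σ p →
            (ρ σ).1.trace = ι (a p : K) ∧ (ρ σ).1.det = ι (e p : K) := by
  obtain ⟨B, hB⟩ := exists_card_bound cheb hN hE he hR
  obtain ⟨ℓ₀, hmod⟩ := hmod
  choose ℓ hℓge hℓp hφ using fun n => exists_prime_ringHom K (max n ℓ₀)
  have hℓ : ∀ n, Fact (ℓ n).Prime := fun n => ⟨hℓp n⟩
  let φ : ∀ n, 𝓞 K →+* ZMod (ℓ n) := fun n => (hφ n).some
  let M : ∀ n, ModRep N a e (ℓ n) (φ n) := fun n =>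
    (hmod (ℓ n) ((le_max_right _ _).trans (hℓge n)) (φ n)).some
  have hge : ∀ n, n ≤ ℓ n := fun n => (le_max_left _ _).trans (hℓge n)
  have hBn : ∀ n, Nat.card (M n).ρ.range ≤ B := fun n => hB (ℓ n) (φ n) (M n)
  have hlev := ultra_level ℓ φ M hN hE he hge hBn
  have hinj := intUltra_injective ℓ φ M hge
  let j : K →+* Ultra (fun n => (M n).k) := IsFractionRing.lift hinj
  have hj : ∀ x : 𝓞 K, j (x : K) = intUltra ℓ φ M x := fun x =>
    IsFractionRing.lift_algebraMap hinj x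
  letI : Algebra K (Ultra fun n => (M n).k) := j.toAlgebra
  obtain ⟨ρC, h1, h2, h3⟩ := exists_specialization ι (ultraRep ℓ φ M) (finite_range _ hlev)
  have hlevC : GaloisFactorsThroughFiniteLevel ρC := by
    obtain ⟨L, hL, hρ⟩ := hlev
    exact ⟨L, hL, fun σ hσ => h1 σ (hρ σ hσ)⟩
  have hfrob : ∀ p : ℕ, p.Prime → ¬ p ∣ N →
        ∀ A : ValuationSubring (AlgebraicClosure ℚ), A.LiesOverPrime p →
          (∀ σ ∈ A.inertiaSubgroupIn ℚ, ρC σ = 1) ∧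
          ∀ σ : Γℚ, A.IsFrobeniusAt σ p →
            (ρC σ).1.trace = ι (a p : K) ∧ (ρC σ).1.det = ι (e p : K) := by
    intro p hp hpN A hA
    refine ⟨fun σ hσ => h1 σ (ultra_inertia ℓ φ M hge hp hpN hA hσ), fun σ hσ => ?_⟩
    obtain ⟨t, d⟩ := ultra_frob ℓ φ M hge hp hpN hA hσ
    exact ⟨h2 σ _ (by rw [t, ← hj]; rfl), h3 σ _ (by rw [d, ← hj]; rfl)⟩
  exact ⟨ρC, hlevC, irreducible_of_density cheb hN ρC hlevC (fun p => ι (a p : K))
    (fun p hp hpN A hA σ hσ => ((hfrob p hp hpN A hA).2 σ hσ).1) (hR ι), hfrob⟩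

lemma densLE_of_rankin (N : ℕ) [NeZero N] (ε : DirichletCharacter ℂ N) (f : CuspForm (Gamma1 N) 1)
    (hf₁ : ModularFormClass.qCoeff f 1 = 1)
    (hT : ∀ p : ℕ, p.Prime → ¬ p ∣ N → ∀ n : ℕ,
        ModularFormClass.qCoeff f (p * n) +
            ε (p : ZMod N) * (if p ∣ n then ModularFormClass.qCoeff f (n / p) else 0) =
          ModularFormClass.qCoeff f p * ModularFormClass.qCoeff f n)
    (α : ℕ → ℂ) (hα : ∀ p : ℕ, p.Prime → ¬ p ∣ N → ModularFormClass.qCoeff f p = α p) :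
    DensLE (fun p => if (p : ℕ) ∣ N then 0 else ‖α p‖ ^ 2) 1 := by
  obtain ⟨C, hC⟩ := rankin_le N ε f hf₁ hT
  refine ⟨C, fun s h1 h2 => ?_⟩
  have heq : ∀ p : Nat.Primes, (if (p : ℕ) ∣ N then (0 : ℝ) else ‖α p‖ ^ 2) *
      ((p : ℕ) : ℝ) ^ (-s) = if (p : ℕ) ∣ N then (0 : ℝ) else
        ‖ModularFormClass.qCoeff f p‖ ^ 2 * ((p : ℕ) : ℝ) ^ (-s) := by
    intro p
    split_ifs with h
    · rw [zero_mul]
    · rw [hα p p.2 h]
  simp only [heq, one_mul]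
  exact hC s h1 h2

/-- The characteristic zero assembly in the theorem of Deligne and Serre. -/
theorem artin_of_modl (cheb : ChebStmt) (N : ℕ) [NeZero N] (ε : DirichletCharacter ℂ N)
    (f : CuspForm (Gamma1 N) 1) (K : Type) [Field K] [NumberField K] (ι : K →+* ℂ)
    (a e : ℕ → 𝓞 K)
    (ha : ∀ p : ℕ, p.Prime → ¬ p ∣ N →
      ι (a p : K) = ModularFormClass.qCoeff f p ∧ ι (e p : K) = ε (p : ZMod N))
    (hconj : ∀ τ : K →+* ℂ, ∃ (ε' : DirichletCharacter ℂ N) (f' : CuspForm (Gamma1 N) 1),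
      ModularFormClass.qCoeff f' 1 = 1 ∧
      (∀ p : ℕ, p.Prime → ¬ p ∣ N → ∀ n : ℕ,
        ModularFormClass.qCoeff f' (p * n) +
            ε' (p : ZMod N) * (if p ∣ n then ModularFormClass.qCoeff f' (n / p) else 0) =
          ModularFormClass.qCoeff f' p * ModularFormClass.qCoeff f' n) ∧
      ∀ p : ℕ, p.Prime → ¬ p ∣ N → ModularFormClass.qCoeff f' p = τ (a p : K))
    (hmod : ∃ ℓ₀ : ℕ, ∀ (ℓ : ℕ) [Fact ℓ.Prime], ℓ₀ ≤ ℓ → ∀ φ : 𝓞 K →+* ZMod ℓ,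
      Nonempty (ModRep N a e ℓ φ)) :
    ∃ ρ : Γℚ →* GL (Fin 2) ℂ, GaloisFactorsThroughFiniteLevel ρ ∧
      (Deformation.matrixRepresentation ρ).IsIrreducible ∧
      ∀ p : ℕ, p.Prime → ¬ p ∣ N →
        ∀ A : ValuationSubring (AlgebraicClosure ℚ), A.LiesOverPrime p →
          (∀ σ ∈ A.inertiaSubgroupIn ℚ, ρ σ = 1) ∧
          ∀ σ : Γℚ, A.IsFrobeniusAt σ p →
            ((ρ σ : GL (Fin 2) ℂ) : Matrix (Fin 2) (Fin 2) ℂ).trace =
              ModularFormClass.qCoeff f p ∧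
            ((ρ σ : GL (Fin 2) ℂ) : Matrix (Fin 2) (Fin 2) ℂ).det = ε (p : ZMod N) := by
  have hN : N ≠ 0 := NeZero.ne N
  have he : ∀ p : ℕ, p.Prime → ¬ p ∣ N → e p ^ Nat.totient N = 1 := by
    intro p hp hpN
    have hu : IsUnit (p : ZMod N) :=
      (ZMod.isUnit_iff_coprime p N).mpr ((Nat.Prime.coprime_iff_not_dvd hp).mpr hpN)
    obtain ⟨u, hu⟩ := hu
    have h1 : ε (p : ZMod N) ^ Nat.totient N = 1 := by
      rw [← hu, ← map_pow, ← Units.val_pow_eq_pow_val, ZMod.pow_totient, Units.val_one, map_one]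
    have h2 : ι ((e p : K) ^ Nat.totient N) = ι 1 := by
      rw [map_pow, (ha p hp hpN).2, h1, map_one]
    have h3 := ι.injective h2
    apply RingOfIntegers.coe_injective
    rw [map_pow, map_one]
    exact h3
  have hR : ∀ τ : K →+* ℂ,
      DensLE (fun p => if (p : ℕ) ∣ N then 0 else ‖τ (a p : K)‖ ^ 2) 1 := by
    intro τ
    obtain ⟨ε', f', h1, h2, h3⟩ := hconj τ
    exact densLE_of_rankin N ε' f' h1 h2 (fun p => τ (a p : K)) h3
  obtain ⟨ρ, h1, h2, h3⟩ := artin_abstract cheb hN ι a e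
    (Nat.totient_pos.mpr (NeZero.pos N)) he hR hmod
  refine ⟨ρ, h1, h2, fun p hp hpN A hA => ⟨(h3 p hp hpN A hA).1, fun σ hσ => ?_⟩⟩
  obtain ⟨t, d⟩ := (h3 p hp hpN A hA).2 σ hσ
  exact ⟨t.trans (ha p hp hpN).1, d.trans (ha p hp hpN).2⟩

end Fermat.Agent.WOne
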