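import Fermat.Agent.WOne.FamForm
import Fermat.Prelude.Thm_UpperHalfPlane_qCoeff_heckeT
import Fermat.Prelude.Thm_ModularForm_periodic_heckeT_comp_ofComplex
import Fermat.Prelude.Thm_ModularForm_periodic_heckeU_comp_ofComplex
import Fermat.Prelude.Thm_ModularForm_mdifferentiable_heckeT
import Fermat.Prelude.Thm_ModularForm_isBoundedAtImInfty_heckeT
import Fermat.Prelude.Thm_ModularForm_isBoundedAtImInfty_heckeU

set_option autoImplicit false

/-!
# The nebentypus of a weight one Hecke eigenform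
-/

open CongruenceSubgroup ModularForm UpperHalfPlane Matrix.SpecialLinearGroup
open scoped MatrixGroups ModularForm Manifold OnePoint Topology
open Fermat.Agent.IntStr (bddSub perSub IsCuspF qE_add qE_smul qE_inj qE)
open ModularFormClass (qCoeff)

namespace Fermat.Agent.WOne

variable {N : ℕ} {k l : ℤ}

section QExp

lemma qCoeff_add {f g : ℍ → ℂ} (hf : f ∈ perSub) (hg : g ∈ perSub) (n : ℕ) :
    qCoeff (f + g) n = qCoeff f n + qCoeff g n := by
  have := congrArg (PowerSeries.coeff n) (qE_add hf hg)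
  rw [map_add] at this
  exact this

lemma qCoeff_smul {f : ℍ → ℂ} (hf : f ∈ perSub) (c : ℂ) (n : ℕ) :
    qCoeff (c • f) n = c * qCoeff f n := by
  have := congrArg (PowerSeries.coeff n) (qE_smul hf c)
  rw [PowerSeries.coeff_smul] at this
  exact this

lemma heckeU_mem_perSub {f : ℍ → ℂ} (hf : f ∈ perSub) (k : ℤ) (p : ℕ) :
    heckeU k p f ∈ perSub :=
  ⟨ModularForm.periodic_heckeU_comp_ofComplex hf.1 k p, ModularForm.mdifferentiable_heckeU hf.2.1 k p,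
    ModularForm.isBoundedAtImInfty_heckeU hf.2.2 k p⟩

lemma heckeT_mem_perSub {f : ℍ → ℂ} (hf : f ∈ perSub) (k : ℤ) (p : ℕ) :
    heckeT k p f ∈ perSub :=
  ⟨ModularForm.periodic_heckeT_comp_ofComplex hf.1 k p, ModularForm.mdifferentiable_heckeT hf.2.1 k p,
    ModularForm.isBoundedAtImInfty_heckeT hf.2.2 k p⟩

lemma slashDiag_mem_perSub {f : ℍ → ℂ} (hf : f ∈ perSub) (k : ℤ) (p : ℕ) :
    f ∣[k] heckeDiagMatrix p ∈ perSub := by
  have h := sub_mem (heckeT_mem_perSub hf k p) (heckeU_mem_perSub hf k p)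
  rwa [heckeT_eq_heckeU_add, add_sub_cancel_left] at h

lemma qCoeff_slashDiag {f : ℍ → ℂ} (hf : f ∈ perSub) (k : ℤ) {p : ℕ} (hp : p ≠ 0) (n : ℕ) :
    qCoeff (f ∣[k] heckeDiagMatrix p) n =
      if p ∣ n then (p : ℂ) ^ (k - 1) * qCoeff f (n / p) else 0 := by
  have h1 := UpperHalfPlane.qCoeff_heckeT hf.1 hf.2.1 hf.2.2 k hp n
  have h2 := UpperHalfPlane.qCoeff_heckeU hf.1 hf.2.1 hf.2.2 k hp n
  rw [heckeT_eq_heckeU_add, qCoeff_add (heckeU_mem_perSub hf k p) (slashDiag_mem_perSub hf k p),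
    h2, coeffHeckeT_apply, coeffHeckeU_apply] at h1
  exact add_left_cancel h1

lemma eq_of_qCoeff {f g : ℍ → ℂ} (hf : f ∈ perSub) (hg : g ∈ perSub)
    (h : ∀ n, qCoeff f n = qCoeff g n) : f = g :=
  UpperHalfPlane.eq_of_forall_qCoeff_eq hf.1 hf.2.1 hf.2.2 hg.1 hg.2.1 hg.2.2 h

end QExp

lemma denom_mapGL (g : SL(2, ℤ)) (z : ℂ) :
    denom (mapGL ℝ g : GL (Fin 2) ℝ) z = ((g 1 0 : ℤ) : ℂ) * z + ((g 1 1 : ℤ) : ℂ) := by
  simp [denom, Matrix.SpecialLinearGroup.mapGL_coe_matrix]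

/-- the nonnegative function attached to a family in weight one -/
noncomputable def Phi (N : ℕ) [NeZero N] (h : (ZMod N)ˣ → ℍ → ℂ) (τ : ℍ) : ℝ :=
  ∑ d, ‖h d τ‖ ^ 2 * τ.im

lemma Phi_smul [NeZero N] {h : (ZMod N)ˣ → ℍ → ℂ} (hh : IsFam N 1 h) (γ : SL(2, ℤ))
    (hγ : γ ∈ Gamma0 N) (τ : ℍ) : Phi N h (γ • τ) = Phi N h τ := by
  have key : ∀ d, ‖h d (γ • τ)‖ ^ 2 * (γ • τ).im = ‖h (d * del N ⟨γ, hγ⟩) τ‖ ^ 2 * τ.im := by
    intro d
    have h1 := congrFun (hh ⟨γ, hγ⟩ d) τ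
    simp only at h1
    rw [ModularForm.SL_slash_apply, zpow_neg, zpow_one] at h1
    have h0 : denom γ τ ≠ 0 := denom_ne_zero _ _
    have h2 : ‖denom γ τ‖ ^ 2 = Complex.normSq (denom γ τ) := (Complex.normSq_eq_norm_sq _).symm
    have h3 : (γ • τ).im = τ.im / Complex.normSq (denom γ τ) := by
      have := UpperHalfPlane.im_smul_eq_div_normSq (mapGL ℝ γ) τ
      rw [show (γ • τ) = (mapGL ℝ γ : GL (Fin 2) ℝ) • τ from rfl, this]
      simp only [Matrix.SpecialLinearGroup.det_mapGL, Units.val_one, abs_one, one_mul]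
      rfl
    rw [h3, ← h1, norm_mul, norm_inv, mul_pow, inv_pow, h2]
    have h4 : Complex.normSq (denom γ τ) ≠ 0 := by
      rw [Ne, Complex.normSq_eq_zero]; exact h0
    field_simp
  rw [Phi, Finset.sum_congr rfl fun d _ => key d]
  exact Equiv.sum_comp (Equiv.mulRight (del N ⟨γ, hγ⟩)) fun d => ‖h d τ‖ ^ 2 * τ.im

lemma im_heckeDiag {p : ℕ} (hp : p ≠ 0) (τ : ℍ) : (heckeDiagMatrix p • τ).im = p * τ.im := by
  rw [← UpperHalfPlane.coe_im, coe_heckeDiagMatrix_smul hp, Complex.mul_im]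
  simp

lemma Phi_heckeDiag [NeZero N] {h G : (ZMod N)ˣ → ℍ → ℂ} {p : ℕ} (hp : p ≠ 0)
    (hG : ∀ d, G d = h d ∣[(1 : ℤ)] heckeDiagMatrix p) (τ : ℍ) :
    Phi N h (heckeDiagMatrix p • τ) = p * Phi N G τ := by
  rw [Phi, Phi, Finset.mul_sum]
  refine Finset.sum_congr rfl fun d _ => ?_
  rw [hG, slash_heckeDiagMatrix_apply 1 hp, im_heckeDiag hp]
  simp only [sub_self, zpow_zero, one_mul]
  ring

lemma Phi_tendsto [NeZero N] {h : (ZMod N)ˣ → ℍ → ℂ} (hh : IsFamCusp N 1 h) :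
    Filter.Tendsto (Phi N h) atImInfty (𝓝 0) := by
  have key : ∀ d, Filter.Tendsto (fun τ : ℍ => ‖h d τ‖ ^ 2 * τ.im) atImInfty (𝓝 0) := by
    intro d
    have h1 := UpperHalfPlane.IsZeroAtImInfty.exp_decay_atImInfty (h := 1)
      (by simpa using hh.zero d 1) one_pos
      (by simpa using hh.isFamForm.periodic d) (hh.holo d) (by simpa using hh.isFamForm.bdd d 1)
    have h2 : (fun τ : ℍ => ‖h d τ‖ ^ 2 * τ.im) =O[atImInfty]
        fun τ => Real.exp (-2 * Real.pi * τ.im / 1) ^ 2 * τ.im :=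
      (h1.norm_left.pow 2).mul (Asymptotics.isBigO_refl _ _)
    refine h2.trans_tendsto ?_
    have h3 : Filter.Tendsto (fun y : ℝ => Real.exp (-2 * Real.pi * y / 1) ^ 2 * y)
        Filter.atTop (𝓝 0) := by
      have h4 := tendsto_rpow_mul_exp_neg_mul_atTop_nhds_zero 1 (4 * Real.pi)
        (by positivity)
      refine h4.congr fun y => ?_
      rw [← Real.exp_nat_mul, Real.rpow_one, mul_comm]
      congr 2
      push_cast
      ring
    exact h3.comp Filter.tendsto_comap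
  have := tendsto_finsetSum Finset.univ fun d _ => key d
  rw [Finset.sum_const_zero] at this
  exact this

lemma Phi_nonneg [NeZero N] (h : (ZMod N)ˣ → ℍ → ℂ) (τ : ℍ) : 0 ≤ Phi N h τ :=
  Finset.sum_nonneg fun _ _ => mul_nonneg (sq_nonneg _) τ.im_pos.le

lemma eq_zero_of_Phi [NeZero N] {h : (ZMod N)ˣ → ℍ → ℂ} (hh : ∀ τ, Phi N h τ = 0)
    (d : (ZMod N)ˣ) : h d = 0 := by
  ext τ
  have h1 := (Finset.sum_eq_zero_iff_of_nonneg fun d _ =>
    mul_nonneg (sq_nonneg ‖h d τ‖) τ.im_pos.le).mp (hh τ) d (Finset.mem_univ d)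
  have h2 : ‖h d τ‖ ^ 2 = 0 := (mul_eq_zero.mp h1).resolve_right τ.im_pos.ne'
  simpa using h2

/-- The main vanishing: if both `h` and `h ∣ diag(p,1)` are families for `Γ₀(N)`, `p ∤ N`,
then `h = 0`. -/
theorem eq_zero_of_oldclass [NeZero N] {h G : (ZMod N)ˣ → ℍ → ℂ} (hh : IsFamCusp N 1 h)
    (hGf : IsFam N 1 G) {p : ℕ} (hp : p.Prime) (hpN : ¬ p ∣ N)
    (hG : ∀ d, G d = h d ∣[(1 : ℤ)] heckeDiagMatrix p) (d : (ZMod N)ˣ) : h d = 0 := by
  have hp0 := hp.ne_zero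
  have hpR : (0 : ℝ) < p := by exact_mod_cast hp.pos
  apply eq_zero_of_Phi
  -- a p - b N = 1
  obtain ⟨a, b, hab⟩ : ∃ a b : ℤ, a * p - b * N = 1 := by
    have hcop : IsCoprime (p : ℤ) (N : ℤ) :=
      Nat.isCoprime_iff_coprime.mpr ((Nat.Prime.coprime_iff_not_dvd hp).mpr hpN)
    obtain ⟨a, b, h⟩ := hcop
    exact ⟨a, -b, by linear_combination h⟩
  let g : SL(2, ℤ) := ⟨!![a, b; N, p], by rw [Matrix.det_fin_two_of]; linear_combination hab⟩
  let L : SL(2, ℤ) := ⟨!![1, 0; N, 1], by rw [Matrix.det_fin_two_of]; ring⟩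
  have hg : g ∈ Gamma0 N := by rw [Gamma0_mem]; simp [g]
  have hL : L ∈ Gamma0 N := by rw [Gamma0_mem]; simp [L]
  -- the map w ↦ p² w - p b
  have key : ∀ w : ℍ, ∃ w' : ℍ, w'.im = (p : ℝ) ^ 2 * w.im ∧ Phi N h w' = Phi N h w := by
    intro w
    -- w = g (p τ)
    obtain ⟨τ, hτ⟩ : ∃ τ : ℍ, g • (heckeDiagMatrix p • τ) = w :=
      ⟨(heckeDiagMatrix p)⁻¹ • (g⁻¹ • w), by rw [smul_inv_smul, smul_inv_smul]⟩
    refine ⟨heckeDiagMatrix p • (L • τ), ?_, ?_⟩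
    · have hLτ : (L • τ).im = τ.im / Complex.normSq ((N : ℂ) * τ + 1) := by
        have := UpperHalfPlane.im_smul_eq_div_normSq (mapGL ℝ L) τ
        rw [show (L • τ) = (mapGL ℝ L : GL (Fin 2) ℝ) • τ from rfl, this]
        simp only [Matrix.SpecialLinearGroup.det_mapGL, Units.val_one, abs_one, one_mul]
        rw [denom_mapGL]
        congr 2
        simp [L]
      have hgτ : w.im = p * τ.im / Complex.normSq ((N : ℂ) * (p * τ) + p) := by
        have := UpperHalfPlane.im_smul_eq_div_normSq (mapGL ℝ g) (heckeDiagMatrix p • τ)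
        rw [← hτ, show (g • (heckeDiagMatrix p • τ)) =
          (mapGL ℝ g : GL (Fin 2) ℝ) • (heckeDiagMatrix p • τ) from rfl, this]
        simp only [Matrix.SpecialLinearGroup.det_mapGL, Units.val_one, abs_one, one_mul]
        rw [im_heckeDiag hp0, denom_mapGL]
        congr 2
        simp [g, coe_heckeDiagMatrix_smul hp0]
      rw [im_heckeDiag hp0, hLτ, hgτ,
        show (N : ℂ) * (p * τ) + p = p * ((N : ℂ) * τ + 1) by ring, map_mul,
        Complex.normSq_natCast]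
      field_simp
    · rw [Phi_heckeDiag hp0 hG, Phi_smul hGf L hL, ← Phi_heckeDiag hp0 hG, ← hτ,
        Phi_smul hh.fam g hg]
  intro τ
  -- iterate
  have hit : ∀ n : ℕ, ∃ w : ℍ, w.im = ((p : ℝ) ^ 2) ^ n * τ.im ∧ Phi N h w = Phi N h τ := by
    intro n
    induction n with
    | zero => exact ⟨τ, by simp, rfl⟩
    | succ n ih =>
      obtain ⟨w, hw1, hw2⟩ := ih
      obtain ⟨w', hw1', hw2'⟩ := key w
      exact ⟨w', by rw [hw1', hw1]; ring, by rw [hw2', hw2]⟩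
  choose w hw1 hw2 using hit
  have hlim : Filter.Tendsto w Filter.atTop atImInfty := by
    rw [atImInfty, Filter.tendsto_comap_iff]
    have : (UpperHalfPlane.im ∘ w) = fun n => ((p : ℝ) ^ 2) ^ n * τ.im := by
      ext n; exact hw1 n
    rw [this]
    apply Filter.Tendsto.atTop_mul_const τ.im_pos
    apply tendsto_pow_atTop_atTop_of_one_lt
    have : (2 : ℝ) ≤ p := by exact_mod_cast hp.two_le
    nlinarith
  have h1 := (Phi_tendsto hh).comp hlim
  have h2 : (Phi N h ∘ w) = fun _ => Phi N h τ := by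
    ext n; exact hw2 n
  rw [h2] at h1
  exact tendsto_nhds_unique tendsto_const_nhds h1

end Fermat.Agent.WOne

namespace Fermat.Agent.WOne

variable {N : ℕ} {k l : ℤ}

open P2MW.S_ModularForm_heckeT_slash_eq_self_of_mem_Gamma0.ModularForm.HeckeSlashInvariance

lemma slashDiag_smul (k : ℤ) (p : ℕ) (c : ℂ) (f : ℍ → ℂ) :
    (c • f) ∣[k] heckeDiagMatrix p = c • (f ∣[k] heckeDiagMatrix p) := by
  rw [ModularForm.smul_slash, σ_heckeDiagMatrix, ContinuousAlgEquiv.refl_apply]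

/-- lifts of units of `ℤ/N` to elements of `Γ₀(Np)` -/
lemma exists_lift_mul [NeZero N] {p : ℕ} (hp : p.Prime) (d : (ZMod N)ˣ) :
    ∃ γ : Gamma0 N, del N γ = d ∧ ((N * p : ℕ) : ℤ) ∣ (γ : SL(2, ℤ)) 1 0 := by
  have : NeZero (N * p) := ⟨mul_ne_zero (NeZero.ne N) hp.ne_zero⟩
  obtain ⟨d', hd'⟩ := ZMod.unitsMap_surjective (dvd_mul_right N p) d
  obtain ⟨γ, hγ⟩ := exists_del_eq d'
  have h0 : ((N * p : ℕ) : ℤ) ∣ (γ : SL(2, ℤ)) 1 0 :=
    (ZMod.intCast_zmod_eq_zero_iff_dvd _ _).mp (Gamma0_mem.mp γ.2)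
  have h1 : (N : ℤ) ∣ (γ : SL(2, ℤ)) 1 0 := dvd_trans (by push_cast; exact dvd_mul_right _ _) h0
  refine ⟨⟨γ, Gamma0_mem.mpr ((ZMod.intCast_zmod_eq_zero_iff_dvd _ _).mpr h1)⟩, ?_, h0⟩
  rw [del_eq_iff] at hγ ⊢
  have h2 := congrArg (ZMod.castHom (dvd_mul_right N p) (ZMod N)) hγ
  rw [map_intCast] at h2
  simp only
  rw [h2, ← hd']
  rfl

/-- if `G` and `h` are families and `G 1 = h 1 ∣ diag(p,1)`, then the same is true everywhere -/
lemma oldclass_of_one [NeZero N] {G h : (ZMod N)ˣ → ℍ → ℂ} (hG : IsFam N k G) (hh : IsFam N k h)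
    {p : ℕ} (hp : p.Prime) (h1 : G 1 = h 1 ∣[k] heckeDiagMatrix p) (d : (ZMod N)ˣ) :
    G d = h d ∣[k] heckeDiagMatrix p := by
  obtain ⟨γ, hγ, e', he'⟩ := exists_lift_mul hp d
  have hp0 := hp.ne_zero
  have hpR : (p : ℝ) ≠ 0 := by exact_mod_cast hp0
  obtain ⟨g', hg', hmul⟩ := heckeDiagMatrix_mul_of_eq' hp0 (γ : SL(2, ℤ)) (N * e')
    (by rw [he']; push_cast; ring)
  have hg'0 : g' ∈ Gamma0 N := by
    rw [Gamma0_mem, hg']; push_cast; simp
  have e11 := entry_one _ _ 1 1 hmul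
  have h2 := hG γ 1
  rw [one_mul, hγ, h1, ModularForm.SL_slash, ← SlashAction.slash_mul] at h2
  have h3 : h 1 ∣[k] (heckeDiagMatrix p * mapGL ℝ (γ : SL(2, ℤ))) =
      (h 1 ∣[k] g') ∣[k] heckeDiagMatrix p := by
    rw [hmul, SlashAction.slash_mul]; rfl
  have h4 : h 1 ∣[k] g' = h d := by
    apply hh.slash_eq g' hg'0
    have h5 : (γ : SL(2, ℤ)) 1 1 = g' 1 1 := by
      have : (((γ : SL(2, ℤ)) 1 1 : ℤ) : ℝ) = ((g' 1 1 : ℤ) : ℝ) := by
        simpa [val_heckeDiagMatrix hp0, Matrix.mul_apply, Fin.sum_univ_two] using e11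
      exact_mod_cast this
    rw [← h5, ← hγ, coe_del]; simp
  rw [← h2, ← h4]
  exact h3

/-- **The nebentypus** of a weight one eigenform. -/
theorem nebentypus [NeZero N] (ε : DirichletCharacter ℂ N) (f : CuspForm (Gamma1 N) 1)
    (hT : ∀ p : ℕ, p.Prime → ¬ p ∣ N → ∀ n : ℕ,
        qCoeff f (p * n) + ε (p : ZMod N) * (if p ∣ n then qCoeff f (n / p) else 0) =
          qCoeff f p * qCoeff f n) (d : (ZMod N)ˣ) :
    fam N 1 f d = ε d • (f : ℍ → ℂ) := by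
  -- a prime in the class of `d`
  obtain ⟨p, -, hp, hpd⟩ := Nat.forall_exists_prime_gt_and_eq_mod d.isUnit 0
  have hpN : ¬ p ∣ N := by
    intro h
    have h1 : IsUnit (p : ZMod N) := by rw [hpd]; exact d.isUnit
    rw [ZMod.isUnit_iff_coprime] at h1
    exact ((Nat.Prime.coprime_iff_not_dvd hp).mp h1) h
  have hp0 := hp.ne_zero
  set F := fam N 1 f with hF
  have hFc : IsFamCusp N 1 F := IsFamCusp.of_cusp f
  have hinv : ∀ g ∈ Gamma1 N, (f : ℍ → ℂ) ∣[(1 : ℤ)] g = f :=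
    fun γ hγ => SlashInvariantFormClass.slash_action_eq f _ ⟨γ, hγ, rfl⟩
  have hF1 : F 1 = f := fam_one hinv
  have hfp : (f : ℍ → ℂ) ∈ perSub := by
    have := hFc.isFamForm.mem_perSub 1
    rwa [hF1] at this
  -- star
  have star : heckeU 1 p (f : ℍ → ℂ) + ε (p : ZMod N) • ((f : ℍ → ℂ) ∣[(1 : ℤ)] heckeDiagMatrix p) =
      qCoeff f p • (f : ℍ → ℂ) := by
    apply eq_of_qCoeff (add_mem (heckeU_mem_perSub hfp 1 p)
      (perSub.smul_mem (slashDiag_mem_perSub hfp 1 p) _)) (perSub.smul_mem hfp _)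
    intro n
    rw [qCoeff_add (heckeU_mem_perSub hfp 1 p) (perSub.smul_mem (slashDiag_mem_perSub hfp 1 p) _),
      qCoeff_smul (slashDiag_mem_perSub hfp 1 p), qCoeff_smul hfp, qCoeff_slashDiag hfp 1 hp0,
      UpperHalfPlane.qCoeff_heckeU hfp.1 hfp.2.1 hfp.2.2 1 hp0, coeffHeckeU_apply, ← hT p hp hpN n,
      mul_comm n p]
    simp
  have hGc : IsFamCusp N 1 (famT 1 p d F + (-qCoeff f p) • F) :=
    (hFc.famT hp hpN hpd.symm).add (hFc.smul _)
  have hhc : IsFamCusp N 1 (dia d F + (-ε (p : ZMod N)) • F) := (hFc.dia d).add (hFc.smul _)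
  have h1 : (famT 1 p d F + (-qCoeff f p) • F) 1 =
      (dia d F + (-ε (p : ZMod N)) • F) 1 ∣[(1 : ℤ)] heckeDiagMatrix p := by
    rw [Pi.add_apply, Pi.add_apply, Pi.smul_apply, Pi.smul_apply, SlashAction.add_slash,
      slashDiag_smul, famT, dia, hF1, _root_.neg_smul, _root_.neg_smul, ← star]
    abel
  have h2 := eq_zero_of_oldclass hhc hGc.fam hp hpN (oldclass_of_one hGc.fam hhc.fam hp h1) 1
  rw [Pi.add_apply, Pi.smul_apply, dia, hF1, mul_one, _root_.neg_smul, hpd, add_neg_eq_zero] at h2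
  exact h2

end Fermat.Agent.WOne
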