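import Fermat.Agent.WOne.Family
import Fermat.Agent.IntStr.Cusp
import Fermat.Prelude.Thm_CuspFormClass_isZeroAt_heckeT
import Fermat.Prelude.Thm_UpperHalfPlane_qCoeff_heckeU
import Fermat.Prelude.Thm_UpperHalfPlane_eq_of_forall_qCoeff_eq
import Fermat.Prelude.Thm_ModularForm_mdifferentiable_heckeU

set_option autoImplicit false

/-!
# Families of modular / cusp forms
-/

open CongruenceSubgroup ModularForm UpperHalfPlane Matrix.SpecialLinearGroup
open scoped MatrixGroups ModularForm Manifold OnePoint Topology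
open Fermat.Agent.IntStr (bddSub perSub IsCuspF)

namespace Fermat.Agent.WOne

variable {N : ℕ} {k l : ℤ}

/-- A `Γ₀(N)`-family of modular forms. -/
structure IsFamForm (N : ℕ) (k : ℤ) (F : (ZMod N)ˣ → ℍ → ℂ) : Prop where
  fam : IsFam N k F
  holo : ∀ d, MDiff (F d)
  bdd : ∀ d (γ : SL(2, ℤ)), IsBoundedAtImInfty (F d ∣[k] γ)

/-- A `Γ₀(N)`-family of cusp forms. -/
structure IsFamCusp (N : ℕ) (k : ℤ) (F : (ZMod N)ˣ → ℍ → ℂ) : Prop where
  fam : IsFam N k F
  holo : ∀ d, MDiff (F d)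
  zero : ∀ d (γ : SL(2, ℤ)), IsZeroAtImInfty (F d ∣[k] γ)

/-- conversion of a periodicity statement -/
lemma periodic_of_T {f : ℍ → ℂ} (hT : f ∣[k] ModularGroup.T = f) :
    Function.Periodic (f ∘ ofComplex) 1 := by
  intro w
  by_cases hw : 0 < w.im
  · have hw' : 0 < (w + 1).im := by simpa using hw
    simp only [Function.comp_apply, ofComplex_apply_of_im_pos hw, ofComplex_apply_of_im_pos hw']
    have h1 := (slash_action_eq'_iff k f _ _).mp (congrFun hT ⟨w, hw⟩)
    have h2 : (ModularGroup.T • (⟨w, hw⟩ : ℍ)) = ⟨w + 1, hw'⟩ := by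
      rw [modular_T_smul]
      ext
      simp [add_comm]
    rw [h2] at h1
    rw [h1]
    simp [ModularGroup.T]
  · have hw' : (w + 1).im ≤ 0 := by simpa using hw
    simp only [Function.comp_apply, ofComplex_apply_of_im_nonpos (not_lt.mp hw),
      ofComplex_apply_of_im_nonpos hw']

lemma T_mem_Gamma1 (N : ℕ) : ModularGroup.T ∈ Gamma1 N := by
  rw [Gamma1_mem]; simp [ModularGroup.T]

namespace IsFamForm

variable {F G : (ZMod N)ˣ → ℍ → ℂ}

theorem mem_bddSub (hF : IsFamForm N k F) (d : (ZMod N)ˣ) (γ : SL(2, ℤ)) :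
    F d ∣[k] γ ∈ bddSub := ⟨(hF.holo d).slash k _, hF.bdd d γ⟩

theorem periodic (hF : IsFamForm N k F) (d : (ZMod N)ˣ) :
    Function.Periodic (F d ∘ ofComplex) 1 :=
  periodic_of_T (hF.fam.slash_Gamma1 _ (T_mem_Gamma1 N) d)

theorem mem_perSub (hF : IsFamForm N k F) (d : (ZMod N)ˣ) : F d ∈ perSub :=
  ⟨hF.periodic d, hF.holo d, by simpa using hF.bdd d 1⟩

theorem add (hF : IsFamForm N k F) (hG : IsFamForm N k G) : IsFamForm N k (F + G) where
  fam := hF.fam.add hG.fam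
  holo d := (hF.holo d).add (hG.holo d)
  bdd d γ := by
    rw [Pi.add_apply, SlashAction.add_slash]
    exact (hF.bdd d γ).add (hG.bdd d γ)

theorem smul (hF : IsFamForm N k F) (c : ℂ) : IsFamForm N k (c • F) where
  fam := hF.fam.smul c
  holo d := (hF.holo d).const_smul c
  bdd d γ := by
    rw [Pi.smul_apply, SL_smul_slash]
    exact (hF.bdd d γ).smul c

theorem dia (hF : IsFamForm N k F) (u : (ZMod N)ˣ) : IsFamForm N k (dia u F) where
  fam := hF.fam.dia u
  holo d := hF.holo _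
  bdd d γ := hF.bdd _ γ

theorem mul (hF : IsFamForm N k F) (hG : IsFamForm N l G) : IsFamForm N (k + l) (F * G) where
  fam γ d := by rw [Pi.mul_apply, mul_slash_SL2, hF.fam γ d, hG.fam γ d, Pi.mul_apply]
  holo d := (hF.holo d).mul (hG.holo d)
  bdd d γ := by
    rw [Pi.mul_apply, mul_slash_SL2]
    exact (hF.bdd d γ).mul (hG.bdd d γ)

theorem isBoundedAt (hF : IsFamForm N k F) (d : (ZMod N)ˣ) {c : OnePoint ℝ}
    (hc : IsCusp c 𝒮ℒ) : c.IsBoundedAt (F d) k := by
  rw [OnePoint.isBoundedAt_iff_forall_SL2Z hc]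
  intro γ _
  exact hF.bdd d γ

/-- The members of a family of forms, as modular forms for `Γ₁(N)`. -/
def toForm [NeZero N] (hF : IsFamForm N k F) (d : (ZMod N)ˣ) : ModularForm (Gamma1 N) k where
  toFun := F d
  slash_action_eq' := by
    rintro _ ⟨γ, hγ, rfl⟩
    exact hF.fam.slash_Gamma1 γ hγ d
  holo' := hF.holo d
  bdd_at_cusps' hc := hF.isBoundedAt d (by
    rwa [Subgroup.IsArithmetic.isCusp_iff_isCusp_SL2Z] at hc)

@[simp] theorem coe_toForm [NeZero N] (hF : IsFamForm N k F) (d : (ZMod N)ˣ) :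
    ⇑(hF.toForm d) = F d := rfl

theorem of_form [NeZero N] (f : ModularForm (Gamma1 N) k) : IsFamForm N k (WOne.fam N k f) where
  fam := isFam_fam fun γ hγ => SlashInvariantFormClass.slash_action_eq f _ ⟨γ, hγ, rfl⟩
  holo d := f.holo'.slash k _
  bdd d γ := by
    rw [WOne.fam, ← SlashAction.slash_mul]
    have hc : IsCusp (mapGL ℝ ((lft N d : SL(2, ℤ)) * γ) • OnePoint.infty)
        (Gamma1 N : Subgroup (GL (Fin 2) ℝ)) := by
      rw [Subgroup.IsArithmetic.isCusp_iff_isCusp_SL2Z, isCusp_SL2Z_iff']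
      exact ⟨_, rfl⟩
    exact f.bdd_at_cusps' hc _ rfl

end IsFamForm

namespace IsFamCusp

variable {F G : (ZMod N)ˣ → ℍ → ℂ}

theorem isFamForm (hF : IsFamCusp N k F) : IsFamForm N k F where
  fam := hF.fam
  holo := hF.holo
  bdd d γ := (hF.zero d γ).isBoundedAtImInfty

theorem add (hF : IsFamCusp N k F) (hG : IsFamCusp N k G) : IsFamCusp N k (F + G) where
  fam := hF.fam.add hG.fam
  holo d := (hF.holo d).add (hG.holo d)
  zero d γ := by
    rw [Pi.add_apply, SlashAction.add_slash]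
    exact (hF.zero d γ).add (hG.zero d γ)

theorem smul (hF : IsFamCusp N k F) (c : ℂ) : IsFamCusp N k (c • F) where
  fam := hF.fam.smul c
  holo d := (hF.holo d).const_smul c
  zero d γ := by
    rw [Pi.smul_apply, SL_smul_slash]
    exact (hF.zero d γ).smul c

theorem dia (hF : IsFamCusp N k F) (u : (ZMod N)ˣ) : IsFamCusp N k (dia u F) where
  fam := hF.fam.dia u
  holo d := hF.holo _
  zero d γ := hF.zero _ γ

theorem mul_form (hF : IsFamCusp N k F) (hG : IsFamForm N l G) :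
    IsFamCusp N (k + l) (F * G) where
  fam := (hF.isFamForm.mul hG).fam
  holo := (hF.isFamForm.mul hG).holo
  zero d γ := by
    rw [Pi.mul_apply, mul_slash_SL2]
    exact Fermat.Agent.IntStr.zero_mul_bdd (hF.zero d γ) (hG.bdd d γ)

theorem isZeroAt (hF : IsFamCusp N k F) (d : (ZMod N)ˣ) {c : OnePoint ℝ}
    (hc : IsCusp c 𝒮ℒ) : c.IsZeroAt (F d) k := by
  rw [OnePoint.isZeroAt_iff_forall_SL2Z hc]
  intro γ _
  exact hF.zero d γ

/-- The members of a family of cusp forms, as cusp forms for `Γ₁(N)`. -/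
def toCusp [NeZero N] (hF : IsFamCusp N k F) (d : (ZMod N)ˣ) : CuspForm (Gamma1 N) k where
  toFun := F d
  slash_action_eq' := by
    rintro _ ⟨γ, hγ, rfl⟩
    exact hF.fam.slash_Gamma1 γ hγ d
  holo' := hF.holo d
  zero_at_cusps' hc := hF.isZeroAt d (by
    rwa [Subgroup.IsArithmetic.isCusp_iff_isCusp_SL2Z] at hc)

@[simp] theorem coe_toCusp [NeZero N] (hF : IsFamCusp N k F) (d : (ZMod N)ˣ) :
    ⇑(hF.toCusp d) = F d := rfl

theorem of_cusp [NeZero N] (f : CuspForm (Gamma1 N) k) : IsFamCusp N k (WOne.fam N k f) where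
  fam := isFam_fam fun γ hγ => SlashInvariantFormClass.slash_action_eq f _ ⟨γ, hγ, rfl⟩
  holo d := f.holo'.slash k _
  zero d γ := by
    rw [WOne.fam, ← SlashAction.slash_mul]
    have hc : IsCusp (mapGL ℝ ((lft N d : SL(2, ℤ)) * γ) • OnePoint.infty)
        (Gamma1 N : Subgroup (GL (Fin 2) ℝ)) := by
      rw [Subgroup.IsArithmetic.isCusp_iff_isCusp_SL2Z, isCusp_SL2Z_iff']
      exact ⟨_, rfl⟩
    exact f.zero_at_cusps' hc _ rfl

open P2MW.S_CuspFormClass_isZeroAt_heckeT.ModularForm.S06W2 in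
theorem famT [NeZero N] (hF : IsFamCusp N k F) {p : ℕ} (hp : p.Prime) (hpN : ¬ p ∣ N)
    {u : (ZMod N)ˣ} (hu : (u : ZMod N) = (p : ZMod N)) : IsFamCusp N k (famT k p u F) where
  fam := hF.fam.famT hp hpN hu
  holo d := (ModularForm.mdifferentiable_heckeU (hF.holo d) k p).add
    ((hF.holo (u * d)).slash k _)
  zero d γ := by
    have hc : IsCusp (mapGL ℝ γ • (∞ : OnePoint ℝ)) (Gamma1 N : Subgroup (GL (Fin 2) ℝ)) := by
      rw [Subgroup.IsArithmetic.isCusp_iff_isCusp_SL2Z, isCusp_SL2Z_iff']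
      exact ⟨_, rfl⟩
    have h1 := isZeroAt_heckeU (hF.toCusp d) p hc
    obtain ⟨g, hg⟩ := exists_heckeDiagMatrix_eq_map p
    have h2 := isZeroAt_slash_ratCast (hF.toCusp (u * d)) g hc
    rw [← hg] at h2
    exact (h1.add h2) _ rfl

end IsFamCusp

end Fermat.Agent.WOne
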