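import Fermat.Agent.WOne.EisConst
import Fermat.Agent.WOne.Neben

set_option autoImplicit false

/-!
# A family of weight three Eisenstein series with integral `q`-expansions and distinct members
-/

open CongruenceSubgroup ModularForm UpperHalfPlane Matrix.SpecialLinearGroup
open scoped MatrixGroups ModularForm Manifold OnePoint Topology
open Fermat.Agent.X0Places (HasQExp)
open Function.Periodic (qParam)
open Fermat.Agent.IntStr (IsInt)

namespace Fermat.Agent.WOne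

noncomputable section

/-- Eisenstein series as modular forms for `Γ(M)`. -/
def GForm (M : ℕ) [NeZero M] (k : ℤ) (hk : 3 ≤ k) (v : Fin 2 → ZMod M) :
    ModularForm (Gamma M) k where
  toFun := G M k v
  slash_action_eq' := by
    rintro _ ⟨γ, hγ, rfl⟩
    change G M k v ∣[k] γ = _
    rw [G_slash]
    congr 1
    have h1 : (γ : Matrix (Fin 2) (Fin 2) ℤ).map (Int.cast : ℤ → ZMod M) = 1 := by
      rw [SetLike.mem_coe, Gamma_mem] at hγ
      ext i j
      fin_cases i <;> fin_cases j <;> simp [hγ.1, hγ.2.1, hγ.2.2.1, hγ.2.2.2]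
    rw [vact, h1, Matrix.vecMul_one]
  holo' := mdiff_G M hk v
  bdd_at_cusps' {c} hc := by
    rw [Subgroup.IsArithmetic.isCusp_iff_isCusp_SL2Z] at hc
    rw [OnePoint.isBoundedAt_iff_forall_SL2Z hc]
    intro γ _
    rw [G_slash]
    exact isBoundedAtImInfty_G M hk _

variable (N : ℕ) [NeZero N]

/-- The weight three family. -/
def Hfam (e : (ZMod N)ˣ) : ℍ → ℂ :=
  ((N : ℂ) * (lipC 3)⁻¹) • (G N 3 ![((e⁻¹ : (ZMod N)ˣ) : ZMod N), 0] ∣[(3 : ℤ)] heckeDiagMatrix N)

open P2MW.S_ModularForm_heckeT_slash_eq_self_of_mem_Gamma0.ModularForm.HeckeSlashInvariance in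
theorem isFam_Hfam : IsFam N 3 (Hfam N) := by
  intro γ e
  have hN0 : N ≠ 0 := NeZero.ne N
  have hNR : (N : ℝ) ≠ 0 := by exact_mod_cast hN0
  obtain ⟨c', hc'⟩ : (N : ℤ) ∣ (γ : SL(2, ℤ)) 1 0 :=
    (ZMod.intCast_zmod_eq_zero_iff_dvd _ _).mp (Gamma0_mem.mp γ.2)
  obtain ⟨g', hg', hmul⟩ := heckeDiagMatrix_mul_of_eq' hN0 (γ : SL(2, ℤ)) c' hc'
  have e00 := entry_one _ _ 0 0 hmul
  have e01 := entry_one _ _ 0 1 hmul
  have h00 : (γ : SL(2, ℤ)) 0 0 = g' 0 0 := by
    have : (((γ : SL(2, ℤ)) 0 0 : ℤ) : ℝ) = ((g' 0 0 : ℤ) : ℝ) := by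
      have h : (N : ℝ) * (((γ : SL(2, ℤ)) 0 0 : ℤ) : ℝ) = ((g' 0 0 : ℤ) : ℝ) * N := by
        simpa [val_heckeDiagMatrix hN0, Matrix.mul_apply, Fin.sum_univ_two] using e00
      apply mul_left_cancel₀ hNR
      rw [h, mul_comm]
    exact_mod_cast this
  have h01 : g' 0 1 = N * (γ : SL(2, ℤ)) 0 1 := by
    have : ((g' 0 1 : ℤ) : ℝ) = ((N * (γ : SL(2, ℤ)) 0 1 : ℤ) : ℝ) := by
      have h : (N : ℝ) * (((γ : SL(2, ℤ)) 0 1 : ℤ) : ℝ) = ((g' 0 1 : ℤ) : ℝ) := by
        simpa [val_heckeDiagMatrix hN0, Matrix.mul_apply, Fin.sum_univ_two] using e01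
      rw [← h]; push_cast; ring
    exact_mod_cast this
  have hdet := congrArg (Int.cast : ℤ → ZMod N) (γ : SL(2, ℤ)).det_coe
  rw [Matrix.det_fin_two] at hdet
  push_cast at hdet
  have h0 : (((γ : SL(2, ℤ)) 1 0 : ℤ) : ZMod N) = 0 := Gamma0_mem.mp γ.2
  rw [h0, mul_zero, sub_zero, ← coe_del] at hdet
  have h00' : (((γ : SL(2, ℤ)) 0 0 : ℤ) : ZMod N) = (((del N γ)⁻¹ : (ZMod N)ˣ) : ZMod N) :=
    (Units.inv_eq_of_mul_eq_one_left hdet).symm
  have hv : vact ![((e⁻¹ : (ZMod N)ˣ) : ZMod N), 0] g' =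
      ![(((e * del N γ)⁻¹ : (ZMod N)ˣ) : ZMod N), 0] := by
    funext i
    fin_cases i
    · simp [vact, Matrix.vecMul, dotProduct, Fin.sum_univ_two, ← h00, h00', mul_comm]
    · simp [vact, Matrix.vecMul, dotProduct, Fin.sum_univ_two, h01]
  rw [Hfam, Hfam, ModularForm.SL_smul_slash]
  congr 1
  rw [ModularForm.SL_slash, ← SlashAction.slash_mul]
  change G N 3 _ ∣[(3 : ℤ)] (heckeDiagMatrix N * mapGL ℝ (γ : SL(2, ℤ))) = _
  rw [hmul, SlashAction.slash_mul]
  change (G N 3 _ ∣[(3 : ℤ)] g') ∣[(3 : ℤ)] heckeDiagMatrix N = _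
  rw [G_slash, hv]

open P2MW.S_CuspFormClass_isZeroAt_heckeT.ModularForm.S06W2 in
theorem isFamForm_Hfam : IsFamForm N 3 (Hfam N) where
  fam := isFam_Hfam N
  holo e := ((mdiff_G N (by norm_num) _).slash _ _).const_smul _
  bdd e γ := by
    rw [Hfam, ModularForm.SL_smul_slash]
    apply Filter.BoundedAtFilter.smul
    obtain ⟨g, hg⟩ := exists_heckeDiagMatrix_eq_map N
    have hc : IsCusp (mapGL ℝ γ • (∞ : OnePoint ℝ)) (Gamma N : Subgroup (GL (Fin 2) ℝ)) := by
      rw [Subgroup.IsArithmetic.isCusp_iff_isCusp_SL2Z, isCusp_SL2Z_iff']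
      exact ⟨_, rfl⟩
    have h1 := isBoundedAt_slash_ratCast
      (GForm N 3 (by norm_num) ![((e⁻¹ : (ZMod N)ˣ) : ZMod N), 0]) g hc
    rw [← hg] at h1
    exact h1 _ rfl

theorem hasQExp_Hfam (e : (ZMod N)ˣ) : HasQExp 1 (Hfam N e)
    (Pser N ℂ (zetaM N) (cst N 3 0) 3 ((e⁻¹ : (ZMod N)ˣ) : ZMod N) 0) := by
  intro τ
  have hN0 : N ≠ 0 := NeZero.ne N
  have hN : (N : ℂ) ≠ 0 := by exact_mod_cast hN0
  have h1 := G_expansion N (k := 3) le_rfl ((e⁻¹ : (ZMod N)ˣ) : ZMod N) 0 (heckeDiagMatrix N • τ)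
  have h2 : qParam N (heckeDiagMatrix N • τ : ℍ) = qParam 1 τ := by
    rw [qParam, qParam, coe_heckeDiagMatrix_smul hN0]
    congr 1
    push_cast
    field_simp
  rw [h2] at h1
  have h3 : Hfam N e τ = (N : ℂ) ^ 3 * (lipC 3)⁻¹ *
      G N 3 ![((e⁻¹ : (ZMod N)ˣ) : ZMod N), 0] (heckeDiagMatrix N • τ) := by
    rw [Hfam, Pi.smul_apply, slash_heckeDiagMatrix_apply 3 hN0, smul_eq_mul]
    norm_num
    ring
  rw [h3]
  exact h1

theorem qExpansion_Hfam (e : (ZMod N)ˣ) : qExpansion 1 (Hfam N e) =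
    (Pser N ℂ (zetaM N) (cst N 3 0) 3 ((e⁻¹ : (ZMod N)ˣ) : ZMod N) 0) :=
  ((hasQExp_Hfam N e).qExpansion_eq one_pos (by simpa using (isFamForm_Hfam N).periodic e)
    ((isFamForm_Hfam N).holo e)).symm

/-- the integral coefficients -/
def hco (a : ZMod N) (r : ℕ) : ℤ := ∑ x ∈ r.divisorsAntidiagonal,
  (x.2 : ℤ) ^ 2 * ((if (x.1 : ZMod N) = a then 1 else 0) - (if (x.1 : ZMod N) = -a then 1 else 0))

theorem coeff_Hfam (hN : 2 ≤ N) (e : (ZMod N)ˣ) (r : ℕ) :
    (qExpansion 1 (Hfam N e)).coeff r = (hco N ((e⁻¹ : (ZMod N)ˣ) : ZMod N) r : ℂ) := by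
  have : Nontrivial (ZMod N) := ZMod.nontrivial_iff.mpr (by omega)
  rw [qExpansion_Hfam, Pser, PowerSeries.coeff_mk]
  by_cases hr : r = 0
  · rw [if_pos hr, if_neg (Units.ne_zero _), hr]
    simp [hco]
  · rw [if_neg hr, hco]
    push_cast
    refine Finset.sum_congr rfl fun x _ => ?_
    simp only [dterm, neg_zero, ZMod.val_zero, zero_mul, pow_zero]
    norm_num
    left
    split_ifs <;> ring

theorem isInt_Hfam (hN : 2 ≤ N) (e : (ZMod N)ˣ) : IsInt (Hfam N e) :=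
  fun r => ⟨_, coeff_Hfam N hN e r⟩

theorem hco_of_lt {a : ZMod N} {r : ℕ} (h1 : r < a.val) (h2 : r < (-a).val) : hco N a r = 0 := by
  apply Finset.sum_eq_zero
  intro x hx
  obtain ⟨hx1, hx2⟩ := Nat.mem_divisorsAntidiagonal.mp hx
  have hle : x.1 ≤ r := Nat.le_of_dvd (Nat.pos_of_ne_zero hx2) ⟨x.2, hx1.symm⟩
  have hlt : x.1 < N := lt_of_le_of_lt hle (h1.trans a.val_lt)
  have e1 : ¬ ((x.1 : ZMod N) = a) := by
    intro h
    have := congrArg ZMod.val h
    rw [ZMod.val_cast_of_lt hlt] at this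
    omega
  have e2 : ¬ ((x.1 : ZMod N) = -a) := by
    intro h
    have := congrArg ZMod.val h
    rw [ZMod.val_cast_of_lt hlt] at this
    omega
  rw [if_neg e1, if_neg e2]; ring

theorem hco_val {a : ZMod N} (ha : a ≠ 0) (h : a.val < (-a).val) : hco N a a.val = 1 := by
  have ha0 : a.val ≠ 0 := by rwa [Ne, ZMod.val_eq_zero]
  rw [hco, Finset.sum_eq_single (a.val, 1)]
  · have e2 : ¬ (((a.val : ℕ) : ZMod N) = -a) := by
      intro h'
      rw [ZMod.natCast_zmod_val] at h'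
      rw [← h'] at h
      exact lt_irrefl _ h
    simp only
    rw [if_neg e2, if_pos (ZMod.natCast_zmod_val a)]
    norm_num
  · intro x hx hne
    obtain ⟨hx1, hx2⟩ := Nat.mem_divisorsAntidiagonal.mp hx
    have hle : x.1 ≤ a.val := Nat.le_of_dvd (Nat.pos_of_ne_zero hx2) ⟨x.2, hx1.symm⟩
    have hlt : x.1 < N := lt_of_le_of_lt hle a.val_lt
    have e1 : ¬ ((x.1 : ZMod N) = a) := by
      intro h'
      have h3 := congrArg ZMod.val h'
      rw [ZMod.val_cast_of_lt hlt] at h3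
      apply hne
      rw [h3] at hx1
      have : x.2 = 1 := by
        have := Nat.eq_of_mul_eq_mul_left (Nat.pos_of_ne_zero ha0) (hx1.trans (mul_one _).symm)
        exact this
      exact Prod.ext h3 this
    have e2 : ¬ ((x.1 : ZMod N) = -a) := by
      intro h'
      have := congrArg ZMod.val h'
      rw [ZMod.val_cast_of_lt hlt] at this
      omega
    rw [if_neg e1, if_neg e2]; ring
  · intro hx
    exact absurd (Nat.mem_divisorsAntidiagonal.mpr ⟨mul_one _, ha0⟩) hx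

omit [NeZero N] in
theorem hco_neg (a : ZMod N) (r : ℕ) : hco N (-a) r = - hco N a r := by
  rw [hco, hco, ← Finset.sum_neg_distrib]
  refine Finset.sum_congr rfl fun x _ => ?_
  rw [neg_neg]; ring

/-- the coefficients determine the class -/
theorem hco_injective {a b : ZMod N} (ha : a ≠ -a) (hb : b ≠ -b) (h : ∀ r, hco N a r = hco N b r) :
    a = b := by
  have hva : a.val ≠ (-a).val := fun h' => ha (ZMod.val_injective N h')
  have hvb : b.val ≠ (-b).val := fun h' => hb (ZMod.val_injective N h')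
  have ha0 : a ≠ 0 := by rintro rfl; simp at ha
  have hb0 : b ≠ 0 := by rintro rfl; simp at hb
  -- the first nonzero coefficient
  have key : ∀ {a b : ZMod N}, a ≠ 0 → b ≠ 0 → a.val < (-a).val → (∀ r, hco N a r = hco N b r) →
      b.val ≤ a.val ∨ (-b).val ≤ a.val := by
    intro a b ha0 hb0 h1 h2
    by_contra hcon
    push Not at hcon
    have h3 := h2 a.val
    rw [hco_val N ha0 h1, hco_of_lt N hcon.1 hcon.2] at h3
    exact one_ne_zero h3
  have main : ∀ {a b : ZMod N}, a ≠ 0 → b ≠ 0 → b.val ≠ (-b).val → a.val < (-a).val →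
      (∀ r, hco N a r = hco N b r) → a = b := by
    intro a b ha0 hb0 hvb h1 h2
    have hna0 : -a ≠ 0 := neg_ne_zero.mpr ha0
    have hnb0 : -b ≠ 0 := neg_ne_zero.mpr hb0
    rcases lt_or_gt_of_ne hvb with h3 | h3
    · have e1 := key ha0 hb0 h1 h2
      have e2 := key hb0 ha0 h3 (fun r => (h2 r).symm)
      have : a.val = b.val := by omega
      exact ZMod.val_injective N this
    · exfalso
      have h2' : ∀ r, hco N (-b) r = - hco N a r := fun r => by rw [hco_neg, h2]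
      have h3' : (-b).val < (-(-b)).val := by rwa [neg_neg]
      have e1 := key ha0 hb0 h1 h2
      have e2 : a.val ≤ (-b).val ∨ (-a).val ≤ (-b).val := by
        by_contra hcon
        push Not at hcon
        have h4 := h2' (-b).val
        rw [hco_val N hnb0 h3', hco_of_lt N hcon.1 hcon.2] at h4
        norm_num at h4
      have h5 : a.val = (-b).val := by omega
      have h6 := h2' (-b).val
      rw [hco_val N hnb0 h3', ← h5, hco_val N ha0 h1] at h6
      norm_num at h6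
  rcases lt_or_gt_of_ne hva with h1 | h1
  · exact main ha0 hb0 hvb h1 h
  · have h2 := main (a := -a) (b := -b) (neg_ne_zero.mpr ha0) (neg_ne_zero.mpr hb0)
      (by rw [neg_neg]; exact hvb.symm) (by rwa [neg_neg]) (fun r => by rw [hco_neg, hco_neg, h])
    exact neg_injective h2

omit [NeZero N] in
theorem unit_ne_neg (hN : 3 ≤ N) (e : (ZMod N)ˣ) : (e : ZMod N) ≠ -(e : ZMod N) := by
  intro h
  have h1 : (2 : ZMod N) * e = 0 := by
    rw [two_mul]
    nth_rewrite 2 [h]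
    rw [add_neg_cancel]
  rw [Units.mul_left_eq_zero] at h1
  have h2 : ((2 : ℕ) : ZMod N) = 0 := by exact_mod_cast h1
  rw [ZMod.natCast_eq_zero_iff] at h2
  have := Nat.le_of_dvd (by norm_num) h2
  omega

theorem Hfam_injective (hN : 3 ≤ N) : Function.Injective (Hfam N) := by
  intro d e h
  have h1 : ∀ r, hco N ((d⁻¹ : (ZMod N)ˣ) : ZMod N) r = hco N ((e⁻¹ : (ZMod N)ˣ) : ZMod N) r := by
    intro r
    have h2 := coeff_Hfam N (by omega) d r
    rw [h, coeff_Hfam N (by omega) e r] at h2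
    exact_mod_cast h2.symm
  have h3 := hco_injective N (unit_ne_neg N hN _) (unit_ne_neg N hN _) h1
  exact inv_injective (Units.ext h3)

end

end Fermat.Agent.WOne
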