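import Fermat.Agent.WOne.EisExp

set_option autoImplicit false

/-!
# Constant terms of the Eisenstein series of weight three and four
-/

open UpperHalfPlane EisensteinSeries ModularForm
open scoped MatrixGroups Manifold Topology

namespace Fermat.Agent.WOne

noncomputable section

theorem hasSum_choose (i : ℕ) {w : ℂ} (hw : ‖w‖ < 1) :
    HasSum (fun n : ℕ => ((n + i).choose i : ℂ) * w ^ n) (1 / (1 - w) ^ (i + 1)) :=
  hasSum_choose_mul_geometric_of_norm_lt_one i hw

theorem hasSum_of_eq {f g : ℕ → ℂ} {a b : ℂ} (h : HasSum f a) (hfg : ∀ n, g n = f n)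
    (hab : b = a) : HasSum g b := by
  rw [hab, funext hfg]
  exact h

/-- the rational functions `∑ j^{k-1} w^j` for `k = 3, 4`. -/
def ratR {K : Type*} [Field K] (k : ℕ) (w : K) : K :=
  if k = 3 then w * (1 + w) / (1 - w) ^ 3 else w * (1 + 4 * w + w ^ 2) / (1 - w) ^ 4

theorem hasSum_ratR {k : ℕ} (hk : k = 3 ∨ k = 4) {w : ℂ} (hw : ‖w‖ < 1) :
    HasSum (fun n : ℕ => (n : ℂ) ^ (k - 1) * w ^ n) (ratR k w) := by
  have h1w : 1 - w ≠ 0 := by
    intro h
    rw [sub_eq_zero] at h
    rw [← h] at hw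
    simp at hw
  have h0 := hasSum_choose 0 hw
  have h1 := hasSum_choose 1 hw
  have h2 := hasSum_choose 2 hw
  have h3 := hasSum_choose 3 hw
  have c2 : ∀ n : ℕ, (((n + 2).choose 2 : ℕ) : ℂ) = (n + 2) * (n + 1) / 2 := by
    intro n
    rw [Nat.cast_choose_two]
    push_cast
    ring
  have c3 : ∀ n : ℕ, (((n + 3).choose 3 : ℕ) : ℂ) = (n + 3) * (n + 2) * (n + 1) / 6 := by
    intro n
    have h := Nat.add_one_mul_choose_eq (n + 2) 2
    have h' := congrArg (Nat.cast : ℕ → ℂ) h
    push_cast at h'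
    rw [c2] at h'
    linear_combination (-(1:ℂ) / 3) * h'
  rcases hk with rfl | rfl
  · rw [ratR, if_pos rfl]
    have h := ((h2.mul_left 2).sub (h1.mul_left 3)).add h0
    refine hasSum_of_eq h (fun n => ?_) ?_
    · rw [c2]
      simp only [Nat.choose_one_right, Nat.choose_zero_right]
      push_cast
      ring
    · field_simp
      ring
  · rw [ratR, if_neg (by norm_num)]
    have h := (((h3.mul_left 6).sub (h2.mul_left 12)).add (h1.mul_left 7)).sub h0
    refine hasSum_of_eq h (fun n => ?_) ?_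
    · rw [c2, c3]
      simp only [Nat.choose_one_right, Nat.choose_zero_right]
      push_cast
      ring
    · field_simp
      ring

theorem lipschitz_rat {k : ℕ} (hk : k = 3 ∨ k = 4) (w : ℍ) :
    ∑' n : ℤ, (((w : ℂ) + n) ^ k)⁻¹ =
      lipC k * ratR k (Complex.exp (2 * Real.pi * Complex.I * w)) := by
  have hw : ‖Complex.exp (2 * Real.pi * Complex.I * w)‖ < 1 := UpperHalfPlane.norm_exp_two_pi_I_lt_one w
  rw [lipschitz (by omega) w]
  congr 1
  have h := hasSum_ratR hk hw
  rw [← h.tsum_eq]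
  exact tsum_pnat_eq_tsum_of_eq_zero (f := fun j : ℕ => (j : ℂ) ^ (k - 1) *
    Complex.exp (2 * Real.pi * Complex.I * w) ^ j) (by
      have : k - 1 ≠ 0 := by omega
      simp [this])

/-- limiting case of the Lipschitz formula on the real line -/
theorem lipschitz_real {k : ℕ} (hk : k = 3 ∨ k = 4) (x : ℝ) (hx : 0 < x) (hx1 : x < 1) :
    ∑' n : ℤ, (((x : ℂ) + n) ^ k)⁻¹ =
      lipC k * ratR k (Complex.exp (2 * Real.pi * Complex.I * x)) := by
  have hne : ∀ n : ℤ, (x + n : ℝ) ≠ 0 := by
    intro n h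
    have h1 : (n : ℝ) = -x := by linarith
    have h2 : (-1 : ℝ) < n := by linarith
    have h3 : (n : ℝ) < 0 := by linarith
    have h4 : (-1 : ℤ) < n := by exact_mod_cast h2
    have h5 : n < (0 : ℤ) := by exact_mod_cast h3
    omega
  have hexp : Complex.exp (2 * Real.pi * Complex.I * x) ≠ 1 := by
    intro h
    rw [Complex.exp_eq_one_iff] at h
    obtain ⟨n, hn⟩ := h
    have h2 : (x : ℂ) = n := by
      have h3 : (2 * Real.pi * Complex.I : ℂ) ≠ 0 := by simp [Real.pi_ne_zero]
      apply mul_left_cancel₀ h3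
      rw [hn]; ring
    have h3 : x = n := by exact_mod_cast h2
    have := hne (-n)
    apply this
    push_cast
    linarith
  -- the right hand side
  have hR : Filter.Tendsto (fun y : ℝ => lipC k *
      ratR k (Complex.exp (2 * Real.pi * Complex.I * (x + y * Complex.I)))) (𝓝[>] 0)
      (𝓝 (lipC k * ratR k (Complex.exp (2 * Real.pi * Complex.I * x)))) := by
    have h1 : Filter.Tendsto (fun y : ℝ => Complex.exp (2 * Real.pi * Complex.I * (x + y * Complex.I)))
        (𝓝[>] 0) (𝓝 (Complex.exp (2 * Real.pi * Complex.I * x))) := by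
      have hc : Continuous (fun y : ℝ => Complex.exp (2 * Real.pi * Complex.I * (x + y * Complex.I))) := by
        fun_prop
      have := hc.tendsto 0
      simp only [Complex.ofReal_zero, zero_mul, add_zero] at this
      exact this.mono_left nhdsWithin_le_nhds
    have h2 : ContinuousAt (fun w : ℂ => ratR k w) (Complex.exp (2 * Real.pi * Complex.I * x)) := by
      have h3 : (1 - Complex.exp (2 * Real.pi * Complex.I * x)) ≠ 0 := sub_ne_zero.mpr (Ne.symm hexp)
      unfold ratR
      split_ifs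
      · exact ContinuousAt.div (by fun_prop) (by fun_prop) (pow_ne_zero _ h3)
      · exact ContinuousAt.div (by fun_prop) (by fun_prop) (pow_ne_zero _ h3)
    exact (h2.tendsto.comp h1).const_mul _
  -- the left hand side
  have hL : Filter.Tendsto (fun y : ℝ => ∑' n : ℤ, (((x + y * Complex.I : ℂ) + n) ^ k)⁻¹) (𝓝[>] 0)
      (𝓝 (∑' n : ℤ, (((x : ℂ) + n) ^ k)⁻¹)) := by
    have hsum : Summable fun n : ℤ => ‖(((x : ℂ) + n) ^ k)⁻¹‖ := by
      have h2 := EisensteinSeries.linear_right_summable (x : ℂ) 1 (k := k) (by omega)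
      have h3 := h2.norm
      refine h3.congr fun n => ?_
      congr 2
      simp
    refine tendsto_tsum_of_dominated_convergence (bound := fun n : ℤ => ‖(((x : ℂ) + n) ^ k)⁻¹‖)
      hsum (fun n => ?_) (Filter.Eventually.of_forall fun y n => ?_)
    · have hc : ContinuousAt (fun y : ℝ => (((x + y * Complex.I : ℂ) + n) ^ k)⁻¹) 0 := by
        apply ContinuousAt.inv₀ (by fun_prop)
        simp only [Complex.ofReal_zero, zero_mul, add_zero]
        apply pow_ne_zero
        exact_mod_cast hne n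
      have := hc.tendsto
      simp only [Complex.ofReal_zero, zero_mul, add_zero] at this
      exact this.mono_left nhdsWithin_le_nhds
    · rw [norm_inv, norm_inv, norm_pow, norm_pow]
      have h0 : 0 < ‖(x : ℂ) + n‖ := by
        rw [norm_pos_iff]
        exact_mod_cast hne n
      apply inv_anti₀ (by positivity)
      apply pow_le_pow_left₀ (norm_nonneg _)
      have e1 : ‖(x : ℂ) + n‖ = |x + n| := by
        rw [show (x : ℂ) + n = ((x + n : ℝ) : ℂ) by push_cast; ring, Complex.norm_real]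
        rfl
      rw [e1]
      have e2 := Complex.abs_re_le_norm ((x + y * Complex.I : ℂ) + n)
      simpa using e2
  refine tendsto_nhds_unique (hL.congr' ?_) hR
  filter_upwards [self_mem_nhdsWithin] with y hy
  have hy' : 0 < (x + y * Complex.I : ℂ).im := by simpa using hy
  exact lipschitz_rat hk ⟨_, hy'⟩

theorem cst_eq {M : ℕ} [NeZero M] {k : ℕ} (hk : k = 3 ∨ k = 4) {b : ZMod M} (hb : b ≠ 0) :
    cst M k b = ratR k (zetaM M ^ b.val) := by
  have hM : (M : ℂ) ≠ 0 := by exact_mod_cast NeZero.ne M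
  have hMR : (0 : ℝ) < M := by exact_mod_cast Nat.pos_of_ne_zero (NeZero.ne M)
  have hb0 : 0 < b.val := Nat.pos_of_ne_zero (by rwa [Ne, ZMod.val_eq_zero])
  have h := lipschitz_real hk ((b.val : ℝ) / M) (by positivity)
    ((div_lt_one hMR).mpr (by exact_mod_cast b.val_lt))
  rw [cst, inner'_eq_shift]
  have h1 : ∀ n : ℤ, ((((((0 : ℤ) : ℂ)) * 0 + b.val) / M + n) ^ k)⁻¹ =
      (((((b.val : ℝ) / M : ℝ) : ℂ) + n) ^ k)⁻¹ := by
    intro n
    congr 3
    push_cast
    ring
  simp only [h1]
  rw [h]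
  have h2 : zetaM M ^ b.val = Complex.exp (2 * Real.pi * Complex.I * (((b.val : ℝ) / M : ℝ) : ℂ)) := by
    rw [zetaM, ← Complex.exp_nat_mul]
    congr 1
    push_cast
    ring
  rw [← h2]
  have h3 := lipC_ne_zero k
  field_simp

end

end Fermat.Agent.WOne
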