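import Fermat.Agent.WOne.Neben
import Fermat.Agent.IntStr.Final

set_option autoImplicit false

/-!
# Interpolation polynomials for finite families of functions on the upper half plane
-/

open CongruenceSubgroup ModularForm UpperHalfPlane Matrix.SpecialLinearGroup
open scoped MatrixGroups ModularForm Manifold OnePoint Topology
open Fermat.Agent.IntStr

namespace Fermat.Agent.WOne

noncomputable section

section Poly

variable {ι : Type*} [Fintype ι] [DecidableEq ι]

/-- interpolation polynomial -/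
def interpI (u v : ι → ℍ → ℂ) : Polynomial (ℍ → ℂ) :=
  ∑ q, Polynomial.C (u q) * ∏ q' ∈ Finset.univ.erase q, (Polynomial.X - Polynomial.C (v q'))

omit [DecidableEq ι] in
/-- characteristic polynomial -/
def chrI (v : ι → ℍ → ℂ) : Polynomial (ℍ → ℂ) := ∏ q, (Polynomial.X - Polynomial.C (v q))

theorem coeff_interpI_mem (S : Subring (ℍ → ℂ)) {u v : ι → ℍ → ℂ}
    (hu : ∀ q, u q ∈ S) (hv : ∀ q, v q ∈ S) (i : ℕ) : (interpI u v).coeff i ∈ S := by
  apply coeff_mem_of_lifts
  apply sum_mem
  intro q _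
  apply mul_mem
  · exact Polynomial.C_mem_lifts S.subtype (⟨u q, hu q⟩ : S)
  · exact prod_mem fun q' _ => X_sub_C_mem_lifts (hv q')

omit [DecidableEq ι] in
theorem coeff_chrI_mem (S : Subring (ℍ → ℂ)) {v : ι → ℍ → ℂ}
    (hv : ∀ q, v q ∈ S) (i : ℕ) : (chrI v).coeff i ∈ S := by
  apply coeff_mem_of_lifts
  exact prod_mem fun q' _ => X_sub_C_mem_lifts (hv q')

theorem interpI_perm (π : Equiv.Perm ι) (u v : ι → ℍ → ℂ) :
    interpI (fun q => u (π q)) (fun q => v (π q)) = interpI u v := by
  unfold interpI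
  apply Fintype.sum_equiv π
  intro q
  congr 1
  apply Finset.prod_equiv π
  · intro q'
    simp
  · intro q' _
    rfl

omit [DecidableEq ι] in
theorem chrI_perm (π : Equiv.Perm ι) (v : ι → ℍ → ℂ) :
    chrI (fun q => v (π q)) = chrI v :=
  Fintype.prod_equiv π _ _ fun _ => rfl

theorem interpI_scale {u v u' v' : ι → ℍ → ℂ} {s t : ℂ} {τ τ' : ℍ}
    (hu : ∀ q, u q τ' = s * u' q τ) (hv : ∀ q, v q τ' = t * v' q τ) (i : ℕ) :
    (interpI u v).coeff i τ' * t ^ i =
      s * t ^ (Fintype.card ι - 1) * (interpI u' v').coeff i τ := by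
  have h1 : ((interpI u v).map (ev τ')).comp (Polynomial.C t * Polynomial.X) =
      Polynomial.C (s * t ^ (Fintype.card ι - 1)) * (interpI u' v').map (ev τ) := by
    simp only [interpI, Polynomial.map_sum, Polynomial.map_mul, Polynomial.map_prod,
      Polynomial.map_sub, Polynomial.map_X, Polynomial.map_C, Pi.evalRingHom_apply,
      Polynomial.comp, Polynomial.eval₂_finsetSum, Polynomial.eval₂_mul,
      Polynomial.eval₂_finsetProd, Polynomial.eval₂_sub, Polynomial.eval₂_X,
      Polynomial.eval₂_C]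
    rw [Finset.mul_sum]
    refine Finset.sum_congr rfl fun q _ => ?_
    rw [hu]
    have h2 : ∀ q' : ι, (Polynomial.C t * Polynomial.X - Polynomial.C (v q' τ')) =
        Polynomial.C t * (Polynomial.X - Polynomial.C (v' q' τ)) := by
      intro q'
      rw [hv, Polynomial.C_mul, mul_sub]
    simp only [h2]
    rw [Finset.prod_mul_distrib, Finset.prod_const, Finset.card_erase_of_mem (Finset.mem_univ q),
      Finset.card_univ]
    simp only [Polynomial.C_mul, Polynomial.C_pow]
    ring
  have h4 := congrArg (fun p => Polynomial.coeff p i) h1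
  simp only [Polynomial.comp_C_mul_X_coeff, Polynomial.coeff_C_mul, Polynomial.coeff_map,
    Pi.evalRingHom_apply] at h4
  exact h4

omit [DecidableEq ι] in
theorem chrI_scale {v v' : ι → ℍ → ℂ} {t : ℂ} {τ τ' : ℍ}
    (hv : ∀ q, v q τ' = t * v' q τ) (i : ℕ) :
    (chrI v).coeff i τ' * t ^ i = t ^ (Fintype.card ι) * (chrI v').coeff i τ := by
  have h1 : ((chrI v).map (ev τ')).comp (Polynomial.C t * Polynomial.X) =
      Polynomial.C (t ^ (Fintype.card ι)) * (chrI v').map (ev τ) := by
    simp only [chrI, Polynomial.map_prod, Polynomial.map_sub, Polynomial.map_X, Polynomial.map_C,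
      Pi.evalRingHom_apply, Polynomial.comp, Polynomial.eval₂_finsetProd, Polynomial.eval₂_sub,
      Polynomial.eval₂_X, Polynomial.eval₂_C]
    have h2 : ∀ q' : ι, (Polynomial.C t * Polynomial.X - Polynomial.C (v q' τ')) =
        Polynomial.C t * (Polynomial.X - Polynomial.C (v' q' τ)) := by
      intro q'
      rw [hv, Polynomial.C_mul, mul_sub]
    simp only [h2]
    rw [Finset.prod_mul_distrib, Finset.prod_const, Finset.card_univ, Polynomial.C_pow]
  have h4 := congrArg (fun p => Polynomial.coeff p i) h1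
  simp only [Polynomial.comp_C_mul_X_coeff, Polynomial.coeff_C_mul, Polynomial.coeff_map,
    Pi.evalRingHom_apply] at h4
  exact h4

omit [DecidableEq ι] in
theorem natDegree_chrI (v : ι → ℍ → ℂ) : (chrI v).natDegree = Fintype.card ι := by
  rw [chrI, Polynomial.natDegree_prod_of_monic _ _ (fun _ _ => Polynomial.monic_X_sub_C _)]
  simp

omit [DecidableEq ι] in
theorem chrI_coeff_card (v : ι → ℍ → ℂ) : (chrI v).coeff (Fintype.card ι) = 1 := by
  have : (chrI v).Monic := Polynomial.monic_prod_of_monic _ _ (fun _ _ => Polynomial.monic_X_sub_C _)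
  rw [Polynomial.Monic, Polynomial.leadingCoeff, natDegree_chrI] at this
  exact this

theorem natDegree_interpI_lt [Nonempty ι] (u v : ι → ℍ → ℂ) :
    (interpI u v).natDegree < Fintype.card ι := by
  have hpos : 0 < Fintype.card ι := Fintype.card_pos
  have h1 : (interpI u v).natDegree ≤ Fintype.card ι - 1 := by
    apply Polynomial.natDegree_sum_le_of_forall_le
    intro q _
    refine le_trans Polynomial.natDegree_mul_le ?_
    rw [Polynomial.natDegree_C, zero_add,
      Polynomial.natDegree_prod_of_monic _ _ (fun _ _ => Polynomial.monic_X_sub_C _)]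
    simp
  omega

/-- the different at `q` -/
def difI (v : ι → ℍ → ℂ) (q : ι) : ℍ → ℂ := ∏ q' ∈ Finset.univ.erase q, (v q - v q')

theorem mul_difI (u v : ι → ℍ → ℂ) [Nonempty ι] (q : ι) :
    u q * difI v q = ∑ i ∈ Finset.range (Fintype.card ι), (interpI u v).coeff i * v q ^ i := by
  rw [← Polynomial.eval_eq_sum_range' (natDegree_interpI_lt _ _), interpI,
    Polynomial.eval_finsetSum, Finset.sum_eq_single q]
  · rw [Polynomial.eval_mul, Polynomial.eval_C, Polynomial.eval_prod, difI]
    simp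
  · intro q1 _ hq
    rw [Polynomial.eval_mul, Polynomial.eval_prod]
    have : ∏ q' ∈ Finset.univ.erase q1, Polynomial.eval (v q)
        (Polynomial.X - Polynomial.C (v q')) = 0 := by
      apply Finset.prod_eq_zero (i := q)
      · simp [Ne.symm hq]
      · simp
    rw [this, mul_zero]
  · simp

omit [DecidableEq ι] in
theorem chrI_relation (v : ι → ℍ → ℂ) (q : ι) :
    ∑ i ∈ Finset.range (Fintype.card ι + 1), (chrI v).coeff i * v q ^ i = 0 := by
  have h1 : (chrI v).eval (v q) = 0 := by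
    rw [chrI, Polynomial.eval_prod]
    apply Finset.prod_eq_zero (Finset.mem_univ q)
    simp
  rw [Polynomial.eval_eq_sum_range, natDegree_chrI] at h1
  exact h1

omit [DecidableEq ι] in
theorem coeff_chrI_zero {v : ι → ℍ → ℂ} (hv : ∀ q, v q ∈ bddSub)
    (hv0 : ∀ q, IsZeroAtImInfty (v q)) (i : ℕ) (hi : i < Fintype.card ι) :
    IsZeroAtImInfty ((chrI v).coeff i) := by
  let V : ι → bddSub.toSubring := fun q => ⟨v q, hv q⟩
  let P : Polynomial bddSub.toSubring := ∏ q, (Polynomial.X - Polynomial.C (V q))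
  have hP : P.map bddSub.toSubring.subtype = chrI v := by
    simp only [P, chrI, Polynomial.map_prod, Polynomial.map_sub, Polynomial.map_X,
      Polynomial.map_C]
    rfl
  have hc : ((P.coeff i : bddSub.toSubring) : ℍ → ℂ) = (chrI v).coeff i := by
    rw [← hP, Polynomial.coeff_map]; rfl
  rw [← hc, ← mem_zeroIdeal, ← Ideal.Quotient.eq_zero_iff_mem]
  have h1 : P.map (Ideal.Quotient.mk zeroIdeal) = Polynomial.X ^ (Fintype.card ι) := by
    simp only [P, Polynomial.map_prod, Polynomial.map_sub, Polynomial.map_X, Polynomial.map_C]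
    have h2 : ∀ q, (Ideal.Quotient.mk zeroIdeal) (V q) = 0 := fun q =>
      Ideal.Quotient.eq_zero_iff_mem.mpr (hv0 q)
    simp only [h2, map_zero, sub_zero]
    rw [Finset.prod_const, Finset.card_univ]
  have h3 := congrArg (fun p => Polynomial.coeff p i) h1
  simp only [Polynomial.coeff_map, Polynomial.coeff_X_pow] at h3
  rw [h3, if_neg (by omega)]

end Poly

section Slash

variable {ι : Type*} [Fintype ι] [DecidableEq ι] [Nonempty ι] {k w : ℤ}

theorem apply_smul_eq (k : ℤ) (f : ℍ → ℂ) (γ : SL(2, ℤ)) (τ : ℍ) :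
    f (γ • τ) = denom γ τ ^ k * (f ∣[k] γ) τ := by
  rw [SL_slash_apply, mul_comm (f (γ • τ)), ← mul_assoc, ← zpow_add₀ (denom_ne_zero γ τ),
    add_neg_cancel, zpow_zero, one_mul]

theorem coeff_interpI_slash (u v : ι → ℍ → ℂ) (γ : SL(2, ℤ)) (i : ℕ) :
    (interpI u v).coeff i ∣[k + w * ((Fintype.card ι : ℤ) - 1 - i)] γ =
      (interpI (fun q => u q ∣[k] γ) (fun q => v q ∣[w] γ)).coeff i := by
  ext τ
  have h1 := interpI_scale (u := u) (v := v) (u' := fun q => u q ∣[k] γ)
    (v' := fun q => v q ∣[w] γ) (fun q => apply_smul_eq k (u q) γ τ)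
    (fun q => apply_smul_eq w (v q) γ τ) i
  have hd := denom_ne_zero (γ : GL (Fin 2) ℝ) τ
  have h2 : ((denom (γ : GL (Fin 2) ℝ) τ ^ w) ^ i : ℂ) ≠ 0 := pow_ne_zero _ (zpow_ne_zero _ hd)
  have hcard : ((Fintype.card ι - 1 : ℕ) : ℤ) = (Fintype.card ι : ℤ) - 1 := by
    have : 0 < Fintype.card ι := Fintype.card_pos
    omega
  rw [SL_slash_apply]
  apply mul_right_cancel₀ h2
  rw [mul_right_comm, h1, ← zpow_natCast, ← zpow_natCast, ← zpow_mul, ← zpow_mul,
    ← zpow_add₀ hd, mul_right_comm, ← zpow_add₀ hd, hcard, mul_comm]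
  congr 2
  ring

omit [DecidableEq ι] [Nonempty ι] in
theorem coeff_chrI_slash (v : ι → ℍ → ℂ) (γ : SL(2, ℤ)) (i : ℕ) :
    (chrI v).coeff i ∣[k * ((Fintype.card ι : ℤ) - i)] γ =
      (chrI (fun q => v q ∣[k] γ)).coeff i := by
  ext τ
  have h1 := chrI_scale (v := v) (v' := fun q => v q ∣[k] γ)
    (fun q => apply_smul_eq k (v q) γ τ) i
  have hd := denom_ne_zero (γ : GL (Fin 2) ℝ) τ
  have h2 : ((denom (γ : GL (Fin 2) ℝ) τ ^ k) ^ i : ℂ) ≠ 0 := pow_ne_zero _ (zpow_ne_zero _ hd)
  rw [SL_slash_apply]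
  apply mul_right_cancel₀ h2
  rw [mul_right_comm, h1, ← zpow_natCast, ← zpow_natCast, ← zpow_mul, ← zpow_mul, mul_right_comm,
    ← zpow_add₀ hd, mul_comm]
  congr 2
  ring

end Slash

end

end Fermat.Agent.WOne
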