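import Fermat.Agent.WOne.HFam
import Fermat.Agent.WOne.Interp

set_option autoImplicit false

/-!
# Galois conjugates of forms for `Γ₁(N)`
-/

open CongruenceSubgroup ModularForm UpperHalfPlane Matrix.SpecialLinearGroup
open scoped MatrixGroups ModularForm Manifold OnePoint Topology
open Fermat.Agent.IntStr

namespace Fermat.Agent.WOne

noncomputable section

variable {N : ℕ} [NeZero N] {k w : ℤ} {F H : (ZMod N)ˣ → ℍ → ℂ}

omit [NeZero N] in
theorem fam_slash_perm (hF : IsFam N k F) (γ : SL(2, ℤ)) (hγ : γ ∈ Gamma0 N) :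
    (fun d => F d ∣[k] γ) = fun d => F (Equiv.mulRight (del N ⟨γ, hγ⟩) d) := by
  funext d
  exact hF ⟨γ, hγ⟩ d

/-- coefficients of the interpolation polynomial -/
theorem isForm_coeff_interpI (hF : IsFamForm N k F) (hH : IsFamForm N w H) (i : ℕ) :
    IsForm N (k + w * ((Fintype.card (ZMod N)ˣ : ℤ) - 1 - i)) ((interpI F H).coeff i) where
  slash γ hγ := by
    rw [coeff_interpI_slash, fam_slash_perm hF.fam γ hγ, fam_slash_perm hH.fam γ hγ,
      interpI_perm]
  holo := (coeff_interpI_mem bddSub.toSubring (fun q => perSub_le_bddSub (hF.mem_perSub q))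
    (fun q => perSub_le_bddSub (hH.mem_perSub q)) i).1
  bdd γ := by
    rw [coeff_interpI_slash]
    exact (coeff_interpI_mem bddSub.toSubring (fun q => hF.mem_bddSub q γ)
      (fun q => hH.mem_bddSub q γ) i).2

/-- coefficients of the characteristic polynomial -/
theorem isForm_coeff_chrI (hF : IsFamForm N k F) (i : ℕ) :
    IsForm N (k * ((Fintype.card (ZMod N)ˣ : ℤ) - i)) ((chrI F).coeff i) where
  slash γ hγ := by
    rw [coeff_chrI_slash, fam_slash_perm hF.fam γ hγ, chrI_perm]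
  holo := (coeff_chrI_mem bddSub.toSubring (fun q => perSub_le_bddSub (hF.mem_perSub q)) i).1
  bdd γ := by
    rw [coeff_chrI_slash]
    exact (coeff_chrI_mem bddSub.toSubring (fun q => hF.mem_bddSub q γ) i).2

theorem isCuspF_coeff_chrI (hF : IsFamCusp N k F) (i : ℕ) (hi : i < Fintype.card (ZMod N)ˣ) :
    IsCuspF (k * ((Fintype.card (ZMod N)ˣ : ℤ) - i)) ((chrI F).coeff i) := by
  intro γ
  rw [coeff_chrI_slash]
  exact coeff_chrI_zero (fun q => hF.isFamForm.mem_bddSub q γ) (fun q => hF.zero q γ) i hi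

/-- slash of an integral relation -/
theorem slash_relationN {k : ℤ} {n : ℕ} {c : ℕ → ℍ → ℂ} {F : ℍ → ℂ}
    (h : ∑ i ∈ Finset.range (n + 1), c i * F ^ i = 0) (γ : SL(2, ℤ)) (τ : ℍ) :
    ∑ i ∈ Finset.range (n + 1), (c i ∣[k * ((n : ℤ) - i)] γ) τ * (F ∣[k] γ) τ ^ i = 0 := by
  have hd := denom_ne_zero (γ : GL (Fin 2) ℝ) τ
  have h1 := congrFun h (γ • τ)
  simp only [Finset.sum_apply, Pi.mul_apply, Pi.pow_apply, Pi.zero_apply] at h1
  have h2 : denom (γ : GL (Fin 2) ℝ) τ ^ (k * n) *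
      ∑ i ∈ Finset.range (n + 1), (c i ∣[k * ((n : ℤ) - i)] γ) τ * (F ∣[k] γ) τ ^ i = 0 := by
    rw [Finset.mul_sum, ← h1]
    apply Finset.sum_congr rfl
    intro i hi
    rw [Finset.mem_range] at hi
    have hci := apply_smul_eq (k * ((n : ℤ) - i)) (c i) γ τ
    have hF := apply_smul_eq k F γ τ
    have hpow : (denom (γ : GL (Fin 2) ℝ) τ ^ k) ^ i = denom (γ : GL (Fin 2) ℝ) τ ^ (k * (i : ℤ)) := by
      rw [zpow_mul, zpow_natCast]
    rw [hci, hF, mul_pow, hpow]
    have : denom (γ : GL (Fin 2) ℝ) τ ^ (k * n) =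
        denom (γ : GL (Fin 2) ℝ) τ ^ (k * ((n : ℤ) - i)) *
          denom (γ : GL (Fin 2) ℝ) τ ^ (k * (i : ℤ)) := by
      rw [← zpow_add₀ hd]; congr 1; ring
    rw [this]
    ring
  exact (mul_eq_zero.mp h2).resolve_left (zpow_ne_zero _ hd)

variable (N) in
/-- the different of the family `Hfam` -/
abbrev DH (d : (ZMod N)ˣ) : ℍ → ℂ := difI (Hfam N) d

theorem DH_mem_perSub (d : (ZMod N)ˣ) : DH N d ∈ perSub :=
  prod_mem fun e _ => sub_mem ((isFamForm_Hfam N).mem_perSub d) ((isFamForm_Hfam N).mem_perSub e)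

theorem qE_prod {ι : Type*} (s : Finset ι) {F : ι → ℍ → ℂ} (hF : ∀ i ∈ s, F i ∈ perSub) :
    qExpansion 1 (∏ i ∈ s, F i) = ∏ i ∈ s, qExpansion 1 (F i) := by
  classical
  induction s using Finset.induction_on with
  | empty => simp [qExpansion_one]
  | insert a s ha ih =>
    rw [Finset.prod_insert ha, Finset.prod_insert ha,
      qE_mul (hF a (Finset.mem_insert_self a s))
        (prod_mem fun i hi => hF i (Finset.mem_insert_of_mem hi)),
      ih fun i hi => hF i (Finset.mem_insert_of_mem hi)]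

theorem qE_sub {f g : ℍ → ℂ} (hf : f ∈ perSub) (hg : g ∈ perSub) :
    qExpansion 1 (f - g) = qExpansion 1 f - qExpansion 1 g := by
  have h : qExpansion 1 ((f - g) + g) = qExpansion 1 (f - g) + qExpansion 1 g :=
    qE_add (sub_mem hf hg) hg
  rw [sub_add_cancel] at h
  rw [h, add_sub_cancel_right]

theorem isInt_DH (hN : 3 ≤ N) (d : (ZMod N)ˣ) : IsInt (DH N d) := by
  rw [isInt_iff, DH, difI, qE_prod _ fun e _ => sub_mem ((isFamForm_Hfam N).mem_perSub d)
    ((isFamForm_Hfam N).mem_perSub e)]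
  refine prod_mem fun e _ => ?_
  rw [qE_sub ((isFamForm_Hfam N).mem_perSub d) ((isFamForm_Hfam N).mem_perSub e)]
  exact sub_mem ((isInt_iff _).mp (isInt_Hfam N (by omega) d))
    ((isInt_iff _).mp (isInt_Hfam N (by omega) e))

theorem DH_ne_zero (hN : 3 ≤ N) (d : (ZMod N)ˣ) : DH N d ≠ 0 := by
  rw [DH, difI]
  intro h
  rw [UpperHalfPlane.prod_eq_zero_iff] at h
  · obtain ⟨e, he, he0⟩ := h
    rw [Finset.mem_erase] at he
    exact he.1 (Hfam_injective N hN (sub_eq_zero.mp he0)).symm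
  · intro e _
    exact ((isFamForm_Hfam N).holo d).sub ((isFamForm_Hfam N).holo e)

theorem qDH_ne_zero (hN : 3 ≤ N) (d : (ZMod N)ˣ) : qExpansion 1 (DH N d) ≠ 0 := by
  intro h
  apply DH_ne_zero hN d
  apply qE_inj (DH_mem_perSub d) (zero_mem _)
  rw [h, qExpansion_zero]

/-- Galois conjugates of families. -/
theorem exists_conj_fam (hN : 3 ≤ N) (hF : IsFamForm N k F) (σ : ℂ →+* ℂ) :
    ∃ F' : (ZMod N)ˣ → ℍ → ℂ, IsFamForm N k F' ∧
      (∀ d, qExpansion 1 (F' d) = (qExpansion 1 (F d)).map σ) ∧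
      (IsFamCusp N k F → IsFamCusp N k F') := by
  set n := Fintype.card (ZMod N)ˣ with hn
  have hnpos : 0 < n := Fintype.card_pos
  have hH := isFamForm_Hfam N
  -- conjugates of the coefficients of the interpolation polynomial
  have hc' : ∀ i : ℕ, ∃ c' : ℍ → ℂ, IsForm N (k + 3 * ((n : ℤ) - 1 - i)) c' ∧
      qExpansion 1 c' = (qExpansion 1 ((interpI F (Hfam N)).coeff i)).map σ := by
    intro i
    obtain ⟨c', h1, h2, -⟩ := exists_conj_form (isForm_coeff_interpI hF hH i) σ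
    exact ⟨c', h1, h2⟩
  choose c hc1 hc2 using hc'
  -- conjugates of the coefficients of the characteristic polynomial
  have hs' : ∀ i : ℕ, ∃ s' : ℍ → ℂ, (i ≤ n → IsForm N (k * ((n : ℤ) - i)) s' ∧
      qExpansion 1 s' = (qExpansion 1 ((chrI F).coeff i)).map σ) ∧
      (¬ i ≤ n → s' = 0) ∧
      (i < n → IsFamCusp N k F → IsCuspF (k * ((n : ℤ) - i)) s') := by
    intro i
    by_cases hi : i ≤ n
    · by_cases hcusp : IsFamCusp N k F ∧ i < n
      · obtain ⟨s', h1, h0, h2⟩ := exists_conj_cusp (isForm_coeff_chrI hF i)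
          (isCuspF_coeff_chrI hcusp.1 i hcusp.2) σ
        exact ⟨s', fun _ => ⟨h1, h2⟩, fun h => absurd hi h, fun _ _ => h0⟩
      · obtain ⟨s', h1, h2, -⟩ := exists_conj_form (isForm_coeff_chrI hF i) σ
        exact ⟨s', fun _ => ⟨h1, h2⟩, fun h => absurd hi h, fun h h' => absurd ⟨h', h⟩ hcusp⟩
    · exact ⟨0, fun h => absurd h hi, fun _ => rfl, fun h => absurd h.le hi⟩
  choose s hs hsz hs0 using hs'
  have hsn : s n = 1 := by
    apply qE_inj (hs n le_rfl).1.mem_perSub (one_mem _)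
    rw [(hs n le_rfl).2, hn, chrI_coeff_card, qExpansion_one, map_one]
  have hsM : ∀ i, MDiff (s i) := by
    intro i
    by_cases hi : i ≤ n
    · exact (hs i hi).1.holo
    · rw [hsz i hi]; exact mdifferentiable_const
  -- the numerators
  let g1 : (ZMod N)ˣ → ℍ → ℂ := fun d => ∑ i ∈ Finset.range n, c i * Hfam N d ^ i
  have hg1p : ∀ d, g1 d ∈ perSub := fun d => sum_mem fun i _ =>
    mul_mem (hc1 i).mem_perSub (pow_mem (hH.mem_perSub d) i)
  have hDint : ∀ d, (qExpansion 1 (DH N d)).map σ = qExpansion 1 (DH N d) := fun d =>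
    map_intPS σ ((isInt_iff _).mp (isInt_DH hN d))
  have hg1q : ∀ d, qExpansion 1 (g1 d) = (qExpansion 1 (F d)).map σ * qExpansion 1 (DH N d) := by
    intro d
    have h1 := mul_difI F (Hfam N) d
    rw [← hn] at h1
    have h2 : (qExpansion 1 (F d * DH N d)).map σ = qExpansion 1 (g1 d) := by
      change (qExpansion 1 (F d * difI (Hfam N) d)).map σ = _
      rw [h1, qE_sum _ fun i _ => mul_mem (isForm_coeff_interpI hF hH i).mem_perSub
        (pow_mem (hH.mem_perSub d) i), qE_sum _ fun i _ => mul_mem (hc1 i).mem_perSub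
        (pow_mem (hH.mem_perSub d) i), map_sum]
      refine Finset.sum_congr rfl fun i _ => ?_
      rw [qE_mul (isForm_coeff_interpI hF hH i).mem_perSub (pow_mem (hH.mem_perSub d) i),
        qE_mul (hc1 i).mem_perSub (pow_mem (hH.mem_perSub d) i), qE_pow (hH.mem_perSub d),
        map_mul, map_pow, hc2, map_intPS σ ((isInt_iff _).mp (isInt_Hfam N (by omega) d))]
    rw [← h2, qE_mul (hF.mem_perSub d) (DH_mem_perSub d), map_mul, hDint]
  -- the relation
  have hrel : ∀ d, ∑ i ∈ Finset.range (n + 1), s i * g1 d ^ i * DH N d ^ (n - i) = 0 := by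
    intro d
    have hp : ∀ i ∈ Finset.range (n + 1), s i * g1 d ^ i * DH N d ^ (n - i) ∈ perSub := by
      intro i hi
      rw [Finset.mem_range] at hi
      exact mul_mem (mul_mem (hs i (by omega)).1.mem_perSub (pow_mem (hg1p d) _))
        (pow_mem (DH_mem_perSub d) _)
    apply qE_inj (sum_mem hp) (zero_mem _)
    rw [qE_sum _ hp, qExpansion_zero]
    have h1 : ∀ i ∈ Finset.range (n + 1), qExpansion 1 (s i * g1 d ^ i * DH N d ^ (n - i)) =
        (qExpansion 1 ((chrI F).coeff i * F d ^ i)).map σ * (qExpansion 1 (DH N d)) ^ n := by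
      intro i hi
      rw [Finset.mem_range] at hi
      have hsi := hs i (by omega)
      rw [qE_mul (mul_mem hsi.1.mem_perSub (pow_mem (hg1p d) _)) (pow_mem (DH_mem_perSub d) _),
        qE_mul hsi.1.mem_perSub (pow_mem (hg1p d) _), qE_pow (hg1p d), qE_pow (DH_mem_perSub d),
        hsi.2, hg1q, qE_mul (isForm_coeff_chrI hF i).mem_perSub (pow_mem (hF.mem_perSub d) _),
        qE_pow (hF.mem_perSub d), map_mul, map_pow, mul_pow]
      have e1 : (qExpansion 1 (DH N d)) ^ n =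
          (qExpansion 1 (DH N d)) ^ i * (qExpansion 1 (DH N d)) ^ (n - i) := by
        rw [← pow_add]; congr 1; omega
      rw [e1]
      ring
    rw [Finset.sum_congr rfl h1, ← Finset.sum_mul, ← map_sum, ← qE_sum]
    · have h2 := chrI_relation F d
      rw [← hn] at h2
      rw [h2, qExpansion_zero, map_zero, zero_mul]
    · intro i _
      exact mul_mem (isForm_coeff_chrI hF i).mem_perSub (pow_mem (hF.mem_perSub d) _)
  have hex : ∀ d, ∃ F' : ℍ → ℂ, MDiff F' ∧ F' * DH N d = g1 d ∧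
      ∑ i ∈ Finset.range (n + 1), s i * F' ^ i = 0 := fun d =>
    exists_quotient s hsM hsn (DH_mem_perSub d).2.1 (hg1p d).2.1 (DH_ne_zero hN d) (hrel d)
  choose F' hF'M hF'g hF'rel using hex
  -- the family property
  have hDfam : IsFam N (3 * ((n : ℤ) - 1)) (DH N) := by
    intro γ d
    have h0 : IsForm N 0 (1 : ℍ → ℂ) := IsForm.one
    have h1fam : IsFamForm N 0 (fun _ : (ZMod N)ˣ => (1 : ℍ → ℂ)) :=
      ⟨fun γ d => h0.slash _ γ.2, fun _ => h0.holo, fun _ γ => h0.bdd γ⟩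
    have h1 := mul_difI (fun _ : (ZMod N)ˣ => (1 : ℍ → ℂ)) (Hfam N) d
    have h2 := mul_difI (fun _ : (ZMod N)ˣ => (1 : ℍ → ℂ)) (Hfam N) (d * del N γ)
    rw [one_mul] at h1 h2
    rw [DH, DH, h1, h2, SlashAction.sum_slash]
    refine Finset.sum_congr rfl fun i hi => ?_
    have h3 := (isForm_coeff_interpI h1fam hH i).slash (γ : SL(2, ℤ)) γ.2
    have h4 : (Hfam N d ^ i) ∣[(i : ℤ) * 3] (γ : SL(2, ℤ)) = Hfam N (d * del N γ) ^ i := by
      rw [← hH.fam γ d]
      ext τ
      rw [SL_slash_apply, Pi.pow_apply, Pi.pow_apply, SL_slash_apply, mul_pow, ← zpow_natCast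
        (denom _ _ ^ (-3 : ℤ)), ← zpow_mul]
      congr 2
      ring
    have h5 := mul_slash_SL2 (0 + 3 * ((n : ℤ) - 1 - i)) ((i : ℤ) * 3) (γ : SL(2, ℤ))
      ((interpI (fun _ : (ZMod N)ˣ => (1 : ℍ → ℂ)) (Hfam N)).coeff i) (Hfam N d ^ i)
    rw [h3, h4, show (0 + 3 * ((n : ℤ) - 1 - i)) + (i : ℤ) * 3 = 3 * ((n : ℤ) - 1) by ring] at h5
    exact h5
  have hg1fam : IsFam N (k + 3 * ((n : ℤ) - 1)) g1 := by
    intro γ d
    simp only [g1]
    rw [SlashAction.sum_slash]
    refine Finset.sum_congr rfl fun i hi => ?_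
    have h3 := (hc1 i).slash (γ : SL(2, ℤ)) γ.2
    have h4 : (Hfam N d ^ i) ∣[(i : ℤ) * 3] (γ : SL(2, ℤ)) = Hfam N (d * del N γ) ^ i := by
      rw [← hH.fam γ d]
      ext τ
      rw [SL_slash_apply, Pi.pow_apply, Pi.pow_apply, SL_slash_apply, mul_pow, ← zpow_natCast
        (denom _ _ ^ (-3 : ℤ)), ← zpow_mul]
      congr 2
      ring
    have h5 := mul_slash_SL2 (k + 3 * ((n : ℤ) - 1 - i)) ((i : ℤ) * 3) (γ : SL(2, ℤ))
      (c i) (Hfam N d ^ i)
    rw [h3, h4, show (k + 3 * ((n : ℤ) - 1 - i)) + (i : ℤ) * 3 = k + 3 * ((n : ℤ) - 1) by ring] at h5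
    exact h5
  have hF'fam : IsFam N k F' := by
    intro γ d
    have h1 : (F' d ∣[k] (γ : SL(2, ℤ))) * DH N (d * del N γ) =
        F' (d * del N γ) * DH N (d * del N γ) := by
      have h2 := mul_slash_SL2 k (3 * ((n : ℤ) - 1)) (γ : SL(2, ℤ)) (F' d) (DH N d)
      rw [hDfam γ d, hF'g, hg1fam γ d] at h2
      rw [← h2, hF'g]
    have h3 : (F' d ∣[k] (γ : SL(2, ℤ)) - F' (d * del N γ)) * DH N (d * del N γ) = 0 := by
      rw [sub_mul, h1, sub_self]
    rcases (UpperHalfPlane.mul_eq_zero_iff (((hF'M d).slash k _).sub (hF'M _))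
      (DH_mem_perSub _).2.1).mp h3 with h | h
    · exact sub_eq_zero.mp h
    · exact absurd h (DH_ne_zero hN _)
  have hF'bdd : ∀ d (γ : SL(2, ℤ)), IsBoundedAtImInfty (F' d ∣[k] γ) := by
    intro d γ
    apply bounded_of_relation (n := n) (c := fun i => s i ∣[k * ((n : ℤ) - i)] γ)
    · intro i hi
      exact (hs i hi.le).1.bdd γ
    · rw [hsn, sub_self, mul_zero]
      exact is_invariant_one γ
    · exact slash_relationN (hF'rel d) γ
  have hF'form : IsFamForm N k F' := ⟨hF'fam, hF'M, hF'bdd⟩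
  refine ⟨F', hF'form, fun d => ?_, fun hcusp => ⟨hF'fam, hF'M, fun d γ => ?_⟩⟩
  · have h1 := qE_mul (hF'form.mem_perSub d) (DH_mem_perSub d)
    rw [hF'g, hg1q] at h1
    exact (mul_right_cancel₀ (qDH_ne_zero hN d) h1).symm
  · apply zero_of_relation hnpos (c := fun i => s i ∣[k * ((n : ℤ) - i)] γ)
    · intro i hi
      exact hs0 i hi hcusp γ
    · rw [hsn, sub_self, mul_zero]
      exact is_invariant_one γ
    · exact hF'bdd d γ
    · exact slash_relationN (hF'rel d) γ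

end

end Fermat.Agent.WOne
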