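import Mathlib
import Fermat.Agent.TorsSurj.Eis
import Fermat.Agent.X0Places.Laurent

set_option autoImplicit false

/-!
# Eisenstein series of weight `≥ 3` and level `M`: transformation law, holomorphy
-/

open UpperHalfPlane EisensteinSeries CongruenceSubgroup Matrix ModularForm
open Matrix.SpecialLinearGroup
open scoped MatrixGroups Manifold Topology
open Fermat.Agent.TorsSurj (bd summable_bd norm_eisSummand_le tsum_norm_le vecMul_injective)

namespace Fermat.Agent.WOne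

noncomputable section

/-- Weighted Eisenstein series. -/
def eisW (k : ℤ) (c : (Fin 2 → ℤ) → ℂ) (z : ℍ) : ℂ := ∑' x : Fin 2 → ℤ, c x * eisSummand k x z

theorem norm_eisW_term {k : ℤ} {c : (Fin 2 → ℤ) → ℂ} (hc : ∀ x, ‖c x‖ ≤ 1) (z : ℍ)
    (x : Fin 2 → ℤ) : ‖c x * eisSummand k x z‖ ≤ ‖eisSummand k x z‖ := by
  rw [norm_mul]
  exact mul_le_of_le_one_left (norm_nonneg _) (hc x)

theorem summable_eisW {k : ℤ} (hk : 3 ≤ k) {c : (Fin 2 → ℤ) → ℂ} (hc : ∀ x, ‖c x‖ ≤ 1) (z : ℍ) :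
    Summable fun x => ‖c x * eisSummand k x z‖ :=
  Summable.of_nonneg_of_le (fun _ => norm_nonneg _) (norm_eisW_term hc z)
    (summable_norm_eisSummand hk z)

/-- the right action of `SL(2, ℤ)` on rows -/
def vecEquiv (γ : SL(2, ℤ)) : (Fin 2 → ℤ) ≃ (Fin 2 → ℤ) where
  toFun v := v ᵥ* (γ : Matrix (Fin 2) (Fin 2) ℤ)
  invFun v := v ᵥ* ((γ⁻¹ : SL(2, ℤ)) : Matrix (Fin 2) (Fin 2) ℤ)
  left_inv v := by
    change (v ᵥ* _) ᵥ* _ = v
    rw [Matrix.vecMul_vecMul, ← Matrix.SpecialLinearGroup.coe_mul, mul_inv_cancel,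
      Matrix.SpecialLinearGroup.coe_one, Matrix.vecMul_one]
  right_inv v := by
    change (v ᵥ* _) ᵥ* _ = v
    rw [Matrix.vecMul_vecMul, ← Matrix.SpecialLinearGroup.coe_mul, inv_mul_cancel,
      Matrix.SpecialLinearGroup.coe_one, Matrix.vecMul_one]

theorem eisW_slash (k : ℤ) (c : (Fin 2 → ℤ) → ℂ) (γ : SL(2, ℤ)) :
    eisW k c ∣[k] γ =
      eisW k (fun x => c (x ᵥ* ((γ⁻¹ : SL(2, ℤ)) : Matrix (Fin 2) (Fin 2) ℤ))) := by
  funext z
  rw [SL_slash_apply, eisW, eisW, ← (vecEquiv γ).tsum_eq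
    (fun x => c (x ᵥ* ((γ⁻¹ : SL(2, ℤ)) : Matrix (Fin 2) (Fin 2) ℤ)) * eisSummand k x z),
    mul_comm, ← tsum_mul_left]
  refine tsum_congr fun x => ?_
  have h1 : (vecEquiv γ x) ᵥ* ((γ⁻¹ : SL(2, ℤ)) : Matrix (Fin 2) (Fin 2) ℤ) = x :=
    (vecEquiv γ).symm_apply_apply x
  have h3 : vecEquiv γ x = x ᵥ* (γ : Matrix (Fin 2) (Fin 2) ℤ) := rfl
  have h2 : denom γ z ^ k ≠ 0 := zpow_ne_zero _ (denom_ne_zero _ z)
  simp only [h1]
  rw [eisSummand_SL2_apply, h3, _root_.zpow_neg]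
  field_simp

theorem isBoundedAtImInfty_eisW {k : ℤ} (hk : 3 ≤ k) {c : (Fin 2 → ℤ) → ℂ}
    (hc : ∀ x, ‖c x‖ ≤ 1) : IsBoundedAtImInfty (eisW k c) := by
  rw [UpperHalfPlane.isBoundedAtImInfty_iff]
  refine ⟨∑' x, bd k 1 1 one_pos x, 1, fun z hz => ?_⟩
  refine (norm_tsum_le_tsum_norm (summable_eisW hk hc z)).trans ?_
  refine le_trans ?_ (tsum_norm_le k hk z hz)
  exact (summable_eisW hk hc z).tsum_le_tsum (norm_eisW_term hc z) (summable_norm_eisSummand hk z)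

theorem mdiff_eisW {k : ℤ} (hk : 3 ≤ k) {c : (Fin 2 → ℤ) → ℂ} (hc : ∀ x, ‖c x‖ ≤ 1) :
    MDiff (eisW k c) := by
  rw [UpperHalfPlane.mdifferentiable_iff]
  intro z hz
  obtain ⟨A, B, hA, hB, hz'⟩ : ∃ A B : ℝ, 0 < B ∧ (|z.re| < A ∧ B < z.im) ∧ True :=
    ⟨|z.re| + 1, z.im / 2, half_pos hz, ⟨by linarith, half_lt_self hz⟩, trivial⟩
  let U : Set ℂ := {w | |w.re| < A ∧ B < w.im}
  have hU : IsOpen U := (isOpen_lt (Complex.continuous_re.abs) continuous_const).inter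
    (isOpen_lt continuous_const Complex.continuous_im)
  have hUpos : ∀ w ∈ U, 0 < w.im := fun w hw => hA.trans hw.2
  have hd : DifferentiableOn ℂ (fun w : ℂ => ∑' x : Fin 2 → ℤ,
      c x * eisSummand k x (ofComplex w)) U := by
    refine Complex.differentiableOn_tsum_of_summable_norm
      (u := fun x => bd k A B hA x) (summable_bd k hk A B hA) (fun x => ?_) hU ?_
    · refine DifferentiableOn.const_mul ?_ _
      exact (eisSummand_extension_differentiableOn k x).mono hUpos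
    · intro x w hw
      refine (norm_eisW_term hc _ x).trans (norm_eisSummand_le k (by omega) hA ?_ _)
      rw [mem_verticalStrip_iff, UpperHalfPlane.ofComplex_apply_of_im_pos (hUpos w hw)]
      exact ⟨hw.1.le, hw.2.le⟩
  exact ((hd z hB).differentiableAt (hU.mem_nhds hB)).differentiableWithinAt

/-- the indicator function of a residue class of vectors -/
def rcls (M : ℕ) (v : Fin 2 → ZMod M) (x : Fin 2 → ℤ) : ℂ :=
  if (fun i => ((x i : ℤ) : ZMod M)) = v then 1 else 0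

theorem norm_rcls (M : ℕ) (v : Fin 2 → ZMod M) (x : Fin 2 → ℤ) : ‖rcls M v x‖ ≤ 1 := by
  rw [rcls]; split_ifs <;> simp

/-- Eisenstein series attached to a vector modulo `M`. -/
def G (M : ℕ) (k : ℤ) (v : Fin 2 → ZMod M) : ℍ → ℂ := eisW k (rcls M v)

/-- the action on vectors modulo `M` -/
def vact {M : ℕ} (v : Fin 2 → ZMod M) (γ : SL(2, ℤ)) : Fin 2 → ZMod M :=
  v ᵥ* ((γ : Matrix (Fin 2) (Fin 2) ℤ).map (Int.cast : ℤ → ZMod M))

theorem cast_vecMul {M : ℕ} (x : Fin 2 → ℤ) (A : Matrix (Fin 2) (Fin 2) ℤ) :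
    (fun i => (((x ᵥ* A) i : ℤ) : ZMod M)) =
      (fun i => ((x i : ℤ) : ZMod M)) ᵥ* A.map (Int.cast : ℤ → ZMod M) := by
  funext i
  simp [Matrix.vecMul, dotProduct]

theorem vact_mul {M : ℕ} (v : Fin 2 → ZMod M) (γ δ : SL(2, ℤ)) :
    vact v (γ * δ) = vact (vact v γ) δ := by
  have h : ((γ * δ : SL(2, ℤ)) : Matrix (Fin 2) (Fin 2) ℤ).map (Int.cast : ℤ → ZMod M) =
      (γ : Matrix (Fin 2) (Fin 2) ℤ).map (Int.cast : ℤ → ZMod M) *
        (δ : Matrix (Fin 2) (Fin 2) ℤ).map (Int.cast : ℤ → ZMod M) := by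
    rw [Matrix.SpecialLinearGroup.coe_mul]
    exact Matrix.map_mul (f := Int.castRingHom (ZMod M))
  rw [vact, h, ← Matrix.vecMul_vecMul, vact, vact]

theorem vact_one {M : ℕ} (v : Fin 2 → ZMod M) : vact v 1 = v := by
  have h : ((1 : SL(2, ℤ)) : Matrix (Fin 2) (Fin 2) ℤ).map (Int.cast : ℤ → ZMod M) = 1 := by
    rw [Matrix.SpecialLinearGroup.coe_one]
    exact Matrix.map_one _ Int.cast_zero Int.cast_one
  rw [vact, h, Matrix.vecMul_one]

theorem G_slash (M : ℕ) (k : ℤ) (v : Fin 2 → ZMod M) (γ : SL(2, ℤ)) :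
    G M k v ∣[k] γ = G M k (vact v γ) := by
  rw [G, eisW_slash, G]
  congr 1
  funext x
  rw [rcls, rcls, cast_vecMul]
  have key : ((fun i => ((x i : ℤ) : ZMod M)) ᵥ*
      (((γ⁻¹ : SL(2, ℤ)) : Matrix (Fin 2) (Fin 2) ℤ).map (Int.cast : ℤ → ZMod M)) = v) ↔
      (fun i => ((x i : ℤ) : ZMod M)) = vact v γ := by
    change vact _ γ⁻¹ = v ↔ _
    constructor
    · intro h
      rw [← h, ← vact_mul, inv_mul_cancel, vact_one]
    · intro h
      rw [h, ← vact_mul, mul_inv_cancel, vact_one]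
  simp only [key]

theorem mdiff_G (M : ℕ) {k : ℤ} (hk : 3 ≤ k) (v : Fin 2 → ZMod M) : MDiff (G M k v) :=
  mdiff_eisW hk (norm_rcls M v)

theorem isBoundedAtImInfty_G (M : ℕ) {k : ℤ} (hk : 3 ≤ k) (v : Fin 2 → ZMod M) :
    IsBoundedAtImInfty (G M k v) :=
  isBoundedAtImInfty_eisW hk (norm_rcls M v)

end

end Fermat.Agent.WOne
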