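import Fermat.Agent.WOne.EisBase

set_option autoImplicit false

/-!
# Expansions of Eisenstein series of level `M` in `q_M = exp (2πiτ/M)`
-/

open UpperHalfPlane EisensteinSeries ModularForm
open scoped MatrixGroups Manifold Topology
open Fermat.Agent.X0Places (HasQExp)
open Function.Periodic (qParam)

namespace Fermat.Agent.WOne

noncomputable section

/-- The constant in the Lipschitz formula. -/
def lipC (k : ℕ) : ℂ := (-2 * Real.pi * Complex.I) ^ k / (k - 1).factorial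

theorem lipC_ne_zero (k : ℕ) : lipC k ≠ 0 := by
  rw [lipC]
  apply div_ne_zero
  · apply pow_ne_zero
    simp [Real.pi_ne_zero]
  · exact_mod_cast (k - 1).factorial_ne_zero

theorem lipschitz {k : ℕ} (hk : 2 ≤ k) (w : ℍ) :
    ∑' n : ℤ, (((w : ℂ) + n) ^ k)⁻¹ =
      lipC k * ∑' j : ℕ+, ((j : ℕ) : ℂ) ^ (k - 1) * Complex.exp (2 * Real.pi * Complex.I * w) ^ (j : ℕ) := by
  have h := EisensteinSeries.qExpansion_identity_pnat (k := k - 1) (by omega) w
  rw [Nat.sub_add_cancel (by omega)] at h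
  simp only [one_div] at h
  rw [h]
  rfl

variable (M : ℕ) [NeZero M]

/-- inner sums -/
def inner' (k : ℕ) (b : ZMod M) (m : ℤ) (z : ℂ) : ℂ :=
  ∑' n : ℤ, if ((n : ℤ) : ZMod M) = b then ((((m : ℂ) * z + n) ^ k)⁻¹) else 0

theorem inner'_eq_shift (k : ℕ) (b : ZMod M) (m : ℤ) (z : ℂ) :
    inner' M k b m z = ((M : ℂ) ^ k)⁻¹ * ∑' n : ℤ, ((((m : ℂ) * z + b.val) / M + n) ^ k)⁻¹ := by
  have hM : (M : ℂ) ≠ 0 := by exact_mod_cast NeZero.ne M
  have hMZ : (M : ℤ) ≠ 0 := by exact_mod_cast NeZero.ne M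
  have hinj : Function.Injective (fun n : ℤ => (b.val : ℤ) + M * n) := by
    intro x y h
    simp only [add_right_inj] at h
    exact mul_left_cancel₀ hMZ h
  rw [inner', ← tsum_mul_left, ← hinj.tsum_eq]
  · refine tsum_congr fun n => ?_
    rw [if_pos (by simp), ← mul_inv, ← mul_pow]
    congr 2
    push_cast
    field_simp
    ring
  · intro n hn
    rw [Function.mem_support] at hn
    have h1 : ((n : ℤ) : ZMod M) = b := by
      by_contra h
      exact hn (if_neg h)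
    have h2 : ((n - b.val : ℤ) : ZMod M) = 0 := by
      push_cast
      rw [h1]; simp
    rw [ZMod.intCast_zmod_eq_zero_iff_dvd] at h2
    obtain ⟨t, ht⟩ := h2
    exact ⟨t, by simp only; linarith⟩

/-- the root of unity -/
def zetaM : ℂ := Complex.exp (2 * Real.pi * Complex.I / M)

theorem inner'_pos {k : ℕ} (hk : 2 ≤ k) (b : ZMod M) (m : ℕ) (hm : 0 < m) (z : ℍ) :
    inner' M k b m z = ((M : ℂ) ^ k)⁻¹ * lipC k *
      ∑' j : ℕ+, ((j : ℕ) : ℂ) ^ (k - 1) * (zetaM M ^ (b.val * (j : ℕ)) * qParam M z ^ (m * (j : ℕ))) := by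
  have hM : (M : ℂ) ≠ 0 := by exact_mod_cast NeZero.ne M
  have hMR : (0 : ℝ) < M := by exact_mod_cast Nat.pos_of_ne_zero (NeZero.ne M)
  have him : 0 < ((((m : ℤ) : ℂ) * z + b.val) / M).im := by
    have : ((((m : ℤ) : ℂ) * z + b.val) / M).im = m * z.im / M := by
      rw [show ((((m : ℤ) : ℂ) * z + b.val) / M) = (((m : ℤ) : ℂ) * z + b.val) / ((M : ℝ) : ℂ) by simp,
        Complex.div_ofReal_im]
      simp [-ZMod.natCast_val]
    rw [this]
    have hm' : (0 : ℝ) < m := by exact_mod_cast hm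
    have := z.im_pos
    positivity
  rw [inner'_eq_shift, mul_assoc]
  congr 1
  have h := lipschitz hk ⟨_, him⟩
  simp only at h
  rw [h]
  congr 1
  refine tsum_congr fun j => ?_
  congr 1
  rw [zetaM, qParam, ← Complex.exp_nat_mul, ← Complex.exp_nat_mul, ← Complex.exp_nat_mul,
    ← Complex.exp_add]
  congr 1
  push_cast
  field_simp
  ring

omit [NeZero M] in
theorem inner'_neg (k : ℕ) (b : ZMod M) (m : ℤ) (z : ℂ) :
    inner' M k b (-m) z = (-1) ^ k * inner' M k (-b) m z := by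
  rw [inner', inner', ← tsum_mul_left, ← (Equiv.neg ℤ).tsum_eq]
  refine tsum_congr fun n => ?_
  simp only [Equiv.neg_apply, Int.cast_neg]
  have h1 : (-((n : ℤ) : ZMod M) = b) ↔ (((n : ℤ) : ZMod M) = -b) := by
    constructor
    · intro h; rw [← h, neg_neg]
    · intro h; rw [h, neg_neg]
  simp only [h1]
  split_ifs
  · rw [show (-(m : ℂ)) * z + -(n : ℂ) = (-1) * ((m : ℂ) * z + n) by ring, mul_pow, mul_inv]
    congr 1
    rcases Nat.even_or_odd k with h | h
    · simp [h.neg_one_pow]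
    · rw [h.neg_one_pow]; norm_num
  · simp

/-- the two-variable summand of the expansion -/
def dterm (K : Type*) [Field K] (ζ : K) (k : ℕ) (a b : ZMod M) (x : ℕ × ℕ) : K :=
  (x.2 : K) ^ (k - 1) * ((if (x.1 : ZMod M) = a then ζ ^ (b.val * x.2) else 0) +
    (-1) ^ k * (if (x.1 : ZMod M) = -a then ζ ^ ((-b).val * x.2) else 0))

/-- the power series expansion; `c` is the constant term -/
def Pser (K : Type*) [Field K] (ζ c : K) (k : ℕ) (a b : ZMod M) : PowerSeries K :=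
  PowerSeries.mk fun r => if r = 0 then (if a = 0 then c else 0) else
    ∑ x ∈ r.divisorsAntidiagonal, dterm M K ζ k a b x

/-- the constant term -/
def cst (k : ℕ) (b : ZMod M) : ℂ := (M : ℂ) ^ k * (lipC k)⁻¹ * inner' M k b 0 0

omit [NeZero M] in
theorem inner'_zero (k : ℕ) (b : ZMod M) (z : ℂ) : inner' M k b 0 z = inner' M k b 0 0 := by
  simp [inner']

omit [NeZero M] in
theorem norm_zetaM : ‖zetaM M‖ = 1 := by
  rw [zetaM, show (2 * Real.pi * Complex.I / M : ℂ) = ((2 * Real.pi / M : ℝ) : ℂ) * Complex.I by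
    push_cast; ring, Complex.norm_exp_ofReal_mul_I]

omit [NeZero M] in
theorem norm_dterm_le (k : ℕ) (a b : ZMod M) (x : ℕ × ℕ) :
    ‖dterm M ℂ (zetaM M) k a b x‖ ≤ 2 * (x.2 : ℝ) ^ (k - 1) := by
  rw [dterm, norm_mul, norm_pow, Complex.norm_natCast, mul_comm]
  refine mul_le_mul_of_nonneg_right ?_ (by positivity)
  refine (norm_add_le _ _).trans ?_
  have h1 : ‖(if (x.1 : ZMod M) = a then zetaM M ^ (b.val * x.2) else 0 : ℂ)‖ ≤ 1 := by
    split_ifs <;> simp [norm_zetaM]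
  have h2 : ‖(-1 : ℂ) ^ k * (if (x.1 : ZMod M) = -a then zetaM M ^ ((-b).val * x.2) else 0)‖ ≤ 1 := by
    rw [norm_mul]
    split_ifs <;> simp [norm_zetaM]
  linarith

theorem norm_qParam_lt (z : ℍ) : ‖qParam M z‖ < 1 :=
  Function.Periodic.norm_qParam_lt_one (by exact_mod_cast Nat.pos_of_ne_zero (NeZero.ne M)) z.im_pos

/-- the two variable sum -/
theorem summable_dterm {k : ℕ} (a b : ZMod M) (z : ℍ) :
    Summable fun x : ℕ+ × ℕ+ =>
      dterm M ℂ (zetaM M) k a b (x.1, x.2) * qParam M z ^ ((x.1 : ℕ) * (x.2 : ℕ)) := by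
  have h := (summable_prod_mul_pow (k - 1) (norm_qParam_lt M z)).norm.mul_left 2
  refine Summable.of_norm_bounded h fun x => ?_
  rw [norm_mul, norm_mul, ← mul_assoc]
  refine mul_le_mul_of_nonneg_right ?_ (norm_nonneg _)
  have := norm_dterm_le M k a b (x.1, x.2)
  simpa using this

theorem hasSum_Pser {k : ℕ} (c : ℂ) (a b : ZMod M) (z : ℍ) :
    HasSum (fun r : ℕ => (Pser M ℂ (zetaM M) c k a b).coeff r * qParam M z ^ r)
      ((if a = 0 then c else 0) + ∑' x : ℕ+ × ℕ+,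
        dterm M ℂ (zetaM M) k a b (x.1, x.2) * qParam M z ^ ((x.1 : ℕ) * (x.2 : ℕ))) := by
  have h1 := (summable_dterm M (k := k) a b z).hasSum
  rw [← sigmaAntidiagonalEquivProd.hasSum_iff] at h1
  have h2 : ∀ r : ℕ+, HasSum (fun x : Nat.divisorsAntidiagonal r =>
      ((fun x : ℕ+ × ℕ+ => dterm M ℂ (zetaM M) k a b (x.1, x.2) *
        qParam M z ^ ((x.1 : ℕ) * (x.2 : ℕ))) ∘ sigmaAntidiagonalEquivProd) ⟨r, x⟩)
      ((Pser M ℂ (zetaM M) c k a b).coeff r * qParam M z ^ (r : ℕ)) := by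
    intro r
    have h3 : (Pser M ℂ (zetaM M) c k a b).coeff r * qParam M z ^ (r : ℕ) =
        ∑ x : Nat.divisorsAntidiagonal r, ((fun x : ℕ+ × ℕ+ =>
          dterm M ℂ (zetaM M) k a b (x.1, x.2) *
        qParam M z ^ ((x.1 : ℕ) * (x.2 : ℕ))) ∘ sigmaAntidiagonalEquivProd) ⟨r, x⟩ := by
      rw [Pser, PowerSeries.coeff_mk, if_neg r.ne_zero, Finset.sum_mul, ← Finset.sum_attach]
      refine Finset.sum_congr rfl fun x _ => ?_
      simp only [Function.comp, sigmaAntidiagonalEquivProd, divisorsAntidiagonalFactors,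
        Equiv.coe_fn_mk, PNat.mk_coe]
      congr 2
      exact (Nat.mem_divisorsAntidiagonal.mp x.2).1.symm
    rw [h3]
    exact hasSum_fintype _
  have h4 := h1.sigma h2
  have h5 := (hasSum_pnat_iff (f := fun r : ℕ => (Pser M ℂ (zetaM M) c k a b).coeff r *
    qParam M z ^ r)).mp h4
  have h6 : (PowerSeries.coeff 0) (Pser M ℂ (zetaM M) c k a b) * qParam M z ^ 0 =
      (if a = 0 then c else 0) := by simp [Pser]
  rw [h6, add_comm] at h5
  exact h5

omit [NeZero M] in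
theorem G_eq_tsum {k : ℕ} (hk : 3 ≤ k) (a b : ZMod M) (z : ℍ) :
    Summable (fun m : ℤ => if ((m : ℤ) : ZMod M) = a then inner' M k b m z else 0) ∧
    G M k ![a, b] z = ∑' m : ℤ, if ((m : ℤ) : ZMod M) = a then inner' M k b m z else 0 := by
  have hk' : (3 : ℤ) ≤ (k : ℤ) := by exact_mod_cast hk
  have h1 : Summable fun x : Fin 2 → ℤ => rcls M ![a, b] x * eisSummand k x z :=
    (summable_eisW hk' (norm_rcls M ![a, b]) z).of_norm
  have h2 := (finTwoArrowEquiv ℤ).symm.summable_iff.mpr h1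
  have h3 := (finTwoArrowEquiv ℤ).symm.tsum_eq
    (fun x : Fin 2 → ℤ => rcls M ![a, b] x * eisSummand k x z)
  have h4 : ∀ m n : ℤ, ((fun x : Fin 2 → ℤ => rcls M ![a, b] x * eisSummand k x z) ∘
      (finTwoArrowEquiv ℤ).symm) (m, n) = if ((m : ℤ) : ZMod M) = a then
        (if ((n : ℤ) : ZMod M) = b then ((((m : ℂ) * z + n) ^ k)⁻¹) else 0) else 0 := by
    intro m n
    simp only [Function.comp, finTwoArrowEquiv_symm_apply, rcls, eisSummand]
    have h5 : ((fun i => ((![m, n] i : ℤ) : ZMod M)) = ![a, b]) ↔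
        (((m : ℤ) : ZMod M) = a ∧ ((n : ℤ) : ZMod M) = b) := by
      constructor
      · intro h
        exact ⟨congrFun h 0, congrFun h 1⟩
      · rintro ⟨h, h'⟩
        funext i
        fin_cases i
        · exact h
        · exact h'
    simp only [h5]
    by_cases ha : ((m : ℤ) : ZMod M) = a <;> by_cases hb : ((n : ℤ) : ZMod M) = b <;>
      simp [ha, hb]
  have h6 : ∀ m : ℤ, ∑' n : ℤ, ((fun x : Fin 2 → ℤ => rcls M ![a, b] x * eisSummand k x z) ∘
      (finTwoArrowEquiv ℤ).symm) (m, n) =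
      if ((m : ℤ) : ZMod M) = a then inner' M k b m z else 0 := by
    intro m
    simp only [h4]
    split_ifs with ha
    · rfl
    · exact tsum_zero
  constructor
  · have := h2.prod
    simpa only [h6] using this
  · change ∑' x : Fin 2 → ℤ, rcls M ![a, b] x * eisSummand k x z = _
    rw [← h3]
    exact (h2.tsum_prod).trans (tsum_congr h6)

theorem G_expansion {k : ℕ} (hk : 3 ≤ k) (a b : ZMod M) :
    HasQExp M (fun z => (M : ℂ) ^ k * (lipC k)⁻¹ * G M k ![a, b] z)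
      (Pser M ℂ (zetaM M) (cst M k b) k a b) := by
  intro z
  have hM : (M : ℂ) ^ k ≠ 0 := pow_ne_zero _ (by exact_mod_cast NeZero.ne M)
  have hC := lipC_ne_zero k
  obtain ⟨h1, h2⟩ := G_eq_tsum M hk a b z
  have h3 := hasSum_Pser M (k := k) (cst M k b) a b z
  suffices hsuff : (M : ℂ) ^ k * (lipC k)⁻¹ * G M k ![a, b] z = (if a = 0 then cst M k b else 0) +
      ∑' x : ℕ+ × ℕ+, dterm M ℂ (zetaM M) k a b (x.1, x.2) *
        qParam M z ^ ((x.1 : ℕ) * (x.2 : ℕ)) by
    rw [← hsuff] at h3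
    exact h3
  rw [h2, tsum_int_eq_zero_add_tsum_pnat h1]
  have h4 : ∀ m : ℕ+, (M : ℂ) ^ k * (lipC k)⁻¹ *
      ((if (((m : ℕ) : ℤ) : ZMod M) = a then inner' M k b ((m : ℕ) : ℤ) z else 0) +
      (if ((-((m : ℕ) : ℤ) : ℤ) : ZMod M) = a then inner' M k b (-((m : ℕ) : ℤ)) z else 0)) =
      ∑' j : ℕ+, dterm M ℂ (zetaM M) k a b (m, j) * qParam M z ^ ((m : ℕ) * (j : ℕ)) := by
    intro m
    rw [inner'_neg, inner'_pos M (by omega) b m m.pos, inner'_pos M (by omega) (-b) m m.pos]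
    have hs : ∀ b' : ZMod M, Summable fun j : ℕ+ => ((j : ℕ) : ℂ) ^ (k - 1) *
        (zetaM M ^ (b'.val * (j : ℕ)) * qParam M z ^ ((m : ℕ) * (j : ℕ))) := by
      intro b'
      have h := (summable_prod_mul_pow (k - 1) (norm_qParam_lt M z)).norm
      have h' := h.comp_injective (i := fun j : ℕ+ => ((m, j) : ℕ+ × ℕ+))
        (fun _ _ hh => (Prod.mk.inj hh).2)
      refine Summable.of_norm_bounded h' fun j => ?_
      simp [norm_pow, norm_zetaM]
    have hneg : (((-((m : ℕ) : ℤ) : ℤ) : ZMod M) = a) ↔ (((m : ℕ) : ZMod M) = -a) := by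
      push_cast
      constructor
      · intro h; rw [← h, neg_neg]
      · intro h; rw [h, neg_neg]
    obtain ⟨u, hu⟩ : ∃ u : ℂ, ∀ X : ℂ, (if ((m : ℕ) : ZMod M) = a then X else 0) = u * X := by
      by_cases h : ((m : ℕ) : ZMod M) = a
      · exact ⟨1, fun X => by rw [if_pos h, one_mul]⟩
      · exact ⟨0, fun X => by rw [if_neg h, zero_mul]⟩
    obtain ⟨v, hv⟩ : ∃ v : ℂ, ∀ X : ℂ, (if ((m : ℕ) : ZMod M) = -a then X else 0) = v * X := by
      by_cases h : ((m : ℕ) : ZMod M) = -a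
      · exact ⟨1, fun X => by rw [if_pos h, one_mul]⟩
      · exact ⟨0, fun X => by rw [if_neg h, zero_mul]⟩
    simp only [hneg, Int.cast_natCast, dterm, hu, hv]
    have e2 : ∀ S S' : ℂ, (M : ℂ) ^ k * (lipC k)⁻¹ * (u * (((M : ℂ) ^ k)⁻¹ * lipC k * S) +
        v * ((-1) ^ k * (((M : ℂ) ^ k)⁻¹ * lipC k * S'))) = u * S + (v * (-1) ^ k) * S' := by
      intro S S'
      field_simp
    rw [e2, ← tsum_mul_left, ← tsum_mul_left, ← ((hs b).mul_left _).tsum_add ((hs (-b)).mul_left _)]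
    refine tsum_congr fun j => ?_
    ring
  have hs1 : Summable fun m : ℕ+ =>
      (if (((m : ℕ) : ℤ) : ZMod M) = a then inner' M k b ((m : ℕ) : ℤ) z else 0) :=
    h1.comp_injective (i := fun m : ℕ+ => ((m : ℕ) : ℤ))
      (fun x y hh => PNat.coe_injective (by
        have h' : ((x : ℕ) : ℤ) = ((y : ℕ) : ℤ) := hh
        exact_mod_cast h'))
  have hs2 : Summable fun m : ℕ+ =>
      (if ((-((m : ℕ) : ℤ) : ℤ) : ZMod M) = a then inner' M k b (-((m : ℕ) : ℤ)) z else 0) :=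
    h1.comp_injective (i := fun m : ℕ+ => (-((m : ℕ) : ℤ)))
      (fun x y hh => PNat.coe_injective (by
        have h' : ((x : ℕ) : ℤ) = ((y : ℕ) : ℤ) := neg_injective hh
        exact_mod_cast h'))
  rw [add_assoc, ← hs1.tsum_add hs2, mul_add, ← tsum_mul_left]
  congr 1
  · simp only [Int.cast_zero, inner'_zero M k b z, cst]
    by_cases ha : a = 0
    · simp [ha]
    · rw [if_neg (fun h => ha h.symm), if_neg ha, mul_zero]
  · rw [(summable_dterm M (k := k) a b z).tsum_prod]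
    exact tsum_congr h4

end

end Fermat.Agent.WOne
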