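import Mathlib

set_option autoImplicit false

/-!
# Rankin bound, step 2: the local factors and the Euler product
-/

namespace Fermat.Agent.WOne

section Local

/-- `d k = ∑_{j, 2j ≤ k} ‖b (k - 2j)‖²`. -/
noncomputable def dSeq (b : ℕ → ℂ) : ℕ → ℝ
  | 0 => ‖b 0‖ ^ 2
  | 1 => ‖b 1‖ ^ 2
  | (k + 2) => ‖b (k + 2)‖ ^ 2 + dSeq b k

variable {a e : ℂ} {b : ℕ → ℂ}

lemma dSeq_nonneg (b : ℕ → ℂ) : ∀ k, 0 ≤ dSeq b k
  | 0 => by simp [dSeq]
  | 1 => by simp [dSeq]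
  | (k + 2) => by
    have := dSeq_nonneg b k
    simp only [dSeq]
    positivity

lemma norm_add_sq_le_weighted (u v : ℂ) (t : ℝ) (ht : 0 < t) :
    ‖u + v‖ ^ 2 ≤ (1 + t) * ‖u‖ ^ 2 + (1 + t⁻¹) * ‖v‖ ^ 2 := by
  have h1 : ‖u + v‖ ^ 2 ≤ (‖u‖ + ‖v‖) ^ 2 := pow_le_pow_left₀ (norm_nonneg _) (norm_add_le u v) 2
  have h2 : 0 ≤ t⁻¹ * (t * ‖u‖ - ‖v‖) ^ 2 := by positivity
  have h3 : t⁻¹ * (t * ‖u‖ - ‖v‖) ^ 2 = t * ‖u‖ ^ 2 + t⁻¹ * ‖v‖ ^ 2 - 2 * ‖u‖ * ‖v‖ := by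
    field_simp
    ring
  nlinarith

variable (he : ‖e‖ = 1) (h0 : b 0 = 1) (h1 : b 1 = a)
  (hb : ∀ k, b (k + 2) + e * b k = a * b (k + 1))

include he hb in
lemma c1_mul_le (k : ℕ) (t : ℝ) (ht : 0 < t) : ‖a‖ ^ 2 * ‖b (k + 1)‖ ^ 2 ≤
    (1 + t) * ‖b (k + 2)‖ ^ 2 + (1 + t⁻¹) * ‖b k‖ ^ 2 := by
  have h := norm_add_sq_le_weighted (b (k + 2)) (e * b k) t ht
  rw [hb k, norm_mul, norm_mul, he, one_mul, mul_pow] at h
  exact h

include he h0 h1 hb in
lemma c1_mul_dSeq_le : ∀ k, ‖a‖ ^ 2 * dSeq b (k + 1) ≤ 2 * dSeq b (k + 2) + 2 * dSeq b k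
  | 0 => by
    have := c1_mul_le (b := b) he hb 0 1 one_pos
    simp only [dSeq]
    norm_num at this ⊢
    nlinarith [sq_nonneg ‖b 0‖]
  | 1 => by
    have := c1_mul_le (b := b) he hb 1 1 one_pos
    simp only [dSeq]
    rw [h0, h1] at *
    norm_num at this ⊢
    nlinarith [sq_nonneg ‖a‖]
  | (k + 2) => by
    have ih := c1_mul_dSeq_le k
    have := c1_mul_le (b := b) he hb (k + 2) 1 one_pos
    have e1 : dSeq b (k + 3) = ‖b (k + 3)‖ ^ 2 + dSeq b (k + 1) := rfl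
    have e2 : dSeq b (k + 4) = ‖b (k + 4)‖ ^ 2 + dSeq b (k + 2) := rfl
    have e3 : dSeq b (k + 2) = ‖b (k + 2)‖ ^ 2 + dSeq b k := rfl
    show ‖a‖ ^ 2 * dSeq b (k + 3) ≤ 2 * dSeq b (k + 4) + 2 * dSeq b (k + 2)
    rw [e1, e2]
    norm_num at this
    nlinarith

include he h0 h1 hb in
lemma c1_mul_dSeq_le' : ∀ k : ℕ, ‖a‖ ^ 2 * dSeq b k ≤ (k + 1 : ℕ) * dSeq b (k + 1)
  | 0 => by simp [dSeq, h0, h1]
  | 1 => by
    have := c1_mul_le (b := b) he hb 0 1 one_pos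
    simp only [dSeq]
    norm_num at this ⊢
    nlinarith
  | 2 => by
    have := c1_mul_le (b := b) he hb 1 2 two_pos
    simp only [dSeq]
    rw [h0, h1] at *
    norm_num at this ⊢
    nlinarith [sq_nonneg ‖a‖]
  | (k + 3) => by
    have := c1_mul_dSeq_le he h0 h1 hb (k + 2)
    have e2 : dSeq b (k + 4) = ‖b (k + 4)‖ ^ 2 + dSeq b (k + 2) := rfl
    have h4 : dSeq b (k + 2) ≤ dSeq b (k + 4) := by rw [e2]; nlinarith [sq_nonneg ‖b (k + 4)‖]
    have h5 := dSeq_nonneg b (k + 4)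
    show ‖a‖ ^ 2 * dSeq b (k + 3) ≤ ((k + 3 + 1 : ℕ) : ℝ) * dSeq b (k + 4)
    push_cast
    have h6 : 0 ≤ (k : ℝ) * dSeq b (k + 4) := by positivity
    have h7 : ‖a‖ ^ 2 * dSeq b (k + 3) ≤ 2 * dSeq b (k + 4) + 2 * dSeq b (k + 2) := this
    nlinarith

include he h0 h1 hb in
lemma pow_div_factorial_le_dSeq : ∀ k : ℕ, (‖a‖ ^ 2) ^ k / (k.factorial : ℝ) ≤ dSeq b k
  | 0 => by simp [dSeq, h0]
  | (k + 1) => by
    have ih := pow_div_factorial_le_dSeq k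
    have h := c1_mul_dSeq_le' he h0 h1 hb k
    have hk : (0 : ℝ) < ((k + 1 : ℕ) : ℝ) := by positivity
    have hf : (0 : ℝ) < (k.factorial : ℝ) := by positivity
    rw [Nat.factorial_succ, pow_succ', Nat.cast_mul, div_le_iff₀ (by positivity)]
    rw [div_le_iff₀ hf] at ih
    calc ‖a‖ ^ 2 * (‖a‖ ^ 2) ^ k ≤ ‖a‖ ^ 2 * (dSeq b k * k.factorial) := by gcongr
      _ = (‖a‖ ^ 2 * dSeq b k) * k.factorial := by ring
      _ ≤ ((k + 1 : ℕ) * dSeq b (k + 1)) * k.factorial := by gcongr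
      _ = dSeq b (k + 1) * ((k + 1 : ℕ) * k.factorial) := by ring

lemma partial_sum_dSeq (b : ℕ → ℂ) {x : ℝ} (hx : 0 ≤ x) : ∀ K : ℕ,
    ∑ k ∈ Finset.range (K + 2), ‖b k‖ ^ 2 * x ^ k =
      ∑ k ∈ Finset.range (K + 2), dSeq b k * x ^ k -
        x ^ 2 * ∑ k ∈ Finset.range K, dSeq b k * x ^ k
  | 0 => by simp [Finset.sum_range_succ, dSeq]
  | (K + 1) => by
    rw [Finset.sum_range_succ, partial_sum_dSeq b hx K, Finset.sum_range_succ _ (K + 2),
      Finset.sum_range_succ _ K]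
    have e3 : dSeq b (K + 2) = ‖b (K + 2)‖ ^ 2 + dSeq b K := rfl
    rw [e3]
    ring

include he h0 h1 hb in
theorem exp_le_local_factor {x : ℝ} (hx0 : 0 ≤ x) (hx1 : x ≤ 1)
    (hs : Summable fun k => ‖b k‖ ^ 2 * x ^ k) :
    (1 - x ^ 2) * Real.exp (‖a‖ ^ 2 * x) ≤ ∑' k, ‖b k‖ ^ 2 * x ^ k := by
  have hlim : Filter.Tendsto (fun K : ℕ => (1 - x ^ 2) *
      ∑ k ∈ Finset.range (K + 2), (‖a‖ ^ 2 * x) ^ k / (k.factorial : ℝ)) Filter.atTop
      (nhds ((1 - x ^ 2) * Real.exp (‖a‖ ^ 2 * x))) := by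
    refine Filter.Tendsto.const_mul _ ?_
    have h := (NormedSpace.expSeries_div_hasSum_exp (𝔸 := ℝ) (‖a‖ ^ 2 * x)).tendsto_sum_nat
    rw [← Real.exp_eq_exp_ℝ] at h
    exact h.comp (Filter.tendsto_add_atTop_nat 2)
  refine le_of_tendsto hlim (Filter.Eventually.of_forall fun K => ?_)
  have hd : ∀ K, 0 ≤ ∑ k ∈ Finset.range K, dSeq b k * x ^ k := fun K =>
    Finset.sum_nonneg fun k _ => mul_nonneg (dSeq_nonneg b k) (by positivity)
  have hx2 : 0 ≤ 1 - x ^ 2 := by nlinarith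
  calc (1 - x ^ 2) * ∑ k ∈ Finset.range (K + 2), (‖a‖ ^ 2 * x) ^ k / (k.factorial : ℝ)
      ≤ (1 - x ^ 2) * ∑ k ∈ Finset.range (K + 2), dSeq b k * x ^ k := by
        refine mul_le_mul_of_nonneg_left (Finset.sum_le_sum fun k _ => ?_) hx2
        rw [mul_pow, mul_div_right_comm]
        exact mul_le_mul_of_nonneg_right (pow_div_factorial_le_dSeq he h0 h1 hb k) (by positivity)
    _ ≤ ∑ k ∈ Finset.range (K + 2), ‖b k‖ ^ 2 * x ^ k := by
        rw [partial_sum_dSeq b hx0 K]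
        have hmono : ∑ k ∈ Finset.range K, dSeq b k * x ^ k ≤
            ∑ k ∈ Finset.range (K + 2), dSeq b k * x ^ k :=
          Finset.sum_le_sum_of_subset_of_nonneg (Finset.range_mono (by lia))
            fun k _ _ => mul_nonneg (dSeq_nonneg b k) (by positivity)
        nlinarith [mul_le_mul_of_nonneg_left hmono (sq_nonneg x)]
    _ ≤ ∑' k, ‖b k‖ ^ 2 * x ^ k := hs.sum_le_tsum _ fun k _ => by positivity

include he h0 h1 hb in
theorem le_log_local_factor {x : ℝ} (hx0 : 0 ≤ x) (hx1 : x ^ 2 ≤ 1 / 2)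
    (hs : Summable fun k => ‖b k‖ ^ 2 * x ^ k) :
    ‖a‖ ^ 2 * x - 2 * x ^ 2 ≤ Real.log (∑' k, ‖b k‖ ^ 2 * x ^ k) := by
  have hx1' : x ≤ 1 := by nlinarith
  have h := exp_le_local_factor he h0 h1 hb hx0 hx1' hs
  have hpos : 0 < 1 - x ^ 2 := by linarith
  have h2 := Real.log_le_log (by positivity) h
  rw [Real.log_mul hpos.ne' (Real.exp_pos _).ne', Real.log_exp] at h2
  have h3 := Real.one_sub_inv_le_log_of_pos hpos
  have h4 : (1 - x ^ 2)⁻¹ ≤ 1 + 2 * x ^ 2 := by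
    rw [inv_le_iff_one_le_mul₀ hpos]
    nlinarith [sq_nonneg x]
  linarith

end Local

section Global

variable {N : ℕ} {a ε : ℕ → ℂ}

lemma mul_pow_of_hecke (ha1 : a 1 = 1) {p : ℕ} (hp : p.Prime)
    (hT : ∀ n : ℕ, a (p * n) + ε p * (if p ∣ n then a (n / p) else 0) = a p * a n)
    {n : ℕ} (hn : ¬ p ∣ n) : ∀ k, a (p ^ k * n) = a (p ^ k) * a n
  | 0 => by simp [ha1]
  | 1 => by
    have := hT n
    rw [if_neg hn, mul_zero, add_zero] at this
    rw [pow_one, this]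
  | (k + 2) => by
    have ih1 := mul_pow_of_hecke ha1 hp hT hn k
    have ih2 := mul_pow_of_hecke ha1 hp hT hn (k + 1)
    have h1 := hT (p ^ (k + 1) * n)
    have h2 := hT (p ^ (k + 1))
    rw [if_pos (Dvd.dvd.mul_right (dvd_pow_self p (by lia)) n)] at h1
    rw [if_pos (dvd_pow_self p (by lia))] at h2
    have e1 : p * (p ^ (k + 1) * n) = p ^ (k + 2) * n := by ring
    have e2 : p ^ (k + 1) * n / p = p ^ k * n := by
      rw [pow_succ', mul_assoc, Nat.mul_div_cancel_left _ hp.pos]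
    have e3 : p * p ^ (k + 1) = p ^ (k + 2) := by ring
    have e4 : p ^ (k + 1) / p = p ^ k := by
      rw [pow_succ', Nat.mul_div_cancel_left _ hp.pos]
    rw [e1, e2, ih1, ih2] at h1
    rw [e3, e4] at h2
    linear_combination h1 - a n * h2

variable (ha1 : a 1 = 1)
  (hT : ∀ p : ℕ, p.Prime → ¬ p ∣ N → ∀ n : ℕ,
    a (p * n) + ε p * (if p ∣ n then a (n / p) else 0) = a p * a n)

include ha1 hT in
lemma mul_of_coprime_of_hecke : ∀ (m : ℕ) (n : ℕ), m.Coprime N → m.Coprime n →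
    a (m * n) = a m * a n := by
  intro m
  induction m using Nat.recOnPosPrimePosCoprime with
  | zero =>
    intro n _ hn
    rw [Nat.coprime_zero_left] at hn
    rw [hn, ha1]
    simp
  | one => intro n _ _; simp [ha1]
  | prime_pow p k hp hk =>
    intro n hN hn
    have hpN : ¬ p ∣ N := by
      rw [Nat.coprime_pow_left_iff hk] at hN
      exact (Nat.Prime.coprime_iff_not_dvd hp).mp hN
    have hpn : ¬ p ∣ n := by
      rw [Nat.coprime_pow_left_iff hk] at hn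
      exact (Nat.Prime.coprime_iff_not_dvd hp).mp hn
    exact mul_pow_of_hecke ha1 hp (hT p hp hpN) hpn k
  | coprime u v hu hv huv ihu ihv =>
    intro n hN hn
    have h1 : u.Coprime N := Nat.Coprime.coprime_mul_right hN
    have h2 : v.Coprime N := Nat.Coprime.coprime_mul_left hN
    have h3 : u.Coprime n := Nat.Coprime.coprime_mul_right hn
    have h4 : v.Coprime n := Nat.Coprime.coprime_mul_left hn
    rw [mul_assoc, ihu (v * n) h1 (Nat.Coprime.mul_right huv h3), ihv n h2 h4, ihu v h1 huv]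
    ring

lemma sum_dyadic_le {c : ℕ → ℝ} (hc : ∀ n, 0 ≤ c n) {C : ℝ} (hC0 : 0 ≤ C)
    (hC : ∀ X : ℕ, 0 < X → ∑ n ∈ Finset.range (X + 1), c n ≤ C * X) {s : ℝ} (hs : 1 < s)
    (hs2 : s ≤ 2) : ∀ M : ℕ, ∑ n ∈ Finset.range (2 ^ M), c n * (n : ℝ) ^ (-s) ≤
      ∑ j ∈ Finset.range M, 2 * C * ((2 : ℝ) ^ (1 - s)) ^ j
  | 0 => by
    simp [Real.zero_rpow (by linarith : -s ≠ 0)]
  | (M + 1) => by
    have ih := sum_dyadic_le hc hC0 hC hs hs2 M
    rw [Finset.sum_range_succ, ← Finset.sum_range_add_sum_Ico _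
      (Nat.pow_le_pow_right two_pos (Nat.le_succ M))]
    refine add_le_add ih ?_
    have h1 : ∑ n ∈ Finset.Ico (2 ^ M) (2 ^ M.succ), c n * (n : ℝ) ^ (-s) ≤
        ∑ n ∈ Finset.Ico (2 ^ M) (2 ^ M.succ), c n * ((2 : ℝ) ^ M) ^ (-s) := by
      refine Finset.sum_le_sum fun n hn => mul_le_mul_of_nonneg_left ?_ (hc n)
      have hn' : (2 : ℝ) ^ M ≤ n := by exact_mod_cast (Finset.mem_Ico.mp hn).1
      exact Real.rpow_le_rpow_of_nonpos (by positivity) hn' (by linarith)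
    have h2 : ∑ n ∈ Finset.Ico (2 ^ M) (2 ^ M.succ), c n ≤ C * (2 : ℝ) ^ (M + 1) := by
      calc ∑ n ∈ Finset.Ico (2 ^ M) (2 ^ M.succ), c n
          ≤ ∑ n ∈ Finset.range (2 ^ (M + 1) + 1), c n := by
            refine Finset.sum_le_sum_of_subset_of_nonneg ?_ fun n _ _ => hc n
            intro n hn
            rw [Finset.mem_Ico] at hn
            rw [Finset.mem_range]
            exact Nat.lt_succ_of_lt hn.2
        _ ≤ C * ((2 ^ (M + 1) : ℕ) : ℝ) := hC _ (by positivity)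
        _ = C * (2 : ℝ) ^ (M + 1) := by push_cast; rfl
    rw [← Finset.sum_mul] at h1
    refine h1.trans ?_
    calc (∑ n ∈ Finset.Ico (2 ^ M) (2 ^ M.succ), c n) * ((2 : ℝ) ^ M) ^ (-s)
        ≤ (C * (2 : ℝ) ^ (M + 1)) * ((2 : ℝ) ^ M) ^ (-s) := by gcongr
      _ = 2 * C * ((2 : ℝ) ^ (1 - s)) ^ M := by
        rw [← Real.rpow_natCast (2 : ℝ) M, ← Real.rpow_mul (by norm_num),
          ← Real.rpow_natCast ((2 : ℝ) ^ (1 - s)), ← Real.rpow_mul (by norm_num),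
          pow_succ, ← Real.rpow_natCast (2 : ℝ) M]
        have : (2 : ℝ) ^ ((1 - s) * M) = (2 : ℝ) ^ (M : ℝ) * (2 : ℝ) ^ ((M : ℝ) * (-s)) := by
          rw [← Real.rpow_add (by norm_num)]
          congr 1
          ring
        rw [this]
        ring

lemma sum_range_le {c : ℕ → ℝ} (hc : ∀ n, 0 ≤ c n) {C : ℝ} (hC0 : 0 ≤ C)
    (hC : ∀ X : ℕ, 0 < X → ∑ n ∈ Finset.range (X + 1), c n ≤ C * X) {s : ℝ} (hs : 1 < s)
    (hs2 : s ≤ 2) (M : ℕ) : ∑ n ∈ Finset.range M, c n * (n : ℝ) ^ (-s) ≤ 4 * C / (s - 1) := by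
  have h1 : ∑ n ∈ Finset.range M, c n * (n : ℝ) ^ (-s) ≤
      ∑ n ∈ Finset.range (2 ^ M), c n * (n : ℝ) ^ (-s) :=
    Finset.sum_le_sum_of_subset_of_nonneg
      (Finset.range_mono (Nat.lt_two_pow_self).le)
      fun n _ _ => mul_nonneg (hc n) (by positivity)
  refine h1.trans ((sum_dyadic_le hc hC0 hC hs hs2 M).trans ?_)
  have hr0 : 0 ≤ (2 : ℝ) ^ (1 - s) := by positivity
  have hr1 : (2 : ℝ) ^ (1 - s) ≤ 1 - (s - 1) / 2 := by
    have := rpow_one_add_le_one_add_mul_self (s := -1/2) (by norm_num) (p := s - 1)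
      (by linarith) (by linarith)
    have e : (2 : ℝ) ^ (1 - s) = (1 + -1 / 2) ^ (s - 1) := by
      rw [show (1 : ℝ) + -1 / 2 = 2⁻¹ by norm_num, Real.inv_rpow (by norm_num),
        ← Real.rpow_neg (by norm_num)]
      congr 1
      ring
    rw [e]
    linarith
  have hr2 : (2 : ℝ) ^ (1 - s) < 1 := by linarith
  rw [← Finset.mul_sum]
  have h3 : ∑ j ∈ Finset.range M, ((2 : ℝ) ^ (1 - s)) ^ j ≤ (1 - (2 : ℝ) ^ (1 - s))⁻¹ := by
    rw [← tsum_geometric_of_lt_one hr0 hr2]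
    exact (summable_geometric_of_lt_one hr0 hr2).sum_le_tsum _ fun j _ => by positivity
  calc 2 * C * ∑ j ∈ Finset.range M, ((2 : ℝ) ^ (1 - s)) ^ j
      ≤ 2 * C * (1 - (2 : ℝ) ^ (1 - s))⁻¹ := by gcongr
    _ ≤ 2 * C * ((s - 1) / 2)⁻¹ := by
      gcongr
      linarith
    _ = 4 * C / (s - 1) := by field_simp; ring

lemma prod_le_of_hasProd {ι : Type*} {F : ι → ℝ} {A : ℝ} (hF : HasProd F A)
    (h1 : ∀ i, 1 ≤ F i) (T : Finset ι) : ∏ i ∈ T, F i ≤ A := by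
  classical
  refine ge_of_tendsto hF ?_
  refine (Filter.eventually_ge_atTop T).mono fun S hS => ?_
  rw [← Finset.prod_sdiff hS]
  have hT : 0 ≤ ∏ i ∈ T, F i := Finset.prod_nonneg fun i _ => zero_le_one.trans (h1 i)
  have hD : 1 ≤ ∏ i ∈ S \ T, F i := by
    have := Finset.prod_le_prod (s := S \ T) (f := fun _ => (1 : ℝ)) (g := F)
      (fun _ _ => zero_le_one) (fun i _ => h1 i)
    simpa using this
  nlinarith

include ha1 hT in
theorem rankin_abstract (hε : ∀ p : ℕ, p.Prime → ¬ p ∣ N → ‖ε p‖ = 1) {C : ℝ} (hC0 : 0 < C)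
    (hC : ∀ X : ℕ, 0 < X → ∑ n ∈ Finset.range (X + 1), ‖a n‖ ^ 2 ≤ C * X) :
    ∃ C' : ℝ, ∀ s : ℝ, 1 < s → s ≤ 2 →
      (Summable fun p : Nat.Primes =>
        if (p : ℕ) ∣ N then (0 : ℝ) else ‖a p‖ ^ 2 * ((p : ℕ) : ℝ) ^ (-s)) ∧
      (∑' p : Nat.Primes, if (p : ℕ) ∣ N then (0 : ℝ) else ‖a p‖ ^ 2 * ((p : ℕ) : ℝ) ^ (-s)) ≤
        Real.log (1 / (s - 1)) + C' := by
  classical
  have hz2 : Summable fun p : Nat.Primes => 2 * ((p : ℕ) : ℝ) ^ (-(2 : ℝ)) :=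
    ((Nat.Primes.summable_rpow (r := -2)).mpr (by norm_num)).mul_left 2
  refine ⟨Real.log (4 * C) + ∑' p : Nat.Primes, 2 * ((p : ℕ) : ℝ) ^ (-(2 : ℝ)), fun s hs hs2 => ?_⟩
  have hs1 : 0 < s - 1 := by linarith
  -- the global series
  set g : ℕ → ℝ := fun n => if n.Coprime N then ‖a n‖ ^ 2 * (n : ℝ) ^ (-s) else 0 with hg
  have hg0 : g 0 = 0 := by
    simp only [hg]
    split_ifs
    · simp [Real.zero_rpow (by linarith : -s ≠ 0)]
    · rfl
  have hgnn : ∀ n, 0 ≤ g n := by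
    intro n
    simp only [hg]
    split_ifs
    · positivity
    · exact le_rfl
  have hg1 : g 1 = 1 := by simp [hg, ha1]
  have hgmul : ∀ {m n : ℕ}, m.Coprime n → g (m * n) = g m * g n := by
    intro m n hmn
    simp only [hg]
    by_cases hm : m.Coprime N
    · by_cases hn : n.Coprime N
      · rw [if_pos (Nat.Coprime.mul_left hm hn), if_pos hm, if_pos hn,
          mul_of_coprime_of_hecke ha1 hT m n hm hmn, norm_mul, Nat.cast_mul,
          Real.mul_rpow (by positivity) (by positivity)]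
        ring
      · rw [if_neg hn, if_neg, mul_zero]
        exact fun h => hn (Nat.Coprime.coprime_mul_left h)
    · rw [if_neg hm, if_neg, zero_mul]
      exact fun h => hm (Nat.Coprime.coprime_mul_right h)
  have hgle : ∀ M, ∑ n ∈ Finset.range M, g n ≤ 4 * C / (s - 1) := by
    intro M
    refine le_trans (Finset.sum_le_sum fun n _ => ?_)
      (sum_range_le (c := fun n => ‖a n‖ ^ 2) (fun n => by positivity) hC0.le hC hs hs2 M)
    simp only [hg]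
    split_ifs
    · exact le_rfl
    · positivity
  have hgs : Summable g := summable_of_sum_range_le hgnn hgle
  have hgt : ∑' n, g n ≤ 4 * C / (s - 1) := Real.tsum_le_of_sum_range_le hgnn hgle
  have hgpow : ∀ p : Nat.Primes, Summable fun k : ℕ => g ((p : ℕ) ^ k) := fun p =>
    hgs.comp_injective (Nat.pow_right_injective p.2.two_le)
  have hprod := EulerProduct.eulerProduct_hasProd hg1 hgmul (by simpa using hgs.norm) hg0
  have hF1 : ∀ p : Nat.Primes, 1 ≤ ∑' k, g ((p : ℕ) ^ k) := by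
    intro p
    have := (hgpow p).sum_le_tsum {0} fun k _ => hgnn _
    simpa [hg1] using this
  have hloc : ∀ p : Nat.Primes, (if (p : ℕ) ∣ N then (0 : ℝ) else ‖a p‖ ^ 2 * ((p : ℕ) : ℝ) ^ (-s)) ≤
      Real.log (∑' k, g ((p : ℕ) ^ k)) + 2 * ((p : ℕ) : ℝ) ^ (-(2 : ℝ)) := by
    intro p
    have hp := p.2
    have hlog : 0 ≤ Real.log (∑' k, g ((p : ℕ) ^ k)) := Real.log_nonneg (hF1 p)
    split_ifs with hpN
    · positivity
    · have hcop : ∀ k, ((p : ℕ) ^ k).Coprime N := fun k =>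
        Nat.Coprime.pow_left k ((Nat.Prime.coprime_iff_not_dvd hp).mpr hpN)
      have hp0 : (0 : ℝ) < (p : ℕ) := by exact_mod_cast hp.pos
      have hgk : ∀ k, g ((p : ℕ) ^ k) =
          ‖a ((p : ℕ) ^ k)‖ ^ 2 * (((p : ℕ) : ℝ) ^ (-s)) ^ k := by
        intro k
        simp only [hg]
        rw [if_pos (hcop k), Nat.cast_pow, ← Real.rpow_natCast ((p : ℕ) : ℝ) k,
          ← Real.rpow_mul hp0.le, ← Real.rpow_natCast (((p : ℕ) : ℝ) ^ (-s)) k,
          ← Real.rpow_mul hp0.le]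
        congr 2
        ring
      have hx0 : 0 ≤ ((p : ℕ) : ℝ) ^ (-s) := by positivity
      have hx2 : (((p : ℕ) : ℝ) ^ (-s)) ^ 2 ≤ ((p : ℕ) : ℝ) ^ (-(2 : ℝ)) := by
        rw [← Real.rpow_natCast, ← Real.rpow_mul hp0.le]
        refine Real.rpow_le_rpow_of_exponent_le (by exact_mod_cast hp.one_le) ?_
        push_cast
        linarith
      have hx1 : (((p : ℕ) : ℝ) ^ (-s)) ^ 2 ≤ 1 / 2 := by
        refine hx2.trans ?_
        have : ((p : ℕ) : ℝ) ^ (-(2 : ℝ)) ≤ (2 : ℝ) ^ (-(2 : ℝ)) :=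
          Real.rpow_le_rpow_of_nonpos (by norm_num) (by exact_mod_cast hp.two_le) (by norm_num)
        refine this.trans ?_
        rw [Real.rpow_neg (by norm_num)]
        norm_num
      have h := le_log_local_factor (a := a p) (e := ε p) (b := fun k => a ((p : ℕ) ^ k))
        (x := ((p : ℕ) : ℝ) ^ (-s)) (hε p hp hpN) (by simp [ha1]) (by simp)
        (fun k => by
          have h2 := hT p hp hpN ((p : ℕ) ^ (k + 1))
          rw [if_pos (dvd_pow_self _ (by lia))] at h2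
          have e3 : (p : ℕ) * (p : ℕ) ^ (k + 1) = (p : ℕ) ^ (k + 2) := by ring
          have e4 : (p : ℕ) ^ (k + 1) / (p : ℕ) = (p : ℕ) ^ k := by
            rw [pow_succ', Nat.mul_div_cancel_left _ hp.pos]
          rwa [e3, e4] at h2) hx0 hx1 (by simpa only [hgk] using hgpow p)
      simp only [hgk]
      linarith
  -- finite partial sums
  have hfin : ∀ T : Finset Nat.Primes,
      ∑ p ∈ T, (if (p : ℕ) ∣ N then (0 : ℝ) else ‖a p‖ ^ 2 * ((p : ℕ) : ℝ) ^ (-s)) ≤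
      Real.log (1 / (s - 1)) +
        (Real.log (4 * C) + ∑' p : Nat.Primes, 2 * ((p : ℕ) : ℝ) ^ (-(2 : ℝ))) := by
    intro T
    have h1 : ∑ p ∈ T, Real.log (∑' k, g ((p : ℕ) ^ k)) ≤
        Real.log (1 / (s - 1)) + Real.log (4 * C) := by
      rw [← Real.log_prod fun p _ => (zero_lt_one.trans_le (hF1 p)).ne',
        ← Real.log_mul (by positivity) (by positivity)]
      refine Real.log_le_log (Finset.prod_pos fun p _ => zero_lt_one.trans_le (hF1 p)) ?_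
      refine (prod_le_of_hasProd hprod hF1 T).trans (hgt.trans (le_of_eq ?_))
      field_simp
    have h2 : ∑ p ∈ T, 2 * ((p : ℕ) : ℝ) ^ (-(2 : ℝ)) ≤
        ∑' p : Nat.Primes, 2 * ((p : ℕ) : ℝ) ^ (-(2 : ℝ)) :=
      hz2.sum_le_tsum _ fun p _ => by positivity
    have h3 := Finset.sum_le_sum (s := T) fun p _ => hloc p
    rw [Finset.sum_add_distrib] at h3
    linarith
  have hnn : ∀ p : Nat.Primes,
      0 ≤ (if (p : ℕ) ∣ N then (0 : ℝ) else ‖a p‖ ^ 2 * ((p : ℕ) : ℝ) ^ (-s)) := by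
    intro p
    split_ifs
    · exact le_rfl
    · positivity
  exact ⟨summable_of_sum_le hnn hfin, Real.tsum_le_of_sum_le hnn hfin⟩

end Global

end Fermat.Agent.WOne
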