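import Mathlib
import Fermat.Prelude.Def_FLTPrelim_Modularity

set_option autoImplicit false

/-!
# Rankin bound, step 1: the mean square of the coefficients of a weight one cusp form
-/

open CongruenceSubgroup UpperHalfPlane MeasureTheory
open scoped MatrixGroups Real
open ModularFormClass (qCoeff)

namespace Fermat.Agent.WOne

section Parseval

variable {N : ℕ} [NeZero N] (f : CuspForm (Gamma1 N) 1)

lemma gamma1_one_mem_strictPeriods (N : ℕ) :
    (1 : ℝ) ∈ ((Gamma1 N : Subgroup SL(2, ℤ)) : Subgroup (GL (Fin 2) ℝ)).strictPeriods := by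
  rw [Subgroup.mem_strictPeriods_iff]
  refine ⟨ModularGroup.T, ?_, ?_⟩
  · simp only [SetLike.mem_coe]
    rw [Gamma1_mem]
    simp [ModularGroup.T]
  · ext i j
    fin_cases i <;> fin_cases j <;> simp [ModularGroup.T, Matrix.GeneralLinearGroup.upperRightHom]

/-- The horocycle slice. -/
noncomputable def slice (y : ℝ) (hy : 0 < y) : ℝ → ℂ :=
  fun x => f ⟨x + y * Complex.I, by simpa using hy⟩

lemma continuous_slice (y : ℝ) (hy : 0 < y) : Continuous (slice f y hy) := by
  have hf : Continuous f := (CuspFormClass.holo f).continuous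
  refine hf.comp ?_
  rw [UpperHalfPlane.isEmbedding_coe.continuous_iff]
  show Continuous fun x : ℝ => ((x : ℂ) + y * Complex.I)
  fun_prop

lemma exists_slice_bound : ∃ C : ℝ, 0 < C ∧ ∀ (y : ℝ) (hy : 0 < y) (x : ℝ),
    ‖slice f y hy x‖ ^ 2 ≤ C / y := by
  obtain ⟨C, hC⟩ := CuspFormClass.exists_bound (k := 1)
    (Γ := ((Gamma1 N : Subgroup SL(2, ℤ)) : Subgroup (GL (Fin 2) ℝ))) f
  refine ⟨C ^ 2 + 1, by positivity, fun y hy x => ?_⟩
  have h := hC ⟨x + y * Complex.I, by simpa using hy⟩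
  have hC0 : 0 ≤ C := by
    have h1 := (norm_nonneg _).trans h
    have h2 : 0 < (UpperHalfPlane.mk (x + y * Complex.I) (by simpa using hy)).im ^
      (((1 : ℤ) : ℝ) / 2) := Real.rpow_pos_of_pos (UpperHalfPlane.im_pos _) _
    by_contra hneg
    exact absurd h1 (not_le.mpr (div_neg_of_neg_of_pos (not_le.mp hneg) h2))
  have him : (UpperHalfPlane.mk (x + y * Complex.I) (by simpa using hy)).im = y := by
    simp [UpperHalfPlane.im]
  rw [him] at h
  have h3 : ‖slice f y hy x‖ ^ 2 ≤ (C / y ^ (((1 : ℤ) : ℝ) / 2)) ^ 2 :=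
    pow_le_pow_left₀ (norm_nonneg _) h 2
  refine h3.trans ?_
  rw [div_pow, ← Real.rpow_natCast (y ^ (((1 : ℤ) : ℝ) / 2)), ← Real.rpow_mul hy.le]
  norm_num
  gcongr
  linarith

lemma fourierCoeffOn_slice (y : ℝ) (hy : 0 < y) (n : ℕ) :
    fourierCoeffOn (zero_lt_one (α := ℝ)) (slice f y hy) n =
      qCoeff f n * Real.exp (-2 * π * n * y) := by
  have h := ModularFormClass.qExpansion_coeff_eq_intervalIntegral (k := 1) f
    (Γ := ((Gamma1 N : Subgroup SL(2, ℤ)) : Subgroup (GL (Fin 2) ℝ)))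
    (h := 1) one_pos (gamma1_one_mem_strictPeriods N) n hy
  rw [fourierCoeffOn_eq_integral]
  rw [qCoeff, h]
  simp only [sub_zero, one_div, inv_one, one_smul, Complex.ofReal_one, one_mul]
  rw [mul_comm, ← intervalIntegral.integral_const_mul]
  refine intervalIntegral.integral_congr fun x _ => ?_
  simp only [slice]
  rw [fourier_coe_apply, smul_eq_mul, ← mul_assoc]
  congr 1
  rw [Function.Periodic.qParam, ← Complex.exp_nat_mul, ← Complex.exp_neg, Complex.ofReal_exp,
    ← Complex.exp_add]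
  congr 1
  push_cast
  have := Complex.I_sq
  linear_combination (2 * π * n * y : ℂ) * this

theorem exists_sum_sq_le : ∃ C : ℝ, 0 < C ∧ ∀ X : ℕ, 0 < X →
    ∑ n ∈ Finset.range (X + 1), ‖qCoeff f n‖ ^ 2 ≤ C * X := by
  obtain ⟨C, hC0, hC⟩ := exists_slice_bound f
  refine ⟨Real.exp (4 * π) * C, by positivity, fun X hX => ?_⟩
  have hX' : (0 : ℝ) < X := by exact_mod_cast hX
  have hy : (0 : ℝ) < 1 / X := by positivity
  have hcont := continuous_slice f (1 / X) hy
  have hL2 : MemLp (slice f (1 / X) hy) 2 (volume.restrict (Set.Ioc (0 : ℝ) 1)) := by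
    refine MemLp.of_bound hcont.aestronglyMeasurable (Real.sqrt (C / (1 / X))) ?_
    filter_upwards with x
    exact Real.le_sqrt_of_sq_le (hC _ hy x)
  have hsum := hasSum_sq_fourierCoeffOn (zero_lt_one (α := ℝ)) hL2
  have hint : (∫ x in (0:ℝ)..1, ‖slice f (1 / X) hy x‖ ^ 2) ≤ C / (1 / X) := by
    have := intervalIntegral.integral_mono_on (a := 0) (b := 1) (μ := volume) zero_le_one
      ((hcont.norm.pow 2).intervalIntegrable 0 1)
      (intervalIntegrable_const (c := C / (1 / X))) (fun x _ => hC _ hy x)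
    simpa using this
  have hpart : ∑ n ∈ Finset.range (X + 1),
      ‖fourierCoeffOn (zero_lt_one (α := ℝ)) (slice f (1 / X) hy) n‖ ^ 2 ≤ C / (1 / X) := by
    have h1 : ∑ n ∈ (Finset.range (X + 1)).map ⟨((↑) : ℕ → ℤ), Nat.cast_injective⟩,
        ‖fourierCoeffOn (zero_lt_one (α := ℝ)) (slice f (1 / X) hy) n‖ ^ 2 ≤
        ((1 : ℝ) - 0)⁻¹ • ∫ x in (0:ℝ)..1, ‖slice f (1 / X) hy x‖ ^ 2 :=
      sum_le_hasSum _ (fun i _ => by positivity) hsum
    rw [Finset.sum_map] at h1
    simp only [Function.Embedding.coeFn_mk, sub_zero, inv_one, one_smul] at h1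
    exact h1.trans hint
  have hterm : ∀ n ∈ Finset.range (X + 1), ‖qCoeff f n‖ ^ 2 ≤ Real.exp (4 * π) *
      ‖fourierCoeffOn (zero_lt_one (α := ℝ)) (slice f (1 / X) hy) n‖ ^ 2 := by
    intro n hn
    rw [fourierCoeffOn_slice, norm_mul, mul_pow, Complex.norm_real, Real.norm_eq_abs,
      abs_of_pos (Real.exp_pos _), ← Real.exp_nat_mul, mul_left_comm, ← Real.exp_add]
    refine le_mul_of_one_le_right (by positivity) (Real.one_le_exp ?_)
    have hn' : (n : ℝ) ≤ X := by exact_mod_cast Nat.lt_succ_iff.mp (Finset.mem_range.mp hn)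
    have h2 : (n : ℝ) * (1 / X) ≤ 1 := by rw [mul_one_div, div_le_one hX']; exact hn'
    push_cast
    nlinarith [Real.pi_pos, mul_le_mul_of_nonneg_left h2 Real.pi_pos.le]
  calc ∑ n ∈ Finset.range (X + 1), ‖qCoeff f n‖ ^ 2
      ≤ ∑ n ∈ Finset.range (X + 1), Real.exp (4 * π) *
      ‖fourierCoeffOn (zero_lt_one (α := ℝ)) (slice f (1 / X) hy) n‖ ^ 2 :=
        Finset.sum_le_sum hterm
    _ = Real.exp (4 * π) * ∑ n ∈ Finset.range (X + 1),
      ‖fourierCoeffOn (zero_lt_one (α := ℝ)) (slice f (1 / X) hy) n‖ ^ 2 := by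
        rw [Finset.mul_sum]
    _ ≤ Real.exp (4 * π) * (C / (1 / X)) := by gcongr
    _ = Real.exp (4 * π) * C * X := by field_simp

end Parseval

end Fermat.Agent.WOne
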