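import Fermat.Agent.WOne.P4Local
import Fermat.Agent.WOne.P4Parseval

set_option autoImplicit false

/-!
# The Rankin bound for a weight one Hecke eigenform
-/

open CongruenceSubgroup
open scoped MatrixGroups
open ModularFormClass (qCoeff)

namespace Fermat.Agent.WOne

theorem rankin_le (N : ℕ) [NeZero N] (ε : DirichletCharacter ℂ N) (f : CuspForm (Gamma1 N) 1)
    (hf₁ : ModularFormClass.qCoeff f 1 = 1)
    (hT : ∀ p : ℕ, p.Prime → ¬ p ∣ N → ∀ n : ℕ,
        ModularFormClass.qCoeff f (p * n) +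
            ε (p : ZMod N) * (if p ∣ n then ModularFormClass.qCoeff f (n / p) else 0) =
          ModularFormClass.qCoeff f p * ModularFormClass.qCoeff f n) :
    ∃ C : ℝ, ∀ s : ℝ, 1 < s → s ≤ 2 →
      (Summable fun p : Nat.Primes =>
        if (p : ℕ) ∣ N then (0 : ℝ) else ‖qCoeff f p‖ ^ 2 * ((p : ℕ) : ℝ) ^ (-s)) ∧
      (∑' p : Nat.Primes,
        if (p : ℕ) ∣ N then (0 : ℝ) else ‖qCoeff f p‖ ^ 2 * ((p : ℕ) : ℝ) ^ (-s)) ≤
        Real.log (1 / (s - 1)) + C := by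
  obtain ⟨C, hC0, hC⟩ := exists_sum_sq_le f
  refine rankin_abstract (N := N) (a := fun n => qCoeff f n) (ε := fun p => ε (p : ZMod N))
    hf₁ hT (fun p hp hpN => ?_) hC0 hC
  have hu : IsUnit (p : ZMod N) :=
    (ZMod.isUnit_iff_coprime p N).mpr ((Nat.Prime.coprime_iff_not_dvd hp).mpr hpN)
  obtain ⟨u, hu⟩ := hu
  rw [← hu]
  exact DirichletCharacter.unit_norm_eq_one ε u

end Fermat.Agent.WOne
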