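import Mathlib

set_option autoImplicit false

/-!
# Arithmetic of the class equation on the projective line
-/

namespace Fermat.Agent.WOne

lemma tri_sorted {n o1 o2 o3 e1 e2 e3 : ℕ} (h1 : o1 * e1 = n) (h2 : o2 * e2 = n)
    (h3 : o3 * e3 = n) (he1 : 2 ≤ e1) (ho3 : 3 ≤ o3)
    (hsum : o1 + o2 + o3 = n + 2) (h12 : e1 ≤ e2) (h23 : e2 ≤ e3) : n ≤ 60 := by
  have m1 : ∀ c, c ≤ e1 → o1 * c ≤ n := fun c hc => h1 ▸ Nat.mul_le_mul_left _ hc
  have m2 : ∀ c, c ≤ e2 → o2 * c ≤ n := fun c hc => h2 ▸ Nat.mul_le_mul_left _ hc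
  have m3 : ∀ c, c ≤ e3 → o3 * c ≤ n := fun c hc => h3 ▸ Nat.mul_le_mul_left _ hc
  have he1' : e1 = 2 := by
    by_contra hne
    have := m1 3 (by lia)
    have := m2 3 (by lia)
    have := m3 3 (by lia)
    lia
  subst he1'
  rcases Nat.lt_or_ge e2 4 with h4 | h4
  · have he2 : e2 = 2 ∨ e2 = 3 := by lia
    rcases he2 with rfl | rfl
    · lia
    · rcases Nat.lt_or_ge e3 6 with h6 | h6
      · interval_cases e3 <;> lia
      · have := m3 6 h6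
        lia
  · have := m2 4 h4
    have := m3 4 (h4.trans h23)
    lia

lemma tri {n o1 o2 o3 e1 e2 e3 : ℕ} (h1 : o1 * e1 = n) (h2 : o2 * e2 = n)
    (h3 : o3 * e3 = n) (he1 : 2 ≤ e1) (he2 : 2 ≤ e2) (he3 : 2 ≤ e3)
    (ho1 : 3 ≤ o1) (ho2 : 3 ≤ o2) (ho3 : 3 ≤ o3)
    (hsum : o1 + o2 + o3 = n + 2) : n ≤ 60 := by
  rcases le_total e1 e2 with h12 | h12 <;> rcases le_total e2 e3 with h23 | h23 <;>
    rcases le_total e1 e3 with h13 | h13
  · exact tri_sorted h1 h2 h3 he1 ho3 hsum h12 h23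
  · exact tri_sorted h1 h2 h3 he1 ho3 hsum h12 h23
  · exact tri_sorted h1 h3 h2 he1 ho2 (by lia) h13 h23
  · exact tri_sorted h3 h1 h2 he3 ho2 (by lia) h13 h12
  · exact tri_sorted h2 h1 h3 he2 ho3 (by lia) h12 h13
  · exact tri_sorted h2 h3 h1 he2 ho1 (by lia) h23 h13
  · exact tri_sorted h3 h2 h1 he3 ho1 (by lia) h23 h12
  · exact tri_sorted h3 h2 h1 he3 ho1 (by lia) h23 h12

theorem class_equation {Ω : Type*} [Fintype Ω] {n : ℕ} (o e : Ω → ℕ)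
    (h : ∀ ω, o ω * e ω = n) (he : ∀ ω, 2 ≤ e ω)
    (hsum : ∑ ω, o ω + 2 * n = Fintype.card Ω * n + 2) : (∃ ω, o ω ≤ 2) ∨ n ≤ 60 := by
  classical
  by_contra hcon
  push Not at hcon
  obtain ⟨ho, hn⟩ := hcon
  have ho2 : ∀ ω, 2 * o ω ≤ n := fun ω => by
    rw [← h ω, mul_comm]
    exact Nat.mul_le_mul_left _ (he ω)
  have hs2 : 2 * ∑ ω, o ω ≤ Fintype.card Ω * n := by
    rw [Finset.mul_sum]
    calc ∑ ω, 2 * o ω ≤ ∑ _ω : Ω, n := Finset.sum_le_sum fun ω _ => ho2 ω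
      _ = Fintype.card Ω * n := by simp
  have hr : Fintype.card Ω < 4 := by
    by_contra hge
    have : 4 * n ≤ Fintype.card Ω * n := Nat.mul_le_mul_right _ (not_lt.mp hge)
    lia
  have hr' : Fintype.card Ω = 0 ∨ Fintype.card Ω = 1 ∨ Fintype.card Ω = 2 ∨
    Fintype.card Ω = 3 := by lia
  have hΩ : ∀ m, Fintype.card Ω = m → ∃ f : Fin m ≃ Ω, True := fun m hm =>
    ⟨(Fintype.equivFinOfCardEq hm).symm, trivial⟩
  rcases hr' with hr | hr | hr | hr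
  · rw [hr] at hsum
    lia
  · obtain ⟨f, -⟩ := hΩ _ hr
    rw [← f.sum_comp, hr] at hsum
    simp only [Fin.sum_univ_succ, Fin.sum_univ_zero] at hsum
    have := ho (f 0)
    lia
  · obtain ⟨f, -⟩ := hΩ _ hr
    rw [← f.sum_comp, hr] at hsum
    simp only [Fin.sum_univ_two] at hsum
    have := ho (f 0)
    lia
  · obtain ⟨f, -⟩ := hΩ _ hr
    rw [← f.sum_comp, hr] at hsum
    simp only [Fin.sum_univ_three] at hsum
    have := tri (h (f 0)) (h (f 1)) (h (f 2)) (he _) (he _) (he _) (ho _) (ho _) (ho _) (by lia)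
    lia

end Fermat.Agent.WOne
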