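import Fermat.Agent.WOne.P6Arith

set_option autoImplicit false

/-!
# Finite groups all of whose noncentral elements fix exactly two points
-/

open MulAction

namespace Fermat.Agent.WOne

theorem exists_stab_or_index_le {G : Type*} [Group G] [Finite G] {X : Type*} [MulAction G X]
    (Z : Subgroup G) [Z.Normal] (hZ : ∀ z ∈ Z, ∀ x : X, z • x = x)
    (h2 : ∀ g ∉ Z, (fixedBy X g).ncard = 2) :
    (∃ x : X, Nat.card G ≤ 2 * Nat.card (stabilizer G x)) ∨ Z.index ≤ 60 := by
  classical
  let Xs : SubMulAction G X :=
    { carrier := {x | ∃ g : G, g ∉ Z ∧ g • x = x}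
      smul_mem' := by
        rintro h x ⟨g, hg, hgx⟩
        refine ⟨h * g * h⁻¹, fun hmem => hg ?_, ?_⟩
        · have := Subgroup.Normal.conj_mem (H := Z) inferInstance _ hmem h⁻¹
          simpa [mul_assoc] using this
        · rw [smul_smul, mul_assoc, inv_mul_cancel, mul_one, mul_smul, hgx] }
  have hXs : ∀ x : X, x ∈ Xs ↔ ∃ g : G, g ∉ Z ∧ g • x = x := fun x => Iff.rfl
  have hfin : (Xs : Set X).Finite := by
    have : (Xs : Set X) ⊆ ⋃ g ∈ {g : G | g ∉ Z}, fixedBy X g := by
      rintro x ⟨g, hg, hgx⟩
      exact Set.mem_biUnion hg hgx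
    refine Set.Finite.subset (Set.Finite.biUnion (Set.toFinite _) fun g hg => ?_) this
    exact Set.finite_of_ncard_ne_zero (by rw [h2 g hg]; norm_num)
  have : Finite Xs := hfin
  have : Fintype G := Fintype.ofFinite G
  have : Fintype Xs := Fintype.ofFinite Xs
  have : Finite (orbitRel.Quotient G Xs) := Quotient.finite _
  have : Fintype (orbitRel.Quotient G Xs) := Fintype.ofFinite _
  have hburn := MulAction.sum_card_fixedBy_eq_card_orbits_mul_card_group G Xs
  have hfix : ∀ g : G, Fintype.card (fixedBy Xs g) = if g ∈ Z then Fintype.card Xs else 2 := by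
    intro g
    split_ifs with hg
    · have : fixedBy Xs g = Set.univ := by
        ext x
        simp only [mem_fixedBy, Set.mem_univ, iff_true]
        exact Subtype.ext (hZ g hg x)
      rw [← Nat.card_eq_fintype_card, Nat.card_coe_set_eq, this, Set.ncard_univ,
        Nat.card_eq_fintype_card]
    · rw [← Nat.card_eq_fintype_card, Nat.card_coe_set_eq, ← h2 g hg]
      refine Set.ncard_congr (fun (x : Xs) _ => (x : X)) (fun x hx => ?_) (fun x y _ _ h => ?_)
        fun x hx => ?_
      · exact congrArg Subtype.val hx
      · exact Subtype.ext h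
      · exact ⟨⟨x, g, hg, hx⟩, Subtype.ext hx, rfl⟩
  have hn : Nat.card Z * Z.index = Fintype.card G := by
    rw [Subgroup.card_mul_index, Nat.card_eq_fintype_card]
  have hZpos : 0 < Nat.card Z := Nat.card_pos
  have hnpos : 0 < Z.index := Nat.pos_of_ne_zero Subgroup.index_ne_zero_of_finite
  have hsum : Nat.card Z * Fintype.card Xs + (Fintype.card G - Nat.card Z) * 2 =
      Fintype.card (orbitRel.Quotient G Xs) * Fintype.card G := by
    have e1 : ∑ g : G, Fintype.card (fixedBy Xs g) =
        Nat.card Z * Fintype.card Xs + (Fintype.card G - Nat.card Z) * 2 := by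
      simp only [hfix]
      rw [Finset.sum_ite, Finset.sum_const, Finset.sum_const, smul_eq_mul, smul_eq_mul]
      have c1 : (Finset.univ.filter fun g : G => g ∈ Z).card = Nat.card Z := by
        rw [Nat.card_eq_fintype_card, Fintype.card_subtype]
      have c2 : (Finset.univ.filter fun g : G => g ∉ Z).card = Fintype.card G - Nat.card Z := by
        rw [← c1]
        have := Finset.card_filter_add_card_filter_not (s := (Finset.univ : Finset G))
          (fun g : G => g ∈ Z)
        rw [Finset.card_univ] at this
        lia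
      rw [c1, c2]
    rw [← e1]
    convert hburn
  have hcardX : Fintype.card Xs = ∑ ω : orbitRel.Quotient G Xs, (orbit G ω.out).ncard := by
    rw [Fintype.card_congr (selfEquivSigmaOrbits G Xs), Fintype.card_sigma]
    refine Finset.sum_congr rfl fun ω _ => ?_
    rw [← Nat.card_coe_set_eq, Nat.card_eq_fintype_card]
  have hstab : ∀ ω : orbitRel.Quotient G Xs,
      Z ≤ stabilizer G (ω.out : Xs) := fun ω z hz => Subtype.ext (hZ z hz _)
  have hclass := class_equation (n := Z.index) (fun ω : orbitRel.Quotient G Xs =>
      (orbit G ω.out).ncard) (fun ω => Z.relIndex (stabilizer G (ω.out : Xs)))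
    (fun ω => by
      rw [← MulAction.index_stabilizer, mul_comm]
      exact Subgroup.relIndex_mul_index (hstab ω))
    (fun ω => by
      have h0 : Z.relIndex (stabilizer G (ω.out : Xs)) ≠ 0 := Subgroup.index_ne_zero_of_finite
      have h1 : Z.relIndex (stabilizer G (ω.out : Xs)) ≠ 1 := by
        intro h1
        rw [Subgroup.relIndex_eq_one] at h1
        obtain ⟨g, hg, hgx⟩ := (ω.out : Xs).2
        exact hg (h1 (Subtype.ext hgx))
      lia)
    (by
      rw [← hcardX]
      have h3 : Nat.card Z * (Fintype.card Xs + 2 * Z.index) =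
          Nat.card Z * (Fintype.card (orbitRel.Quotient G Xs) * Z.index + 2) := by
        have hle : Nat.card Z ≤ Fintype.card G := by
          rw [← hn]
          exact Nat.le_mul_of_pos_right _ hnpos
        have h4 : (Fintype.card G - Nat.card Z) * 2 + 2 * Nat.card Z = 2 * Fintype.card G := by
          lia
        calc Nat.card Z * (Fintype.card Xs + 2 * Z.index)
            = Nat.card Z * Fintype.card Xs + 2 * (Nat.card Z * Z.index) := by ring
          _ = Nat.card Z * Fintype.card Xs +
              ((Fintype.card G - Nat.card Z) * 2 + 2 * Nat.card Z) := by rw [hn, h4]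
          _ = (Nat.card Z * Fintype.card Xs + (Fintype.card G - Nat.card Z) * 2) +
              2 * Nat.card Z := by ring
          _ = Fintype.card (orbitRel.Quotient G Xs) * (Nat.card Z * Z.index) +
              2 * Nat.card Z := by rw [hsum, hn]
          _ = _ := by ring
      exact Nat.eq_of_mul_eq_mul_left hZpos h3)
  rcases hclass with ⟨ω, hω⟩ | h
  · left
    refine ⟨((ω.out : Xs) : X), ?_⟩
    have hs : stabilizer G (((ω.out : Xs) : X)) = stabilizer G (ω.out : Xs) := by
      ext g
      rw [mem_stabilizer_iff, mem_stabilizer_iff]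
      exact ⟨fun h => Subtype.ext h, fun h => congrArg Subtype.val h⟩
    rw [hs, ← Subgroup.card_mul_index (stabilizer G (ω.out : Xs)), MulAction.index_stabilizer,
      mul_comm 2]
    exact Nat.mul_le_mul_left _ hω
  · exact Or.inr h

end Fermat.Agent.WOne
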