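import Fermat.Agent.WOne.P6Wild

set_option autoImplicit false

/-!
# Bounding finite semisimple subgroups of `GL₂` with few characteristic polynomials
(Deligne–Serre, Proposition 7.2)
-/

open Matrix Projectivization MulAction
open scoped LinearAlgebra.Projectivization

universe u

namespace Fermat.Agent.WOne.GL2

variable {k : Type u} [Field k]

lemma upper_pow (n : ℕ) : (!![1, 1; 0, 1] : Matrix (Fin 2) (Fin 2) k) ^ n = !![1, (n : k); 0, 1] := by
  induction n with
  | zero => simp [Matrix.one_fin_two]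
  | succ n ih =>
    rw [pow_succ, ih]
    ext i j
    fin_cases i <;> fin_cases j <;> simp [Matrix.mul_apply, Fin.sum_univ_two] <;> ring

lemma lower_pow (c : k) (n : ℕ) :
    (!![1, 0; c, 1] : Matrix (Fin 2) (Fin 2) k) ^ n = !![1, 0; (n : k) * c, 1] := by
  induction n with
  | zero => simp [Matrix.one_fin_two]
  | succ n ih =>
    rw [pow_succ, ih]
    ext i j
    fin_cases i <;> fin_cases j <;> simp [Matrix.mul_apply, Fin.sum_univ_two] <;> ring

variable {G : Subgroup (GL (Fin 2) k)}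

section Conj

variable (ℓ : ℕ) [Fact ℓ.Prime] [Algebra (ZMod ℓ) k]

/-- Conjugated matrices. -/
noncomputable def cj (Q g : GL (Fin 2) k) : Matrix (Fin 2) (Fin 2) k := Q⁻¹.1 * g.1 * Q.1

omit [Fact ℓ.Prime] [Algebra (ZMod ℓ) k] in
lemma cj_mul (Q g h : GL (Fin 2) k) : cj Q (g * h) = cj Q g * cj Q h := by
  have : Q.1 * Q⁻¹.1 = 1 := by rw [← Units.val_mul, mul_inv_cancel, Units.val_one]
  rw [cj, cj, cj, Units.val_mul]
  calc Q⁻¹.1 * (g.1 * h.1) * Q.1 = Q⁻¹.1 * g.1 * 1 * h.1 * Q.1 := by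
        rw [mul_one]; simp only [mul_assoc]
    _ = _ := by rw [← this]; simp only [mul_assoc]

lemma cj_one (Q : GL (Fin 2) k) : cj Q 1 = 1 := by
  rw [cj, Units.val_one, mul_one, ← Units.val_mul, inv_mul_cancel, Units.val_one]

lemma cj_pow (Q g : GL (Fin 2) k) (n : ℕ) : cj Q (g ^ n) = cj Q g ^ n := by
  induction n with
  | zero => simp [cj_one]
  | succ n ih => rw [pow_succ, cj_mul, ih, pow_succ]

lemma cj_trace (Q g : GL (Fin 2) k) : (cj Q g).trace = g.1.trace :=
  Matrix.trace_units_conj' Q g.1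

lemma cj_det (Q g : GL (Fin 2) k) : (cj Q g).det = g.1.det :=
  Matrix.det_units_conj' Q g.1

lemma cj_inj (Q : GL (Fin 2) k) {g h : GL (Fin 2) k} (H : cj Q g = cj Q h) : g = h := by
  have h1 : Q⁻¹ * g * Q = Q⁻¹ * h * Q := Units.ext H
  exact mul_left_cancel (mul_right_cancel h1)

variable {Q u u' : GL (Fin 2) k} {c₀ : ZMod ℓ}

lemma mem_map_of_trace (hc₀ : c₀ ≠ 0) (htr : ∀ g ∈ G, ∃ t : ZMod ℓ, algebraMap (ZMod ℓ) k t = g.1.trace)
    (hu : u ∈ G) (hu' : u' ∈ G) (hU : cj Q u = !![1, 1; 0, 1])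
    (hU' : cj Q u' = !![1, 0; algebraMap (ZMod ℓ) k c₀, 1]) {g : GL (Fin 2) k} (hg : g ∈ G) :
    ∃ M : Matrix (Fin 2) (Fin 2) (ZMod ℓ), M.map (algebraMap (ZMod ℓ) k) = cj Q g := by
  set F := (algebraMap (ZMod ℓ) k).fieldRange with hF
  set A := cj Q g with hA
  have hcF : algebraMap (ZMod ℓ) k c₀ ∈ F := ⟨c₀, rfl⟩
  have hc0 : algebraMap (ZMod ℓ) k c₀ ≠ 0 := by
    rw [Ne, map_eq_zero]
    exact hc₀
  have tF : ∀ h ∈ G, (cj Q h).trace ∈ F := by
    intro h hh
    rw [cj_trace]
    obtain ⟨t, ht⟩ := htr h hh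
    exact ⟨t, ht⟩
  have t1 := tF g hg
  have t2 := tF (g * u) (mul_mem hg hu)
  have t3 := tF (g * u') (mul_mem hg hu')
  have t4 := tF (g * (u * u')) (mul_mem hg (mul_mem hu hu'))
  rw [cj_mul, hU, ← hA, Matrix.trace_fin_two] at t2
  rw [cj_mul, hU', ← hA, Matrix.trace_fin_two] at t3
  rw [cj_mul, cj_mul, hU, hU', ← hA, Matrix.trace_fin_two] at t4
  rw [← hA, Matrix.trace_fin_two] at t1
  simp only [Matrix.mul_apply, Fin.sum_univ_two, Matrix.of_apply, Matrix.cons_val', Matrix.cons_val_zero,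
    Matrix.cons_val_one, Matrix.cons_val_fin_one, mul_one, mul_zero, add_zero, zero_add] at t2 t3 t4
  have m10 : A 1 0 ∈ F := by
    have := sub_mem t2 t1
    ring_nf at this
    exact this
  have m01 : A 0 1 ∈ F := by
    have h1 := sub_mem t3 t1
    have h2 : A 0 1 = (A 0 0 + A 0 1 * algebraMap (ZMod ℓ) k c₀ + A 1 1 - (A 0 0 + A 1 1)) *
        (algebraMap (ZMod ℓ) k c₀)⁻¹ := by field_simp; ring
    rw [h2]
    exact mul_mem h1 (inv_mem hcF)
  have m00 : A 0 0 ∈ F := by
    have h1 := sub_mem (sub_mem (sub_mem t4 t1) m10) (mul_mem m01 hcF)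
    refine (?_ : A 0 0 = _ * (algebraMap (ZMod ℓ) k c₀)⁻¹) ▸ mul_mem h1 (inv_mem hcF)
    field_simp
    ring
  have m11 : A 1 1 ∈ F := by
    have := sub_mem t1 m00
    ring_nf at this
    exact this
  have hall : ∀ i j, ∃ x : ZMod ℓ, algebraMap (ZMod ℓ) k x = A i j := by
    intro i j
    fin_cases i <;> fin_cases j
    · exact m00
    · exact m01
    · exact m10
    · exact m11
  choose f hf using hall
  refine ⟨Matrix.of f, ?_⟩
  ext i j
  rw [Matrix.map_apply, Matrix.of_apply, hf]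

open Classical in
theorem wild_count [Fintype G] (hc₀ : c₀ ≠ 0)
    (htr : ∀ g ∈ G, ∃ t : ZMod ℓ, algebraMap (ZMod ℓ) k t = g.1.trace)
    (hu : u ∈ G) (hu' : u' ∈ G) (hU : cj Q u = !![1, 1; 0, 1])
    (hU' : cj Q u' = !![1, 0; algebraMap (ZMod ℓ) k c₀, 1]) :
    Fintype.card G ≤ ℓ ^ 4 ∧ ℓ ^ 2 * (ℓ - 1) ≤ Fintype.card G ∧
    ∀ τ δ : k, (Finset.univ.filter fun g : G => (g : GL (Fin 2) k).1.trace = τ ∧
        (g : GL (Fin 2) k).1.det = δ).card ≤ 2 * ℓ ^ 2 := by
  have hinj : Function.Injective (algebraMap (ZMod ℓ) k) := (algebraMap (ZMod ℓ) k).injective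
  have hex : ∀ g : G, ∃ M : Matrix (Fin 2) (Fin 2) (ZMod ℓ),
      M.map (algebraMap (ZMod ℓ) k) = cj Q g := fun g =>
    mem_map_of_trace ℓ hc₀ htr hu hu' hU hU' g.2
  choose φ hφ using hex
  have hφinj : Function.Injective φ := by
    intro g h hgh
    apply Subtype.ext
    apply cj_inj Q
    rw [← hφ, ← hφ, hgh]
  have hcardZ : Fintype.card (ZMod ℓ) = ℓ := ZMod.card ℓ
  refine ⟨?_, ?_, fun τ δ => ?_⟩
  · refine (Fintype.card_le_of_injective φ hφinj).trans (le_of_eq ?_)
    have h1 : Fintype.card (Matrix (Fin 2) (Fin 2) (ZMod ℓ)) =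
        Fintype.card (Fin 2 → Fin 2 → ZMod ℓ) := Fintype.card_congr (Matrix.of.symm)
    rw [h1]
    simp only [Fintype.card_pi, Finset.prod_const, Finset.card_univ, Fintype.card_fin, hcardZ]
    ring
  · let ψ : ZMod ℓ × (ZMod ℓ)ˣ × ZMod ℓ → G := fun p =>
      ⟨u' ^ p.1.val * (u ^ (p.2.1 : ZMod ℓ).val * u' ^ p.2.2.val),
        mul_mem (pow_mem hu' _) (mul_mem (pow_mem hu _) (pow_mem hu' _))⟩
    have hval : ∀ x : ZMod ℓ, ((x.val : ℕ) : k) = algebraMap (ZMod ℓ) k x := by
      intro x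
      rw [← map_natCast (algebraMap (ZMod ℓ) k), ZMod.natCast_zmod_val]
    have hψ : ∀ p, cj Q (ψ p : GL (Fin 2) k) =
        ((!![1, 0; p.1 * c₀, 1] : Matrix (Fin 2) (Fin 2) (ZMod ℓ)) *
          ((!![1, (p.2.1 : ZMod ℓ); 0, 1] : Matrix (Fin 2) (Fin 2) (ZMod ℓ)) *
          (!![1, 0; p.2.2 * c₀, 1] : Matrix (Fin 2) (Fin 2) (ZMod ℓ)))).map
            (algebraMap (ZMod ℓ) k) := by
      intro p
      have e1 : cj Q (ψ p : GL (Fin 2) k) =
          cj Q u' ^ p.1.val * (cj Q u ^ (p.2.1 : ZMod ℓ).val * cj Q u' ^ p.2.2.val) := by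
        show cj Q (u' ^ p.1.val * (u ^ (p.2.1 : ZMod ℓ).val * u' ^ p.2.2.val)) = _
        rw [cj_mul, cj_mul, cj_pow, cj_pow, cj_pow]
      rw [e1, hU, hU', upper_pow, lower_pow, lower_pow, Matrix.map_mul, Matrix.map_mul, hval, hval,
        hval]
      congr 1
      · ext i j
        fin_cases i <;> fin_cases j <;> simp
      · congr 1
        · ext i j
          fin_cases i <;> fin_cases j <;> simp
        · ext i j
          fin_cases i <;> fin_cases j <;> simp
    have hψinj : Function.Injective ψ := by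
      rintro ⟨x, y, z⟩ ⟨x', y', z'⟩ h
      have h1 := hψ (x, y, z)
      rw [h, hψ (x', y', z')] at h1
      have h2 := Matrix.map_injective hinj h1
      have h01 := congrFun (congrFun h2 0) 1
      have h00 := congrFun (congrFun h2 0) 0
      have h11 := congrFun (congrFun h2 1) 1
      simp [Matrix.mul_apply, Fin.sum_univ_two] at h01 h00 h11
      have hy : y' = y := Units.ext h01
      subst hy
      have hz : z' = z := by
        have := mul_left_cancel₀ y'.ne_zero (h00 : (y' : ZMod ℓ) * (z' * c₀) = y' * (z * c₀))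
        exact mul_right_cancel₀ hc₀ this
      have hx : x' = x := by
        have := mul_right_cancel₀ y'.ne_zero (h11 : (x' * c₀) * (y' : ZMod ℓ) = (x * c₀) * y')
        exact mul_right_cancel₀ hc₀ this
      rw [hx, hz]
    have hc := Fintype.card_le_of_injective ψ hψinj
    rw [Fintype.card_prod, Fintype.card_prod, ZMod.card_units, hcardZ] at hc
    refine le_trans (le_of_eq ?_) hc
    ring
  · let f : G → (ZMod ℓ × ZMod ℓ) ⊕ (ZMod ℓ × ZMod ℓ) := fun g =>
      if φ g 0 1 = 0 then Sum.inr (φ g 0 0, φ g 1 0) else Sum.inl (φ g 0 0, φ g 0 1)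
    have hle := Finset.card_le_card_of_injOn (s := Finset.univ.filter fun g : G =>
      (g : GL (Fin 2) k).1.trace = τ ∧ (g : GL (Fin 2) k).1.det = δ)
      (t := (Finset.univ : Finset ((ZMod ℓ × ZMod ℓ) ⊕ (ZMod ℓ × ZMod ℓ)))) f
      (fun _ _ => Finset.mem_univ _) (by
        intro g hg h hh hgh
        simp only [Finset.coe_filter, Finset.mem_univ, true_and, Set.mem_ofPred_eq] at hg hh
        have htr' : (φ g).trace = (φ h).trace := by
          apply hinj
          have e1 := AddMonoidHom.map_trace (algebraMap (ZMod ℓ) k).toAddMonoidHom (φ g)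
          have e2 := AddMonoidHom.map_trace (algebraMap (ZMod ℓ) k).toAddMonoidHom (φ h)
          calc algebraMap (ZMod ℓ) k (φ g).trace = ((φ g).map (algebraMap (ZMod ℓ) k)).trace := e1
            _ = ((φ h).map (algebraMap (ZMod ℓ) k)).trace := by
              rw [hφ, hφ, cj_trace, cj_trace, hg.1, hh.1]
            _ = algebraMap (ZMod ℓ) k (φ h).trace := e2.symm
        have hdet' : (φ g).det = (φ h).det := by
          apply hinj
          rw [RingHom.map_det, RingHom.map_det, RingHom.mapMatrix_apply, RingHom.mapMatrix_apply,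
            hφ, hφ, cj_det, cj_det, hg.2, hh.2]
        rw [Matrix.trace_fin_two, Matrix.trace_fin_two] at htr'
        rw [Matrix.det_fin_two, Matrix.det_fin_two] at hdet'
        have hentry : φ g 0 0 = φ h 0 0 ∧ φ g 0 1 = φ h 0 1 ∧ φ g 1 0 = φ h 1 0 := by
          simp only [f] at hgh
          by_cases h0 : φ g 0 1 = 0 <;> by_cases h1 : φ h 0 1 = 0
          · rw [if_pos h0, if_pos h1, Sum.inr.injEq, Prod.mk.injEq] at hgh
            exact ⟨hgh.1, h0.trans h1.symm, hgh.2⟩
          · rw [if_pos h0, if_neg h1] at hgh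
            exact absurd hgh (by simp)
          · rw [if_neg h0, if_pos h1] at hgh
            exact absurd hgh (by simp)
          · rw [if_neg h0, if_neg h1, Sum.inl.injEq, Prod.mk.injEq] at hgh
            refine ⟨hgh.1, hgh.2, ?_⟩
            have h11 : φ g 1 1 = φ h 1 1 := by
              rw [hgh.1] at htr'
              exact add_left_cancel htr'
            rw [hgh.1, h11, hgh.2] at hdet'
            exact mul_left_cancel₀ h1 (sub_right_injective hdet')
        have h11 : φ g 1 1 = φ h 1 1 := by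
          rw [hentry.1] at htr'
          exact add_left_cancel htr'
        apply hφinj
        ext i j
        fin_cases i <;> fin_cases j
        · exact hentry.1
        · exact hentry.2.1
        · exact hentry.2.2
        · exact h11)
    refine hle.trans (le_of_eq ?_)
    rw [Finset.card_univ, Fintype.card_sum, Fintype.card_prod, hcardZ]
    ring

end Conj

end Fermat.Agent.WOne.GL2
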