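import Mathlib

set_option autoImplicit false

/-!
# Linear algebra of 2 × 2 matrices and their fixed points on the projective line
-/

open Matrix Projectivization
open scoped LinearAlgebra.Projectivization

universe u

namespace Fermat.Agent.WOne.GL2

variable {k : Type u} [Field k]

lemma smul_mk_eq_iff (g : GL (Fin 2) k) {v : Fin 2 → k} (hv : v ≠ 0) :
    g • (mk k v hv : ℙ k (Fin 2 → k)) = mk k v hv ↔ ∃ c : k, g.1 *ᵥ v = c • v := by
  rw [Projectivization.smul_mk, mk_eq_mk_iff']
  constructor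
  · rintro ⟨a, ha⟩
    exact ⟨a, ha.symm⟩
  · rintro ⟨a, ha⟩
    exact ⟨a, ha.symm⟩

/-- An eigenvalue is a root of the characteristic polynomial. -/
lemma eigen_root {M : Matrix (Fin 2) (Fin 2) k} {v : Fin 2 → k} (hv : v ≠ 0) {c : k}
    (h : M *ᵥ v = c • v) : c ^ 2 - M.trace * c + M.det = 0 := by
  have h0 : M 0 0 * v 0 + M 0 1 * v 1 = c * v 0 := by
    have := congrFun h 0
    simpa using this
  have h1 : M 1 0 * v 0 + M 1 1 * v 1 = c * v 1 := by
    have := congrFun h 1
    simpa using this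
  rw [Matrix.trace_fin_two, Matrix.det_fin_two]
  have e0 : (c ^ 2 - (M 0 0 + M 1 1) * c + (M 0 0 * M 1 1 - M 0 1 * M 1 0)) * v 0 = 0 := by
    linear_combination (M 1 1 - c) * h0 - M 0 1 * h1
  have e1 : (c ^ 2 - (M 0 0 + M 1 1) * c + (M 0 0 * M 1 1 - M 0 1 * M 1 0)) * v 1 = 0 := by
    linear_combination (M 0 0 - c) * h1 - M 1 0 * h0
  by_contra hne
  rcases mul_eq_zero.mp e0 with h | h
  · exact hne h
  rcases mul_eq_zero.mp e1 with h' | h'
  · exact hne h'
  exact hv (by ext i; fin_cases i <;> simp [h, h'])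

/-- Two vectors of `k²` with vanishing determinant are proportional. -/
lemma mk_eq_of_det {v w : Fin 2 → k} (hv : v ≠ 0) (hw : w ≠ 0) (h : v 0 * w 1 - v 1 * w 0 = 0) :
    (mk k v hv : ℙ k (Fin 2 → k)) = mk k w hw := by
  rw [mk_eq_mk_iff']
  by_cases h0 : w 0 = 0
  · have h1 : w 1 ≠ 0 := by
      intro h1
      exact hw (by ext i; fin_cases i <;> simp [h0, h1])
    have hv0 : v 0 = 0 := by
      have : v 0 * w 1 = 0 := by linear_combination h + v 1 * h0
      exact (mul_eq_zero.mp this).resolve_right h1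
    refine ⟨v 1 / w 1, ?_⟩
    ext i
    fin_cases i
    · simp [h0, hv0]
    · simp [h1]
  · refine ⟨v 0 / w 0, ?_⟩
    ext i
    fin_cases i
    · simp [h0]
    · simp only [Fin.mk_one, Pi.smul_apply, smul_eq_mul]
      field_simp
      linear_combination h

/-- If a matrix acts by the same scalar on two nonproportional vectors it is scalar. -/
lemma scalar_of_two_eigen {M : Matrix (Fin 2) (Fin 2) k} {v w : Fin 2 → k} {c : k}
    (h : v 0 * w 1 - v 1 * w 0 ≠ 0) (hv : M *ᵥ v = c • v) (hw : M *ᵥ w = c • w) :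
    M = c • (1 : Matrix (Fin 2) (Fin 2) k) := by
  have h0 : M 0 0 * v 0 + M 0 1 * v 1 = c * v 0 := by simpa using congrFun hv 0
  have h1 : M 1 0 * v 0 + M 1 1 * v 1 = c * v 1 := by simpa using congrFun hv 1
  have h2 : M 0 0 * w 0 + M 0 1 * w 1 = c * w 0 := by simpa using congrFun hw 0
  have h3 : M 1 0 * w 0 + M 1 1 * w 1 = c * w 1 := by simpa using congrFun hw 1
  ext i j
  fin_cases i <;> fin_cases j <;> simp
  · refine sub_eq_zero.mp ((mul_eq_zero.mp (?_ : (M 0 0 - c) * _ = 0)).resolve_right h)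
    linear_combination w 1 * h0 - v 1 * h2
  · refine (mul_eq_zero.mp (?_ : (M 0 1) * _ = 0)).resolve_right h
    linear_combination v 0 * h2 - w 0 * h0
  · refine (mul_eq_zero.mp (?_ : (M 1 0) * _ = 0)).resolve_right h
    linear_combination w 1 * h1 - v 1 * h3
  · refine sub_eq_zero.mp ((mul_eq_zero.mp (?_ : (M 1 1 - c) * _ = 0)).resolve_right h)
    linear_combination v 0 * h3 - w 0 * h1

lemma exists_eigenvector {M : Matrix (Fin 2) (Fin 2) k} {c : k}
    (hc : c ^ 2 - M.trace * c + M.det = 0) : ∃ v : Fin 2 → k, v ≠ 0 ∧ M *ᵥ v = c • v := by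
  have hdet : (M - c • (1 : Matrix (Fin 2) (Fin 2) k)).det = 0 := by
    rw [Matrix.det_fin_two]
    rw [Matrix.trace_fin_two, Matrix.det_fin_two] at hc
    simp
    linear_combination hc
  obtain ⟨v, hv, h⟩ := Matrix.exists_mulVec_eq_zero_iff.mpr hdet
  refine ⟨v, hv, ?_⟩
  rw [Matrix.sub_mulVec, Matrix.smul_mulVec, Matrix.one_mulVec, sub_eq_zero] at h
  exact h

lemma exists_root [IsAlgClosed k] (t d : k) : ∃ c : k, c ^ 2 - t * c + d = 0 := by
  have hdeg : (Polynomial.X ^ 2 - Polynomial.C t * Polynomial.X + Polynomial.C d :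
      Polynomial k).degree = 2 := by
    compute_degree!
  obtain ⟨c, hc⟩ := IsAlgClosed.exists_root _ (by rw [hdeg]; norm_num)
  refine ⟨c, ?_⟩
  simpa [Polynomial.IsRoot] using hc

/-- The fixed points of a matrix with distinct eigenvalues. -/
theorem fixedBy_of_disc_ne [IsAlgClosed k] (g : GL (Fin 2) k)
    (h : g.1.trace ^ 2 ≠ 4 * g.1.det) :
    ∃ x y : ℙ k (Fin 2 → k), x ≠ y ∧ MulAction.fixedBy (ℙ k (Fin 2 → k)) g = {x, y} := by
  obtain ⟨α, hα⟩ := exists_root g.1.trace g.1.det
  have hβ : (g.1.trace - α) ^ 2 - g.1.trace * (g.1.trace - α) + g.1.det = 0 := by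
    linear_combination hα
  have hne : α ≠ g.1.trace - α := by
    intro h'
    apply h
    have : g.1.trace = 2 * α := by linear_combination -h'
    rw [this] at hα ⊢
    linear_combination -4 * hα
  obtain ⟨v, hv, hgv⟩ := exists_eigenvector hα
  obtain ⟨w, hw, hgw⟩ := exists_eigenvector hβ
  have hns : ¬ ∃ c : k, g.1 = c • (1 : Matrix (Fin 2) (Fin 2) k) := by
    rintro ⟨c, hc⟩
    apply h
    rw [hc, Matrix.trace_fin_two, Matrix.det_fin_two]
    simp
    ring
  have key : ∀ (u u' : Fin 2 → k) (hu : u ≠ 0) (hu' : u' ≠ 0) (c : k), g.1 *ᵥ u = c • u →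
      g.1 *ᵥ u' = c • u' → (mk k u hu : ℙ k (Fin 2 → k)) = mk k u' hu' := by
    intro u u' hu hu' c h1 h2
    apply mk_eq_of_det
    by_contra hd
    exact hns ⟨c, scalar_of_two_eigen hd h1 h2⟩
  refine ⟨mk k v hv, mk k w hw, ?_, ?_⟩
  · intro heq
    rw [mk_eq_mk_iff'] at heq
    obtain ⟨a, ha⟩ := heq
    have ha0 : a ≠ 0 := by
      rintro rfl
      exact hv (by rw [← ha, zero_smul])
    rw [← ha, Matrix.mulVec_smul, hgw, smul_smul, smul_smul] at hgv
    have hs : (a * (g.1.trace - α) - α * a) • w = 0 := by rw [sub_smul, hgv, sub_self]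
    rcases smul_eq_zero.mp hs with hz | hz
    · apply hne
      have : a * ((g.1.trace - α) - α) = 0 := by linear_combination hz
      rcases mul_eq_zero.mp this with h' | h'
      · exact absurd h' ha0
      · exact (sub_eq_zero.mp h').symm
    · exact hw hz
  · ext x
    induction x using Projectivization.ind with | h u hu =>
    rw [MulAction.mem_fixedBy, smul_mk_eq_iff, Set.mem_insert_iff, Set.mem_singleton_iff]
    constructor
    · rintro ⟨c, hc⟩
      have hr := eigen_root hu hc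
      have : (c - α) * (c - (g.1.trace - α)) = 0 := by linear_combination hr - hα
      rcases mul_eq_zero.mp this with h' | h'
      · rw [sub_eq_zero.mp h'] at hc
        exact Or.inl (key _ _ hu hv _ hc hgv)
      · rw [sub_eq_zero.mp h'] at hc
        exact Or.inr (key _ _ hu hw _ hc hgw)
    · rintro (h' | h')
      · exact (smul_mk_eq_iff g hu).mp (by rw [h']; exact (smul_mk_eq_iff g hv).mpr ⟨_, hgv⟩)
      · exact (smul_mk_eq_iff g hu).mp (by rw [h']; exact (smul_mk_eq_iff g hw).mpr ⟨_, hgw⟩)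

end Fermat.Agent.WOne.GL2
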