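import Fermat.Agent.WOne.P6Burnside
import Fermat.Agent.WOne.P6Lin

set_option autoImplicit false

/-!
# Finite subgroups of `GL₂(k)` without unipotent elements
-/

open Matrix Projectivization MulAction
open scoped LinearAlgebra.Projectivization

universe u

namespace Fermat.Agent.WOne.GL2

variable {k : Type u} [Field k]

/-- The subgroup of scalar elements of `G`. -/
def scal (G : Subgroup (GL (Fin 2) k)) : Subgroup G where
  carrier := {g | ∃ c : k, (g : GL (Fin 2) k).1 = c • (1 : Matrix (Fin 2) (Fin 2) k)}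
  mul_mem' := by
    rintro a b ⟨c, hc⟩ ⟨d, hd⟩
    refine ⟨c * d, ?_⟩
    show (a : GL (Fin 2) k).1 * (b : GL (Fin 2) k).1 = _
    rw [hc, hd, smul_mul_smul_comm, one_mul]
  one_mem' := ⟨1, by simp⟩
  inv_mem' := by
    rintro a ⟨c, hc⟩
    refine ⟨c⁻¹, ?_⟩
    have h1 : (a : GL (Fin 2) k).1 * ((a : GL (Fin 2) k)⁻¹).1 = 1 := by
      rw [← Units.val_mul, mul_inv_cancel, Units.val_one]
    have hc0 : c ≠ 0 := by
      rintro rfl
      rw [hc, zero_smul, zero_mul] at h1
      exact zero_ne_one h1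
    rw [hc, smul_mul_assoc, one_mul] at h1
    show ((a : GL (Fin 2) k)⁻¹).1 = _
    rw [← h1, smul_smul, inv_mul_cancel₀ hc0, one_smul]

instance (G : Subgroup (GL (Fin 2) k)) : (scal G).Normal where
  conj_mem := by
    rintro a ⟨c, hc⟩ g
    refine ⟨c, ?_⟩
    show (g : GL (Fin 2) k).1 * (a : GL (Fin 2) k).1 * ((g : GL (Fin 2) k)⁻¹).1 = _
    rw [hc, mul_smul_comm, mul_one, smul_mul_assoc, ← Units.val_mul, mul_inv_cancel, Units.val_one]

lemma mem_scal {G : Subgroup (GL (Fin 2) k)} {g : G} :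
    g ∈ scal G ↔ ∃ c : k, (g : GL (Fin 2) k).1 = c • (1 : Matrix (Fin 2) (Fin 2) k) := Iff.rfl

lemma scal_smul {G : Subgroup (GL (Fin 2) k)} {g : G} (hg : g ∈ scal G)
    (x : ℙ k (Fin 2 → k)) : g • x = x := by
  obtain ⟨c, hc⟩ := hg
  induction x using Projectivization.ind with | h v hv =>
  show (g : GL (Fin 2) k) • (mk k v hv : ℙ k (Fin 2 → k)) = _
  rw [smul_mk_eq_iff]
  exact ⟨c, by rw [hc, Matrix.smul_mulVec, Matrix.one_mulVec]⟩

lemma quadratic_roots {τ δ x y z : k} (hx : x ^ 2 - τ * x + δ = 0) (hy : y ^ 2 - τ * y + δ = 0)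
    (hz : z ^ 2 - τ * z + δ = 0) (hxy : x ≠ y) (hxz : x ≠ z) : y = z := by
  have h1 : (x - y) * (x + y - τ) = 0 := by linear_combination hx - hy
  have h2 : (x - z) * (x + z - τ) = 0 := by linear_combination hx - hz
  have h3 := (mul_eq_zero.mp h1).resolve_left (sub_ne_zero.mpr hxy)
  have h4 := (mul_eq_zero.mp h2).resolve_left (sub_ne_zero.mpr hxz)
  linear_combination h3 - h4

variable {G : Subgroup (GL (Fin 2) k)}

/-- On the stabiliser of a line, the eigenvalue on the line and the determinant determine the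
element. -/
lemma stab_inj (hA : ∀ g ∈ G, g.1.trace ^ 2 = 4 * g.1.det → ∃ c : k, g.1 = c • (1 : Matrix (Fin 2) (Fin 2) k))
    {v : Fin 2 → k} (hv : v ≠ 0) {a b : G} {c : k} (ha : (a : GL (Fin 2) k).1 *ᵥ v = c • v)
    (hb : (b : GL (Fin 2) k).1 *ᵥ v = c • v)
    (hd : (a : GL (Fin 2) k).1.det = (b : GL (Fin 2) k).1.det) : a = b := by
  have hc0 : c ≠ 0 := by
    rintro rfl
    rw [zero_smul] at ha
    have h0 : ((a : GL (Fin 2) k)⁻¹).1 *ᵥ ((a : GL (Fin 2) k).1 *ᵥ v) = 0 := by
      rw [ha, Matrix.mulVec_zero]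
    rw [Matrix.mulVec_mulVec, ← Units.val_mul, inv_mul_cancel, Units.val_one,
      Matrix.one_mulVec] at h0
    exact hv h0
  have hg : ((b⁻¹ * a : G) : GL (Fin 2) k).1 *ᵥ v = (1 : k) • v := by
    have h1 : ((b : GL (Fin 2) k)⁻¹).1 *ᵥ v = c⁻¹ • v := by
      have h2 : ((b : GL (Fin 2) k)⁻¹).1 *ᵥ ((b : GL (Fin 2) k).1 *ᵥ v) = v := by
        rw [Matrix.mulVec_mulVec, ← Units.val_mul, inv_mul_cancel, Units.val_one,
          Matrix.one_mulVec]
      rw [hb, Matrix.mulVec_smul] at h2
      rw [← h2, smul_smul, inv_mul_cancel₀ hc0, one_smul, h2]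
    show ((b : GL (Fin 2) k)⁻¹ * (a : GL (Fin 2) k)).1 *ᵥ v = _
    rw [Units.val_mul, ← Matrix.mulVec_mulVec, ha, Matrix.mulVec_smul, h1, smul_smul,
      mul_inv_cancel₀ hc0]
  have hdet : ((b⁻¹ * a : G) : GL (Fin 2) k).1.det = 1 := by
    show ((b : GL (Fin 2) k)⁻¹ * (a : GL (Fin 2) k)).1.det = 1
    rw [Units.val_mul, Matrix.det_mul, hd, ← Matrix.det_mul, ← Units.val_mul, inv_mul_cancel,
      Units.val_one, Matrix.det_one]
  have hr := eigen_root hv hg
  rw [hdet] at hr
  have htr : ((b⁻¹ * a : G) : GL (Fin 2) k).1.trace = 2 := by linear_combination -hr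
  obtain ⟨d, hd⟩ := hA _ (b⁻¹ * a : G).2 (by rw [htr, hdet]; norm_num)
  have hd1 : d = 1 := by
    rw [hd, Matrix.smul_mulVec, Matrix.one_mulVec] at hg
    have : (d - 1) • v = 0 := by rw [sub_smul, hg, sub_self]
    exact sub_eq_zero.mp ((smul_eq_zero.mp this).resolve_right hv)
  rw [hd1, one_smul] at hd
  have h3 : b⁻¹ * a = 1 := by
    apply Subtype.ext
    apply Units.ext
    rw [hd]
    rfl
  exact (inv_mul_eq_one.mp h3).symm

open Classical in
theorem tame_case [IsAlgClosed k] [Fintype G]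
    (hA : ∀ g ∈ G, g.1.trace ^ 2 = 4 * g.1.det → ∃ c : k, g.1 = c • (1 : Matrix (Fin 2) (Fin 2) k)) :
    ∃ T : Finset G, Fintype.card G ≤ 2 * T.card ∧ ∀ τ δ : k,
      (T.filter fun g : G => (g : GL (Fin 2) k).1.trace = τ ∧
        (g : GL (Fin 2) k).1.det = δ).card ≤ 120 := by
  have hmain := exists_stab_or_index_le (G := G) (X := ℙ k (Fin 2 → k)) (scal G)
    (fun z hz x => scal_smul hz x) (fun g hg => by
      have hd : (g : GL (Fin 2) k).1.trace ^ 2 ≠ 4 * (g : GL (Fin 2) k).1.det :=
        fun h => hg (hA _ g.2 h)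
      obtain ⟨x, y, hxy, hf⟩ := fixedBy_of_disc_ne (g : GL (Fin 2) k) hd
      have : fixedBy (ℙ k (Fin 2 → k)) g = {x, y} := hf
      rw [this, Set.ncard_pair hxy])
  rcases hmain with ⟨x, hx⟩ | hn
  · -- stabiliser of a line
    refine ⟨Finset.univ.filter fun g : G => g ∈ stabilizer G x, ?_, fun τ δ => ?_⟩
    · rw [← Nat.card_eq_fintype_card]
      convert hx
      rw [Nat.card_eq_fintype_card, Fintype.card_subtype]
    · refine le_trans ?_ (show 2 ≤ 120 by norm_num)
      by_contra hcon
      rw [not_le, Finset.two_lt_card] at hcon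
      obtain ⟨a, ha, b, hb, c, hc, hab, hac, hbc⟩ := hcon
      induction x using Projectivization.ind with | h v hv =>
      have hst : ∀ g : G, g ∈ stabilizer G (mk k v hv : ℙ k (Fin 2 → k)) →
          ∃ c : k, (g : GL (Fin 2) k).1 *ᵥ v = c • v := by
        intro g hg
        exact (smul_mk_eq_iff (g : GL (Fin 2) k) hv).mp hg
      simp only [Finset.mem_filter, Finset.mem_univ, true_and] at ha hb hc
      obtain ⟨ca, hca⟩ := hst a ha.1
      obtain ⟨cb, hcb⟩ := hst b hb.1
      obtain ⟨cc, hcc⟩ := hst c hc.1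
      have ra := eigen_root hv hca
      have rb := eigen_root hv hcb
      have rc := eigen_root hv hcc
      rw [ha.2.1, ha.2.2] at ra
      rw [hb.2.1, hb.2.2] at rb
      rw [hc.2.1, hc.2.2] at rc
      have nab : ca ≠ cb := by
        rintro rfl
        exact hab (stab_inj hA hv hca hcb (by rw [ha.2.2, hb.2.2]))
      have nac : ca ≠ cc := by
        rintro rfl
        exact hac (stab_inj hA hv hca hcc (by rw [ha.2.2, hc.2.2]))
      have := quadratic_roots ra rb rc nab nac
      subst this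
      exact hbc (stab_inj hA hv hcb hcc (by rw [hb.2.2, hc.2.2]))
  · -- small projective image
    refine ⟨Finset.univ, by rw [Finset.card_univ]; lia, fun τ δ => ?_⟩
    have hcard := Finset.card_le_mul_card_image_of_maps_to (n := 2)
      (s := Finset.univ.filter fun g : G => (g : GL (Fin 2) k).1.trace = τ ∧
        (g : GL (Fin 2) k).1.det = δ) (t := (Finset.univ : Finset (G ⧸ scal G)))
      (f := fun g => (QuotientGroup.mk g : G ⧸ scal G)) (fun _ _ => Finset.mem_univ _) (by
        intro q _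
        by_contra hcon
        rw [not_le, Finset.two_lt_card] at hcon
        obtain ⟨a, ha, b, hb, c, hc, hab, hac, hbc⟩ := hcon
        simp only [Finset.mem_filter, Finset.mem_univ, true_and] at ha hb hc
        have key : ∀ b : G, ((b : GL (Fin 2) k).1.trace = τ ∧ (b : GL (Fin 2) k).1.det = δ) ∧
            (QuotientGroup.mk b : G ⧸ scal G) = q → a ≠ b →
            (b : GL (Fin 2) k).1 = -(a : GL (Fin 2) k).1 := by
          intro b hb hab
          have hmem : a⁻¹ * b ∈ scal G := by
            rw [← QuotientGroup.eq, ha.2, hb.2]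
          obtain ⟨d, hd⟩ := hmem
          have hba : (b : GL (Fin 2) k).1 = d • (a : GL (Fin 2) k).1 := by
            have : (b : GL (Fin 2) k).1 =
                (a : GL (Fin 2) k).1 * ((a⁻¹ * b : G) : GL (Fin 2) k).1 := by
              rw [← Units.val_mul]
              congr 1
              show (b : GL (Fin 2) k) = (a : GL (Fin 2) k) * ((a : GL (Fin 2) k)⁻¹ * b)
              rw [mul_inv_cancel_left]
            rw [this, hd, mul_smul_comm, mul_one]
          have hdet : d ^ 2 = 1 := by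
            have h1 : (b : GL (Fin 2) k).1.det = d ^ 2 * (a : GL (Fin 2) k).1.det := by
              rw [hba, Matrix.det_smul, Fintype.card_fin]
            rw [hb.1.2, ha.1.2] at h1
            have hδ : δ ≠ 0 := by
              rw [← ha.1.2]
              exact (Matrix.isUnits_det_units (a : GL (Fin 2) k)).ne_zero
            exact (mul_right_cancel₀ hδ (by rw [one_mul]; exact h1)).symm
          have hfac : (d - 1) * (d + 1) = 0 := by linear_combination hdet
          rcases mul_eq_zero.mp hfac with h | h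
          · exfalso
            apply hab
            rw [sub_eq_zero.mp h, one_smul] at hba
            exact Subtype.ext (Units.ext hba.symm)
          · rw [hba, eq_neg_of_add_eq_zero_left h, neg_smul, one_smul]
        have e1 := key b hb hab
        have e2 := key c hc hac
        exact hbc (Subtype.ext (Units.ext (e1.trans e2.symm))))
    refine hcard.trans ?_
    rw [Finset.card_univ, ← Nat.card_eq_fintype_card]
    have : Nat.card (G ⧸ scal G) ≤ 60 := hn
    lia

end Fermat.Agent.WOne.GL2
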