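import Fermat.Agent.WOne.P6Tame

set_option autoImplicit false

/-!
# Finite irreducible subgroups of `GL₂(k)` with a unipotent element and traces in `𝔽_ℓ`
-/

open Matrix Projectivization MulAction
open scoped LinearAlgebra.Projectivization

universe u

namespace Fermat.Agent.WOne.GL2

variable {k : Type u} [Field k]

lemma cayley_hamilton_two (M : Matrix (Fin 2) (Fin 2) k) :
    M * M = M.trace • M - M.det • (1 : Matrix (Fin 2) (Fin 2) k) := by
  rw [Matrix.trace_fin_two, Matrix.det_fin_two]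
  ext i j
  fin_cases i <;> fin_cases j <;> simp [Matrix.mul_apply, Fin.sum_univ_two] <;> ring

section Unip

variable {M : Matrix (Fin 2) (Fin 2) k} {c : k}

lemma sub_sq_eq_zero (h : M.trace ^ 2 = 4 * M.det) (hc : c ^ 2 - M.trace * c + M.det = 0) :
    M.trace = 2 * c ∧ (M - c • (1 : Matrix (Fin 2) (Fin 2) k)) *
      (M - c • (1 : Matrix (Fin 2) (Fin 2) k)) = 0 := by
  have h1 : (M.trace - 2 * c) ^ 2 = 0 := by linear_combination 4 * hc + h
  have h2 : M.trace = 2 * c := sub_eq_zero.mp (pow_eq_zero_iff two_ne_zero |>.mp h1)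
  refine ⟨h2, ?_⟩
  have h3 : M.det = c ^ 2 := by rw [h2] at hc; linear_combination hc
  rw [sub_mul, mul_sub, mul_sub, cayley_hamilton_two, h2, h3]
  simp only [smul_mul_assoc, one_mul, mul_smul_comm, mul_one]
  module

lemma pow_eq_of_sq_zero {ν : Matrix (Fin 2) (Fin 2) k} (hν : ν * ν = 0)
    (hM : M = c • (1 : Matrix (Fin 2) (Fin 2) k) + ν) (n : ℕ) :
    M ^ (n + 1) = c ^ (n + 1) • (1 : Matrix (Fin 2) (Fin 2) k) + (((n + 1 : ℕ) : k) * c ^ n) • ν := by
  induction n with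
  | zero => simp [hM]
  | succ n ih =>
    rw [pow_succ, ih, hM]
    rw [add_mul, mul_add, mul_add, smul_mul_assoc, smul_mul_assoc, smul_mul_assoc, smul_mul_assoc,
      hν]
    simp only [one_mul, mul_smul_comm, mul_one, smul_zero, add_zero]
    push_cast
    module

lemma coeff_eq_zero {ν : Matrix (Fin 2) (Fin 2) k} (hν : ν * ν = 0) {a b : k}
    (h : a • (1 : Matrix (Fin 2) (Fin 2) k) = b • ν) : a = 0 := by
  have h1 : (a • (1 : Matrix (Fin 2) (Fin 2) k)) * (a • (1 : Matrix (Fin 2) (Fin 2) k)) = 0 := by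
    rw [h, smul_mul_smul_comm, hν, smul_zero]
  rw [smul_mul_smul_comm, one_mul] at h1
  have h2 := congrFun (congrFun h1 0) 0
  simp at h2
  exact h2

end Unip

variable {G : Subgroup (GL (Fin 2) k)}

/-- A nonscalar element with a double eigenvalue has a nontrivial unipotent power. -/
lemma exists_unipotent [IsAlgClosed k] [Finite G] (ℓ : ℕ) [Fact ℓ.Prime] [CharP k ℓ]
    {g : GL (Fin 2) k} (hg : g ∈ G) (hd : g.1.trace ^ 2 = 4 * g.1.det)
    (hns : ¬ ∃ c : k, g.1 = c • (1 : Matrix (Fin 2) (Fin 2) k)) :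
    ∃ u ∈ G, u ≠ 1 ∧ u.1.trace = 2 ∧ ∃ v : Fin 2 → k, v ≠ 0 ∧ u.1 *ᵥ v = v := by
  obtain ⟨c, hc⟩ := exists_root g.1.trace g.1.det
  obtain ⟨htr, hν⟩ := sub_sq_eq_zero hd hc
  set ν := g.1 - c • (1 : Matrix (Fin 2) (Fin 2) k) with hνdef
  have hM : g.1 = c • (1 : Matrix (Fin 2) (Fin 2) k) + ν := by rw [hνdef]; abel
  have hν0 : ν ≠ 0 := fun h => hns ⟨c, by rw [hM, h, add_zero]⟩
  have hdet : g.1.det = c ^ 2 := by rw [htr] at hc; linear_combination hc
  have hc0 : c ≠ 0 := by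
    rintro rfl
    have := (Matrix.isUnits_det_units g).ne_zero
    rw [hdet] at this
    simp at this
  have hN : g ^ Nat.card G = 1 := by
    have h1 : (⟨g, hg⟩ : G) ^ Nat.card G = 1 := pow_card_eq_one'
    exact congrArg Subtype.val h1
  obtain ⟨N, hNN⟩ : ∃ N, Nat.card G = N + 1 := ⟨Nat.card G - 1, by
    have : 0 < Nat.card G := Nat.card_pos
    lia⟩
  have hcN : c ^ (N + 1) = 1 := by
    rw [hNN] at hN
    have h1 : g.1 ^ (N + 1) = 1 := by
      rw [← Units.val_pow_eq_pow_val, hN, Units.val_one]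
    rw [pow_eq_of_sq_zero hν hM N] at h1
    have h2 : (c ^ (N + 1) - 1) • (1 : Matrix (Fin 2) (Fin 2) k) =
        (-(((N + 1 : ℕ) : k) * c ^ N)) • ν := by
      rw [sub_smul, one_smul, neg_smul, eq_neg_iff_add_eq_zero, sub_add_eq_add_sub, h1, sub_self]
    exact sub_eq_zero.mp (coeff_eq_zero hν h2)
  have hfin : IsOfFinOrder c := isOfFinOrder_iff_pow_eq_one.mpr ⟨N + 1, Nat.succ_pos _, hcN⟩
  have hopos : 0 < orderOf c := hfin.orderOf_pos
  obtain ⟨n, hn⟩ : ∃ n, orderOf c = n + 1 := ⟨orderOf c - 1, by lia⟩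
  have hnl : ((n + 1 : ℕ) : k) ≠ 0 := by
    intro h0
    rw [CharP.cast_eq_zero_iff k ℓ] at h0
    obtain ⟨m, hm⟩ := h0
    have h1 : (c ^ m) ^ ℓ = 1 := by
      rw [← pow_mul, mul_comm m, ← hm, ← hn, pow_orderOf_eq_one]
    have h2 : c ^ m = 1 := by
      have h3 : (c ^ m - 1) ^ ℓ = 0 := by
        have : ExpChar k ℓ := ExpChar.prime (Fact.out)
        rw [sub_pow_expChar, h1, one_pow, sub_self]
      exact sub_eq_zero.mp (pow_eq_zero_iff (Fact.out : ℓ.Prime).ne_zero |>.mp h3)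
    have hm0 : 0 < m := by
      rcases Nat.eq_zero_or_pos m with rfl | h
      · simp at hm
      · exact h
    have h4 := orderOf_le_of_pow_eq_one hm0 h2
    rw [hn, hm] at h4
    have h5 : 2 ≤ ℓ := (Fact.out : ℓ.Prime).two_le
    nlinarith
  have hpow : (g ^ (n + 1)).1 = (1 : Matrix (Fin 2) (Fin 2) k) +
      (((n + 1 : ℕ) : k) * c ^ n) • ν := by
    rw [Units.val_pow_eq_pow_val, pow_eq_of_sq_zero hν hM n, ← hn, pow_orderOf_eq_one, one_smul]
  have hκ : (((n + 1 : ℕ) : k) * c ^ n) ≠ 0 := mul_ne_zero hnl (pow_ne_zero _ hc0)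
  have htrν : ν.trace = 0 := by
    rw [hνdef, Matrix.trace_sub, Matrix.trace_smul, Matrix.trace_one, htr]
    simp
    ring
  have hdetν : ν.det = 0 := by
    have h1 : ν.det * ν.det = 0 := by rw [← Matrix.det_mul, hν]; simp
    exact mul_self_eq_zero.mp h1
  obtain ⟨v, hv, hvν⟩ := Matrix.exists_mulVec_eq_zero_iff.mpr hdetν
  refine ⟨g ^ (n + 1), pow_mem hg _, ?_, ?_, v, hv, ?_⟩
  · intro h1
    rw [h1, Units.val_one] at hpow
    have h2 : (((n + 1 : ℕ) : k) * c ^ n) • ν = 0 := by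
      have := hpow.symm
      rwa [add_eq_left] at this
    rcases smul_eq_zero.mp h2 with h | h
    · exact hκ h
    · exact hν0 h
  · rw [hpow, Matrix.trace_add, Matrix.trace_smul, htrν, Matrix.trace_one]
    simp
  · rw [hpow, Matrix.add_mulVec, Matrix.one_mulVec, Matrix.smul_mulVec, hvν, smul_zero, add_zero]

/-- Under the semisimplicity hypothesis, a group with a nonscalar element with a double
eigenvalue stabilises no line. -/
lemma no_stable_line
    (hss : ∀ v : Fin 2 → k, v ≠ 0 → (∀ g ∈ G, ∃ c : k, g.1 *ᵥ v = c • v) →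
      ∃ w : Fin 2 → k, (∀ c : k, w ≠ c • v) ∧ ∀ g ∈ G, ∃ c : k, g.1 *ᵥ w = c • w)
    {g : GL (Fin 2) k} (hg : g ∈ G) (hd : g.1.trace ^ 2 = 4 * g.1.det)
    (hns : ¬ ∃ c : k, g.1 = c • (1 : Matrix (Fin 2) (Fin 2) k)) (v : Fin 2 → k) (hv : v ≠ 0) :
    ∃ h ∈ G, ∀ c : k, h.1 *ᵥ v ≠ c • v := by
  by_contra hcon
  push Not at hcon
  obtain ⟨w, hw, hwg⟩ := hss v hv hcon
  have hw0 : w ≠ 0 := by
    intro h
    exact hw 0 (by rw [h, zero_smul])
  have hdet : v 0 * w 1 - v 1 * w 0 ≠ 0 := by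
    intro h0
    have h1 : w 0 * v 1 - w 1 * v 0 = 0 := by linear_combination -h0
    have h2 := mk_eq_of_det hw0 hv h1
    rw [mk_eq_mk_iff'] at h2
    obtain ⟨a, ha⟩ := h2
    exact hw a ha.symm
  obtain ⟨α, hα⟩ := hcon g hg
  obtain ⟨β, hβ⟩ := hwg g hg
  have r1 := eigen_root hv hα
  have r2 := eigen_root hw0 hβ
  have hαβ : α = β := by
    by_contra hne
    have h1 : (α - β) * (α + β - g.1.trace) = 0 := by linear_combination r1 - r2
    have h2 : g.1.trace = α + β := by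
      have := (mul_eq_zero.mp h1).resolve_left (sub_ne_zero.mpr hne)
      linear_combination -this
    have h3 : g.1.det = α * β := by rw [h2] at r1; linear_combination r1
    rw [h2, h3] at hd
    have h4 : (α - β) ^ 2 = 0 := by linear_combination hd
    exact hne (sub_eq_zero.mp (pow_eq_zero_iff two_ne_zero |>.mp h4))
  subst hαβ
  exact hns ⟨α, scalar_of_two_eigen hdet hα hβ⟩

/-- Normal form for two opposite unipotents. -/
lemma exists_conj {u u' : GL (Fin 2) k} (hu1 : u ≠ 1) (hu'1 : u' ≠ 1) (htu : u.1.trace = 2)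
    (htu' : u'.1.trace = 2) {v w : Fin 2 → k} (hvw : v 0 * w 1 - v 1 * w 0 ≠ 0)
    (huv : u.1 *ᵥ v = v) (hu'w : u'.1 *ᵥ w = w) :
    ∃ (Q : GL (Fin 2) k) (c : k), c ≠ 0 ∧ Q⁻¹.1 * u.1 * Q.1 = !![1, 1; 0, 1] ∧
      Q⁻¹.1 * u'.1 * Q.1 = !![1, 0; c, 1] := by
  have hdetP : (!![v 0, w 0; v 1, w 1] : Matrix (Fin 2) (Fin 2) k).det ≠ 0 := by
    rw [Matrix.det_fin_two_of]
    intro h
    exact hvw (by linear_combination h)
  let P : GL (Fin 2) k := GeneralLinearGroup.mkOfDetNeZero !![v 0, w 0; v 1, w 1] hdetP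
  have hP : P.1 = !![v 0, w 0; v 1, w 1] := rfl
  have hPv : P.1 *ᵥ ![1, 0] = v := by
    rw [hP]
    ext i
    fin_cases i <;> simp
  have hPw : P.1 *ᵥ ![0, 1] = w := by
    rw [hP]
    ext i
    fin_cases i <;> simp
  have conj_vec : ∀ (g : GL (Fin 2) k) (e z : Fin 2 → k), P.1 *ᵥ e = z → g.1 *ᵥ z = z →
      (P⁻¹.1 * g.1 * P.1) *ᵥ e = e := by
    intro g e z he hz
    rw [← Matrix.mulVec_mulVec, he, ← Matrix.mulVec_mulVec, hz, ← he, Matrix.mulVec_mulVec,
      ← Units.val_mul, inv_mul_cancel, Units.val_one, Matrix.one_mulVec]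
  have conj_tr : ∀ g : GL (Fin 2) k, (P⁻¹.1 * g.1 * P.1).trace = g.1.trace := fun g =>
    Matrix.trace_units_conj' P g.1
  have conj_one : ∀ g : GL (Fin 2) k, P⁻¹.1 * g.1 * P.1 = 1 → g = 1 := by
    intro g hg
    have h1 : P⁻¹ * g * P = 1 := Units.ext (by rw [Units.val_mul, Units.val_mul, hg, Units.val_one])
    have h2 : g = P * (P⁻¹ * g * P) * P⁻¹ := by group
    rw [h2, h1, mul_one, mul_inv_cancel]
  set U := P⁻¹.1 * u.1 * P.1 with hU
  set U' := P⁻¹.1 * u'.1 * P.1 with hU'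
  have hU1 := conj_vec u _ _ hPv huv
  have hU'1 := conj_vec u' _ _ hPw hu'w
  have hUt := conj_tr u
  have hU't := conj_tr u'
  rw [← hU] at hU1 hUt
  rw [← hU'] at hU'1 hU't
  rw [htu, Matrix.trace_fin_two] at hUt
  rw [htu', Matrix.trace_fin_two] at hU't
  have a00 : U 0 0 = 1 := by simpa using congrFun hU1 0
  have a10 : U 1 0 = 0 := by simpa using congrFun hU1 1
  have a11 : U 1 1 = 1 := by linear_combination hUt - a00
  have b01 : U' 0 1 = 0 := by simpa using congrFun hU'1 0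
  have b11 : U' 1 1 = 1 := by simpa using congrFun hU'1 1
  have b00 : U' 0 0 = 1 := by linear_combination hU't - b11
  have hUe : U = !![1, U 0 1; 0, 1] := by
    ext i j
    fin_cases i <;> fin_cases j <;> simp [a00, a10, a11]
  have hU'e : U' = !![1, 0; U' 1 0, 1] := by
    ext i j
    fin_cases i <;> fin_cases j <;> simp [b00, b01, b11]
  have hx0 : U 0 1 ≠ 0 := by
    intro h
    rw [h] at hUe
    exact hu1 (conj_one u (by rw [← hU, hUe, Matrix.one_fin_two]))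
  have hy0 : U' 1 0 ≠ 0 := by
    intro h
    rw [h] at hU'e
    exact hu'1 (conj_one u' (by rw [← hU', hU'e, Matrix.one_fin_two]))
  have hdetD : (!![U 0 1, 0; 0, 1] : Matrix (Fin 2) (Fin 2) k).det ≠ 0 := by
    rw [Matrix.det_fin_two_of]
    simpa using hx0
  let D : GL (Fin 2) k := GeneralLinearGroup.mkOfDetNeZero !![U 0 1, 0; 0, 1] hdetD
  have hD : D.1 = !![U 0 1, 0; 0, 1] := rfl
  have hconj : ∀ A B : Matrix (Fin 2) (Fin 2) k, A * D.1 = D.1 * B → D⁻¹.1 * A * D.1 = B := by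
    intro A B h
    rw [mul_assoc, h, ← mul_assoc, ← Units.val_mul, inv_mul_cancel, Units.val_one, one_mul]
  have hPD : ∀ g : GL (Fin 2) k, (P * D)⁻¹.1 * g.1 * (P * D).1 =
      D⁻¹.1 * (P⁻¹.1 * g.1 * P.1) * D.1 := by
    intro g
    rw [_root_.mul_inv_rev, Units.val_mul, Units.val_mul]
    simp only [mul_assoc]
  refine ⟨P * D, U 0 1 * U' 1 0, mul_ne_zero hx0 hy0, ?_, ?_⟩
  · rw [hPD, ← hU]
    apply hconj
    rw [hUe, hD]
    ext i j
    fin_cases i <;> fin_cases j <;> simp [Matrix.mul_apply, Fin.sum_univ_two]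
  · rw [hPD, ← hU']
    apply hconj
    rw [hU'e, hD]
    ext i j
    fin_cases i <;> fin_cases j <;> simp [Matrix.mul_apply, Fin.sum_univ_two, mul_comm]

end Fermat.Agent.WOne.GL2
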