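import Mathlib
import Fermat.Prelude.Def_GaloisRep_Residual
import Fermat.Agent.FrobDensity.Final

set_option autoImplicit false

/-!
# Homomorphisms of finite level and Frobenius elements
-/

local notation "Γℚ" => (AlgebraicClosure ℚ ≃ₐ[ℚ] AlgebraicClosure ℚ)

namespace Fermat.Agent.WOne

section Level

variable {M M' : Type} [Group M] [Group M']

theorem finite_range_aux {F Ω : Type*} [Field F] [Field Ω] [Algebra F Ω] [Normal F Ω]
    (ρ : (Ω ≃ₐ[F] Ω) →* M) (L : IntermediateField F Ω) [FiniteDimensional F L]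
    (hL : ∀ σ : Ω ≃ₐ[F] Ω, (∀ x ∈ L, σ x = x) → ρ σ = 1) : Finite ρ.range := by
  obtain ⟨E, hLE, hEfin, hEnorm⟩ := FrobDensity.exists_normal_finite L
  let r : (Ω ≃ₐ[F] Ω) →* (E ≃ₐ[F] E) := AlgEquiv.restrictNormalHom E
  have hfin : Finite (E ≃ₐ[F] E) := inferInstance
  have hker : r.ker ≤ ρ.ker := by
    intro σ hσ
    rw [MonoidHom.mem_ker] at hσ ⊢
    apply hL
    intro x hx
    have h1 := AlgEquiv.restrictNormal_commutes σ E ⟨x, hLE hx⟩
    have h2 : σ.restrictNormal E = 1 := hσ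
    rw [h2] at h1
    exact h1.symm
  have : Finite ((Ω ≃ₐ[F] Ω) ⧸ r.ker) :=
    Finite.of_equiv _ (QuotientGroup.quotientKerEquivRange r).symm.toEquiv
  let f : ((Ω ≃ₐ[F] Ω) ⧸ r.ker) →* M := QuotientGroup.lift r.ker ρ hker
  have hf : ρ.range = f.range := by
    ext m
    constructor
    · rintro ⟨σ, rfl⟩
      exact ⟨QuotientGroup.mk σ, rfl⟩
    · rintro ⟨q, rfl⟩
      induction q using QuotientGroup.induction_on with | H σ =>
      exact ⟨σ, rfl⟩
  rw [hf]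
  exact inferInstanceAs (Finite (Set.range f))

theorem finite_range (ρ : Γℚ →* M) (h : GaloisFactorsThroughFiniteLevel ρ) : Finite ρ.range := by
  obtain ⟨L, hL, hρ⟩ := h
  exact finite_range_aux ρ L hρ

theorem level_prod (ρ : Γℚ →* M) (ρ' : Γℚ →* M') (h : GaloisFactorsThroughFiniteLevel ρ)
    (h' : GaloisFactorsThroughFiniteLevel ρ') : GaloisFactorsThroughFiniteLevel (ρ.prod ρ') := by
  obtain ⟨L, hL, hρ⟩ := h
  obtain ⟨L', hL', hρ'⟩ := h'
  refine ⟨L ⊔ L', ?_, ?_⟩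
  · exact IntermediateField.finiteDimensional_sup L L'
  · intro σ hσ
    have h1 := hρ σ fun x hx => hσ x ((le_sup_left : L ≤ L ⊔ L') hx)
    have h2 := hρ' σ fun x hx => hσ x ((le_sup_right : L' ≤ L ⊔ L') hx)
    rw [MonoidHom.prod_apply, h1, h2]
    rfl

/-- Frobenius density theorem for a homomorphism of finite level. -/
theorem exists_frobenius_hom (ρ : Γℚ →* M) (h : GaloisFactorsThroughFiniteLevel ρ) (σ : Γℚ)
    (S : Finset ℕ) : ∃ p : ℕ, p.Prime ∧ p ∉ S ∧ ∃ A : ValuationSubring (AlgebraicClosure ℚ),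
      A.LiesOverPrime p ∧ ∃ τ : Γℚ, A.IsFrobeniusAt τ p ∧
        (∃ j : ℕ, ρ τ ^ j = ρ σ) ∧ ∃ k : ℕ, ρ σ ^ k = ρ τ := by
  obtain ⟨L, hL, hρ⟩ := h
  obtain ⟨p, hp, hpS, A, hA, -, τ, hτ, ⟨j, hj⟩, ⟨k, hk⟩⟩ :=
    FrobDensity.exists_frobenius_pow_eq L hL σ S
  have key : ∀ α β : Γℚ, (∀ x ∈ L, α x = β x) → ρ α = ρ β := by
    intro α β hαβ
    have : ρ (β⁻¹ * α) = 1 := by
      apply hρ
      intro x hx
      rw [AlgEquiv.mul_apply, hαβ x hx]
      exact AlgEquiv.symm_apply_apply β x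
    rw [map_mul, map_inv, inv_mul_eq_one] at this
    exact this.symm
  refine ⟨p, hp, hpS, A, hA, τ, hτ, ⟨j, ?_⟩, k, ?_⟩
  · rw [← map_pow]
    exact key _ _ hj
  · rw [← map_pow]
    exact key _ _ hk

end Level

end Fermat.Agent.WOne
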