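import Fermat.Agent.WOne.P4Rankin
import Fermat.Agent.FrobDensity.Analytic

set_option autoImplicit false

/-!
# Upper and lower Dirichlet densities of weights on primes
-/

open Filter Topology NumberField

namespace Fermat.Agent.WOne

/-- The weight `w` has (upper) Dirichlet density at most `κ`. -/
def DensLE (w : Nat.Primes → ℝ) (κ : ℝ) : Prop :=
  ∃ C : ℝ, ∀ s : ℝ, 1 < s → s ≤ 2 → (Summable fun p : Nat.Primes => w p * ((p : ℕ) : ℝ) ^ (-s)) ∧
    ∑' p : Nat.Primes, w p * ((p : ℕ) : ℝ) ^ (-s) ≤ κ * Real.log (1 / (s - 1)) + C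

/-- The weight `w` has (lower) Dirichlet density at least `μ`. -/
def DensGE (w : Nat.Primes → ℝ) (μ : ℝ) : Prop :=
  ∀ δ : ℝ, 0 < δ → ∃ s₀ : ℝ, 1 < s₀ ∧ ∀ s : ℝ, 1 < s → s < s₀ →
    (μ - δ) * Real.log (1 / (s - 1)) ≤ ∑' p : Nat.Primes, w p * ((p : ℕ) : ℝ) ^ (-s)

lemma tendsto_log_atTop : Tendsto (fun s : ℝ => Real.log (1 / (s - 1))) (𝓝[>] 1) atTop := by
  refine Real.tendsto_log_atTop.comp ?_
  have h1 : Tendsto (fun s : ℝ => s - 1) (𝓝[>] 1) (𝓝[>] 0) := by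
    refine tendsto_nhdsWithin_iff.mpr ⟨?_, ?_⟩
    · have : Tendsto (fun s : ℝ => s - 1) (𝓝 1) (𝓝 (1 - 1)) := by
        exact (continuous_id.sub continuous_const).tendsto 1
      rw [sub_self] at this
      exact this.mono_left nhdsWithin_le_nhds
    · filter_upwards [self_mem_nhdsWithin] with s hs
      exact Set.mem_Ioi.mpr (sub_pos.mpr (Set.mem_Ioi.mp hs))
  simp only [one_div]
  exact tendsto_inv_nhdsGT_zero.comp h1

lemma exists_log_gt (B s₀ : ℝ) (hs₀ : 1 < s₀) :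
    ∃ s : ℝ, 1 < s ∧ s < s₀ ∧ s ≤ 2 ∧ B < Real.log (1 / (s - 1)) := by
  have h1 := tendsto_log_atTop.eventually_gt_atTop B
  have h2 : ∀ᶠ s : ℝ in 𝓝[>] 1, s < s₀ :=
    mem_nhdsWithin_of_mem_nhds (Iio_mem_nhds hs₀)
  have h3 : ∀ᶠ s : ℝ in 𝓝[>] 1, s < 2 :=
    mem_nhdsWithin_of_mem_nhds (Iio_mem_nhds one_lt_two)
  have h4 : ∀ᶠ s : ℝ in 𝓝[>] 1, 1 < s := self_mem_nhdsWithin
  obtain ⟨s, a, b, c, d⟩ := (h1.and (h2.and (h3.and h4))).exists
  exact ⟨s, d, b, c.le, a⟩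

theorem DensGE.le_of_densLE {w : Nat.Primes → ℝ} {μ κ : ℝ} (h1 : DensGE w μ) (h2 : DensLE w κ) :
    μ ≤ κ := by
  by_contra hcon
  push Not at hcon
  obtain ⟨C, hC⟩ := h2
  obtain ⟨s₀, hs₀, hs⟩ := h1 ((μ - κ) / 2) (by linarith)
  obtain ⟨s, h1s, hss₀, hs2, hlog⟩ := exists_log_gt (|C| / ((μ - κ) / 2)) s₀ hs₀
  have a := hs s h1s hss₀
  have b := (hC s h1s hs2).2
  have c : (0 : ℝ) < (μ - κ) / 2 := by linarith
  rw [div_lt_iff₀ c] at hlog
  have d := le_abs_self C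
  nlinarith

lemma DensLE.mono {w w' : Nat.Primes → ℝ} {κ : ℝ} (h0 : ∀ p, 0 ≤ w p) (h : ∀ p, w p ≤ w' p)
    (hw : DensLE w' κ) : DensLE w κ := by
  obtain ⟨C, hC⟩ := hw
  refine ⟨C, fun s h1 h2 => ?_⟩
  obtain ⟨a, b⟩ := hC s h1 h2
  have hs : Summable fun p : Nat.Primes => w p * ((p : ℕ) : ℝ) ^ (-s) :=
    Summable.of_nonneg_of_le (fun p => mul_nonneg (h0 p) (by positivity))
      (fun p => mul_le_mul_of_nonneg_right (h p) (by positivity)) a
  exact ⟨hs, (hs.tsum_le_tsum (fun p => mul_le_mul_of_nonneg_right (h p) (by positivity)) a).trans b⟩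

lemma DensLE.add {w w' : Nat.Primes → ℝ} {κ κ' : ℝ} (hw : DensLE w κ) (hw' : DensLE w' κ') :
    DensLE (fun p => w p + w' p) (κ + κ') := by
  obtain ⟨C, hC⟩ := hw
  obtain ⟨C', hC'⟩ := hw'
  refine ⟨C + C', fun s h1 h2 => ?_⟩
  obtain ⟨a, b⟩ := hC s h1 h2
  obtain ⟨a', b'⟩ := hC' s h1 h2
  simp only [add_mul]
  refine ⟨a.add a', ?_⟩
  rw [a.tsum_add a']
  linarith

lemma DensLE.const_mul {w : Nat.Primes → ℝ} {κ : ℝ} (hw : DensLE w κ) {c : ℝ} (hc : 0 ≤ c) :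
    DensLE (fun p => c * w p) (c * κ) := by
  obtain ⟨C, hC⟩ := hw
  refine ⟨c * C, fun s h1 h2 => ?_⟩
  obtain ⟨a, b⟩ := hC s h1 h2
  simp only [mul_assoc]
  refine ⟨a.mul_left c, ?_⟩
  rw [tsum_mul_left]
  calc c * ∑' p : Nat.Primes, w p * ((p : ℕ) : ℝ) ^ (-s)
      ≤ c * (κ * Real.log (1 / (s - 1)) + C) := by gcongr
    _ = _ := by ring

lemma densLE_zero : DensLE (fun _ => 0) 0 :=
  ⟨0, fun s _ _ => by simp⟩

lemma DensLE.sum {ι : Type*} (t : Finset ι) {w : ι → Nat.Primes → ℝ} {κ : ι → ℝ}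
    (hw : ∀ i ∈ t, DensLE (w i) (κ i)) : DensLE (fun p => ∑ i ∈ t, w i p) (∑ i ∈ t, κ i) := by
  classical
  induction t using Finset.induction_on with
  | empty => simpa using densLE_zero
  | insert i t hi ih =>
    simp only [Finset.sum_insert hi]
    exact (hw i (Finset.mem_insert_self _ _)).add
      (ih fun j hj => hw j (Finset.mem_insert_of_mem hj))

lemma densLE_of_finite_support {w : Nat.Primes → ℝ} (hw : ∀ p, 0 ≤ w p)
    (hf : (Function.support w).Finite) : DensLE w 0 := by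
  classical
  refine ⟨∑ p ∈ hf.toFinset, w p, fun s h1 _ => ?_⟩
  have hsupp : ∀ p ∉ hf.toFinset, w p * ((p : ℕ) : ℝ) ^ (-s) = 0 := by
    intro p hp
    have : w p = 0 := by
      by_contra h
      exact hp (hf.mem_toFinset.mpr h)
    rw [this, zero_mul]
  refine ⟨summable_of_ne_finset_zero hsupp, ?_⟩
  rw [tsum_eq_sum hsupp, zero_mul, zero_add]
  refine Finset.sum_le_sum fun p _ => mul_le_of_le_one_right (hw p) ?_
  exact Real.rpow_le_one_of_one_le_of_nonpos (by exact_mod_cast p.2.one_le) (by linarith)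

lemma DensGE.const_mul {w : Nat.Primes → ℝ} {μ : ℝ} (hw : DensGE w μ) {c : ℝ} (hc : 0 ≤ c) :
    DensGE (fun p => c * w p) (c * μ) := by
  intro δ hδ
  obtain ⟨s₀, hs₀, h⟩ := hw (δ / (c + 1)) (by positivity)
  obtain ⟨s₁, hs₁, h1⟩ : ∃ s₁ : ℝ, 1 < s₁ ∧ ∀ s : ℝ, 1 < s → s < s₁ →
      0 ≤ Real.log (1 / (s - 1)) := by
    refine ⟨2, one_lt_two, fun s h1 h2 => Real.log_nonneg ?_⟩
    rw [one_le_div (by linarith)]
    linarith
  refine ⟨min s₀ s₁, lt_min hs₀ hs₁, fun s hs hs' => ?_⟩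
  have a := h s hs (hs'.trans_le (min_le_left _ _))
  have b := h1 s hs (hs'.trans_le (min_le_right _ _))
  simp only [mul_assoc]
  rw [tsum_mul_left]
  have hcδ : c * (δ / (c + 1)) ≤ δ := by
    rw [mul_div_assoc', div_le_iff₀ (by positivity)]
    nlinarith
  calc (c * μ - δ) * Real.log (1 / (s - 1))
      ≤ (c * μ - c * (δ / (c + 1))) * Real.log (1 / (s - 1)) := by gcongr
    _ = c * ((μ - δ / (c + 1)) * Real.log (1 / (s - 1))) := by ring
    _ ≤ _ := by gcongr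

lemma summable_of_bounded {w : Nat.Primes → ℝ} {B : ℝ} (hw : ∀ p, |w p| ≤ B) {s : ℝ}
    (hs : 1 < s) : Summable fun p : Nat.Primes => w p * ((p : ℕ) : ℝ) ^ (-s) := by
  have h1 : Summable fun p : Nat.Primes => B * ((p : ℕ) : ℝ) ^ (-s) :=
    ((Nat.Primes.summable_rpow (r := -s)).mpr (by linarith)).mul_left B
  refine Summable.of_norm_bounded h1 fun p => ?_
  rw [norm_mul, Real.norm_eq_abs, Real.norm_of_nonneg (by positivity)]
  exact mul_le_mul_of_nonneg_right (hw p) (by positivity)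

lemma DensGE.add {w w' : Nat.Primes → ℝ} {μ μ' : ℝ} (hw : DensGE w μ) (hw' : DensGE w' μ')
    (hs : ∀ s : ℝ, 1 < s → Summable fun p : Nat.Primes => w p * ((p : ℕ) : ℝ) ^ (-s))
    (hs' : ∀ s : ℝ, 1 < s → Summable fun p : Nat.Primes => w' p * ((p : ℕ) : ℝ) ^ (-s)) :
    DensGE (fun p => w p + w' p) (μ + μ') := by
  intro δ hδ
  obtain ⟨s₀, hs₀, h⟩ := hw (δ / 2) (by positivity)
  obtain ⟨s₁, hs₁, h1⟩ := hw' (δ / 2) (by positivity)
  refine ⟨min s₀ s₁, lt_min hs₀ hs₁, fun s h2 h3 => ?_⟩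
  have a := h s h2 (h3.trans_le (min_le_left _ _))
  have b := h1 s h2 (h3.trans_le (min_le_right _ _))
  simp only [add_mul]
  rw [(hs s h2).tsum_add (hs' s h2)]
  linarith

lemma densGE_zero : DensGE (fun _ => 0) 0 := by
  intro δ hδ
  refine ⟨2, one_lt_two, fun s h1 h2 => ?_⟩
  simp only [zero_mul, tsum_zero, zero_sub]
  have : 0 ≤ Real.log (1 / (s - 1)) := Real.log_nonneg (by
    rw [one_le_div (by linarith)]
    linarith)
  nlinarith

lemma DensGE.sum {ι : Type*} (t : Finset ι) {w : ι → Nat.Primes → ℝ} {μ : ι → ℝ}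
    (hw : ∀ i ∈ t, DensGE (w i) (μ i)) (hs : ∀ i ∈ t, ∀ s : ℝ, 1 < s →
      Summable fun p : Nat.Primes => w i p * ((p : ℕ) : ℝ) ^ (-s)) :
    DensGE (fun p => ∑ i ∈ t, w i p) (∑ i ∈ t, μ i) := by
  classical
  induction t using Finset.induction_on with
  | empty => simpa using densGE_zero
  | insert i t hi ih =>
    simp only [Finset.sum_insert hi]
    refine (hw i (Finset.mem_insert_self _ _)).add
      (ih (fun j hj => hw j (Finset.mem_insert_of_mem hj))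
        fun j hj => hs j (Finset.mem_insert_of_mem hj))
      (hs i (Finset.mem_insert_self _ _)) fun s h1 => ?_
    simp only [Finset.sum_mul]
    exact summable_sum fun j hj => hs j (Finset.mem_insert_of_mem hj) s h1

lemma DensGE.mono {w w' : Nat.Primes → ℝ} {μ : ℝ} (hw : DensGE w μ) (h : ∀ p, w p ≤ w' p)
    (hs : ∀ s : ℝ, 1 < s → Summable fun p : Nat.Primes => w p * ((p : ℕ) : ℝ) ^ (-s))
    (hs' : ∀ s : ℝ, 1 < s → Summable fun p : Nat.Primes => w' p * ((p : ℕ) : ℝ) ^ (-s)) :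
    DensGE w' μ := by
  intro δ hδ
  obtain ⟨s₀, hs₀, h1⟩ := hw δ hδ
  refine ⟨s₀, hs₀, fun s h2 h3 => (h1 s h2 h3).trans ?_⟩
  exact (hs s h2).tsum_le_tsum (fun p => mul_le_mul_of_nonneg_right (h p) (by positivity))
    (hs' s h2)

/-- A number field has infinitely many residue fields of prime order. -/
theorem exists_prime_ringHom (K : Type) [Field K] [NumberField K] (B : ℕ) :
    ∃ ℓ : ℕ, B ≤ ℓ ∧ ℓ.Prime ∧ Nonempty (𝓞 K →+* ZMod ℓ) := by
  classical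
  by_contra hcon
  push Not at hcon
  obtain ⟨C, hC⟩ := FrobDensity.exists_bound_log K
  have hzero : ∀ p : Nat.Primes, B ≤ (p : ℕ) →
      (Nat.card {I : Ideal (𝓞 K) // Ideal.absNorm I = (p : ℕ)} : ℝ) = 0 := by
    intro p hp
    have he : IsEmpty {I : Ideal (𝓞 K) // Ideal.absNorm I = (p : ℕ)} := by
      refine ⟨fun ⟨I, hI⟩ => ?_⟩
      have hp' := p.2
      have h1 : Nat.card (𝓞 K ⧸ I) = (p : ℕ) := by
        rw [← hI, Ideal.absNorm_apply]
        rfl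
      have : Finite (𝓞 K ⧸ I) := Nat.finite_of_card_ne_zero (by rw [h1]; exact hp'.ne_zero)
      have : Fintype (𝓞 K ⧸ I) := Fintype.ofFinite _
      have : Fact (p : ℕ).Prime := ⟨hp'⟩
      let e := ZMod.ringEquivOfPrime (𝓞 K ⧸ I) hp' (by rw [← Nat.card_eq_fintype_card, h1])
      exact (hcon p hp hp').false (e.symm.toRingHom.comp (Ideal.Quotient.mk I))
    rw [Nat.card_eq_zero.mpr (Or.inl he), Nat.cast_zero]
  set T : Finset Nat.Primes := (Set.Finite.preimage (f := fun p : Nat.Primes => (p : ℕ))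
    (Subtype.val_injective.injOn) (Set.finite_Iio B)).toFinset with hT
  obtain ⟨s, h1, -, h2, h3⟩ := exists_log_gt (C + ∑ p ∈ T,
    (Nat.card {I : Ideal (𝓞 K) // Ideal.absNorm I = (p : ℕ)} : ℝ)) 2 one_lt_two
  obtain ⟨-, b⟩ := hC s h1 h2
  have hsupp : ∀ p ∉ T, (Nat.card {I : Ideal (𝓞 K) // Ideal.absNorm I = (p : ℕ)} : ℝ) *
      ((p : ℕ) : ℝ) ^ (-s) = 0 := by
    intro p hp
    rw [hzero p, zero_mul]
    by_contra hlt
    exact hp (by simp [hT]; lia)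
  rw [tsum_eq_sum hsupp] at b
  have h4 : ∑ p ∈ T, (Nat.card {I : Ideal (𝓞 K) // Ideal.absNorm I = (p : ℕ)} : ℝ) *
      ((p : ℕ) : ℝ) ^ (-s) ≤
      ∑ p ∈ T, (Nat.card {I : Ideal (𝓞 K) // Ideal.absNorm I = (p : ℕ)} : ℝ) := by
    refine Finset.sum_le_sum fun p _ => mul_le_of_le_one_right (by positivity) ?_
    exact Real.rpow_le_one_of_one_le_of_nonpos (by exact_mod_cast p.2.one_le) (by linarith)
  have := (abs_le.mp b).1
  linarith

end Fermat.Agent.WOne
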