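import Fermat.Agent.WOne.P7Spec
import Fermat.Prelude.Def_Deformations_MatrixRepresentation

set_option autoImplicit false

/-!
# Irreducibility of the characteristic zero representation
-/

open Filter Topology NumberField Matrix

local notation "Γℚ" => (AlgebraicClosure ℚ ≃ₐ[ℚ] AlgebraicClosure ℚ)

namespace Fermat.Agent.WOne

section Average

variable {G : Subgroup (GL (Fin 2) ℂ)} [Fintype G]

lemma inv_mulVec {g : GL (Fin 2) ℂ} {v : Fin 2 → ℂ} {c : ℂ} (hc : c ≠ 0)
    (h : g.1 *ᵥ v = c • v) : (g⁻¹).1 *ᵥ v = c⁻¹ • v := by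
  have h1 : (g⁻¹).1 *ᵥ (g.1 *ᵥ v) = v := by
    rw [Matrix.mulVec_mulVec, ← Units.val_mul, inv_mul_cancel, Units.val_one, Matrix.one_mulVec]
  rw [h, Matrix.mulVec_smul] at h1
  rw [← h1, smul_smul, inv_mul_cancel₀ hc, one_smul, h1]

/-- The average of `|tr|²` over a group with a common eigenvector is at least two. -/
theorem two_le_average {v : Fin 2 → ℂ} (hv : v ≠ 0)
    (h : ∀ g : G, ∃ c : ℂ, (g : GL (Fin 2) ℂ).1 *ᵥ v = c • v) :
    2 * (Fintype.card G : ℝ) ≤ ∑ g : G, ‖(g : GL (Fin 2) ℂ).1.trace‖ ^ 2 := by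
  classical
  choose χ hχ using h
  have hinj : ∀ a b : ℂ, a • v = b • v → a = b := fun a b hab => by
    have : (a - b) • v = 0 := by rw [sub_smul, hab, sub_self]
    exact sub_eq_zero.mp ((smul_eq_zero.mp this).resolve_right hv)
  let χ₁ : G →* ℂ :=
    { toFun := χ
      map_one' := by
        apply hinj
        rw [← hχ 1, one_smul]
        show (1 : GL (Fin 2) ℂ).1 *ᵥ v = v
        rw [Units.val_one, Matrix.one_mulVec]
      map_mul' := fun g g' => by
        apply hinj
        rw [← hχ]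
        show ((g : GL (Fin 2) ℂ) * (g' : GL (Fin 2) ℂ)).1 *ᵥ v = _
        rw [Units.val_mul, ← Matrix.mulVec_mulVec, hχ, Matrix.mulVec_smul, hχ, smul_smul,
          mul_comm] }
  have hχ₁ : ∀ g : G, (g : GL (Fin 2) ℂ).1 *ᵥ v = χ₁ g • v := hχ
  have h0 : ∀ g, χ₁ g ≠ 0 := fun g h0 => by
    have h1 : χ₁ (g * g⁻¹) = 1 := by rw [mul_inv_cancel, map_one]
    rw [map_mul, h0, zero_mul] at h1
    exact zero_ne_one h1
  -- the second character
  let δ : G →* ℂ :=
    { toFun := fun g => (g : GL (Fin 2) ℂ).1.det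
      map_one' := by simp
      map_mul' := fun g g' => by
        show ((g : GL (Fin 2) ℂ) * (g' : GL (Fin 2) ℂ)).1.det = _
        rw [Units.val_mul, Matrix.det_mul] }
  have hδ : ∀ g : G, δ g = (g : GL (Fin 2) ℂ).1.det := fun g => rfl
  have htr : ∀ g : G, (g : GL (Fin 2) ℂ).1.trace = χ₁ g + δ g * (χ₁ g)⁻¹ := by
    intro g
    have h1 := GL2.eigen_root hv (hχ₁ g)
    have h2 := h0 g
    rw [hδ]
    field_simp
    linear_combination -h1
  have hn : ∀ (ψ : G →* ℂ) (g : G), ‖ψ g‖ = 1 := by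
    intro ψ g
    have h1 : ψ g ^ Fintype.card G = 1 := by
      rw [← map_pow, pow_card_eq_one, map_one]
    exact Complex.norm_eq_one_of_pow_eq_one h1 Fintype.card_ne_zero
  -- the quotient of the two characters
  let ψ : G →* ℂ :=
    { toFun := fun g => χ₁ g * χ₁ g * (δ g)⁻¹
      map_one' := by simp
      map_mul' := fun g g' => by
        simp only [map_mul, mul_inv]
        ring }
  have hψ : ∀ g, ψ g = χ₁ g * χ₁ g * (δ g)⁻¹ := fun g => rfl
  have hconj : ∀ z : ℂ, ‖z‖ = 1 → (starRingEnd ℂ) z = z⁻¹ := fun z hz => by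
    rw [Complex.inv_def, Complex.normSq_eq_norm_sq, hz]
    simp
  have hsq : ∀ g : G, (‖(g : GL (Fin 2) ℂ).1.trace‖ : ℝ) ^ 2 = 2 + 2 * (ψ g).re := by
    intro g
    have hd0 : δ g ≠ 0 := by
      intro h1
      have := hn δ g
      rw [h1, norm_zero] at this
      exact zero_ne_one this
    have hc0 := h0 g
    have h1 : ((‖(g : GL (Fin 2) ℂ).1.trace‖ : ℝ) ^ 2 : ℝ) =
        ((g : GL (Fin 2) ℂ).1.trace * (starRingEnd ℂ) ((g : GL (Fin 2) ℂ).1.trace)).re := by
      rw [Complex.mul_conj, Complex.ofReal_re, Complex.normSq_eq_norm_sq]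
    rw [h1, htr, map_add, map_mul, map_inv₀, hconj _ (hn χ₁ g), hconj _ (hn δ g), inv_inv]
    have h2 : (χ₁ g + δ g * (χ₁ g)⁻¹) * ((χ₁ g)⁻¹ + (δ g)⁻¹ * χ₁ g) =
        2 + (ψ g + (starRingEnd ℂ) (ψ g)) := by
      rw [hconj _ (hn ψ g), hψ]
      field_simp
      ring
    rw [h2, Complex.add_conj]
    simp
  have hsum : 0 ≤ (∑ g : G, ψ g).re := by
    rw [sum_hom_units]
    split_ifs
    · simp
    · simp
  calc 2 * (Fintype.card G : ℝ) ≤ 2 * (Fintype.card G : ℝ) + 2 * (∑ g : G, ψ g).re := by linarith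
    _ = ∑ g : G, ‖(g : GL (Fin 2) ℂ).1.trace‖ ^ 2 := by
      simp only [hsq]
      rw [Finset.sum_add_distrib, Finset.sum_const, Finset.card_univ, nsmul_eq_mul,
        ← Finset.mul_sum, Complex.re_sum]
      ring

end Average

/-- Reducible representations have a common eigenvector. -/
lemma exists_common_eigenvector (ρ : Γℚ →* GL (Fin 2) ℂ)
    (h : ¬ (Deformation.matrixRepresentation ρ).IsIrreducible) :
    ∃ v : Fin 2 → ℂ, v ≠ 0 ∧ ∀ σ, ∃ c : ℂ, (ρ σ).1 *ᵥ v = c • v := by
  have hnt : Nontrivial (Subrepresentation (Deformation.matrixRepresentation ρ)) := by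
    refine ⟨⊥, ⊤, fun h => ?_⟩
    have h1 : (1 : Fin 2 → ℂ) ∈ (⊤ : Subrepresentation (Deformation.matrixRepresentation ρ)) :=
      trivial
    rw [← h] at h1
    have h2 : (1 : Fin 2 → ℂ) = 0 := h1
    exact one_ne_zero h2
  have h2 : ∃ W : Subrepresentation (Deformation.matrixRepresentation ρ), W ≠ ⊥ ∧ W ≠ ⊤ := by
    by_contra hcon
    push Not at hcon
    exact h ⟨fun W => by
      by_cases hW : W = ⊥
      · exact Or.inl hW
      · exact Or.inr (hcon W hW)⟩
  obtain ⟨W, hb, ht⟩ := h2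
  have hb' : ∃ v ∈ W, v ≠ 0 := by
    by_contra hcon
    push Not at hcon
    apply hb
    apply Subrepresentation.toSubmodule_injective
    ext v
    exact ⟨fun hv => hcon v hv, fun hv => by
      have : v = 0 := hv
      rw [this]
      exact W.toSubmodule.zero_mem⟩
  have ht' : ∃ w, w ∉ W := by
    by_contra hcon
    push Not at hcon
    apply ht
    apply Subrepresentation.toSubmodule_injective
    ext v
    exact ⟨fun _ => trivial, fun _ => hcon v⟩
  obtain ⟨v, hvW, hv⟩ := hb'
  obtain ⟨w, hwW⟩ := ht'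
  refine ⟨v, hv, fun σ => ?_⟩
  have hσv : (ρ σ).1 *ᵥ v ∈ W := by
    have := W.apply_mem_toSubmodule σ hvW
    rwa [Deformation.matrixRepresentation_apply, Matrix.mulVecLin_apply] at this
  set y := (ρ σ).1 *ᵥ v with hy
  have hy0 : y ≠ 0 := by
    intro h0
    have h1 : ((ρ σ)⁻¹).1 *ᵥ y = v := by
      rw [hy, Matrix.mulVec_mulVec, ← Units.val_mul, inv_mul_cancel, Units.val_one,
        Matrix.one_mulVec]
    rw [h0, Matrix.mulVec_zero] at h1
    exact hv h1.symm
  have hdet : y 0 * v 1 - y 1 * v 0 = 0 := by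
    by_contra hD
    apply hwW
    have : w = ((w 0 * v 1 - w 1 * v 0) / (y 0 * v 1 - y 1 * v 0)) • y +
        ((y 0 * w 1 - y 1 * w 0) / (y 0 * v 1 - y 1 * v 0)) • v := by
      have key : ∀ D A B p q r : ℂ, D ≠ 0 → D * r = A * p + B * q → r = A / D * p + B / D * q := by
        intro D A B p q r hD h
        field_simp
        linear_combination h
      ext i
      fin_cases i
      · exact key _ _ _ _ _ _ hD (by simp only [Fin.zero_eta]; ring)
      · exact key _ _ _ _ _ _ hD (by simp only [Fin.mk_one]; ring)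
    rw [this]
    exact W.toSubmodule.add_mem (W.toSubmodule.smul_mem _ hσv) (W.toSubmodule.smul_mem _ hvW)
  have h3 := GL2.mk_eq_of_det hy0 hv hdet
  rw [Projectivization.mk_eq_mk_iff'] at h3
  obtain ⟨a, ha⟩ := h3
  exact ⟨a, ha.symm⟩

open Classical in
theorem irreducible_of_density (cheb : ChebStmt) {N : ℕ} (hN : N ≠ 0) (ρ : Γℚ →* GL (Fin 2) ℂ)
    (hlev : GaloisFactorsThroughFiniteLevel ρ) (α : ℕ → ℂ)
    (hfrob : ∀ p : ℕ, p.Prime → ¬ p ∣ N → ∀ A : ValuationSubring (AlgebraicClosure ℚ),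
      A.LiesOverPrime p → ∀ σ : Γℚ, A.IsFrobeniusAt σ p → (ρ σ).1.trace = α p)
    (hR : DensLE (fun p => if (p : ℕ) ∣ N then 0 else ‖α p‖ ^ 2) 1) :
    (Deformation.matrixRepresentation ρ).IsIrreducible := by
  by_contra hred
  obtain ⟨v, hv, hcv⟩ := exists_common_eigenvector ρ hred
  have hfin : Finite ρ.range := finite_range ρ hlev
  have hft : Fintype ρ.range := Fintype.ofFinite _
  have havg := two_le_average (G := ρ.range) hv (by
    rintro ⟨g, σ, rfl⟩
    exact hcv σ)
  set f : ρ.range → ℝ := fun g => ‖(g : GL (Fin 2) ℂ).1.trace‖ ^ 2 with hf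
  set V : Finset ℝ := Finset.univ.image f with hV
  let C : ℝ → Set ρ.range := fun c => {g | f g = c}
  have hlev' : GaloisFactorsThroughFiniteLevel ρ.rangeRestrict := by
    obtain ⟨L, hL, hρ⟩ := hlev
    exact ⟨L, hL, fun σ hσ => Subtype.ext (hρ σ hσ)⟩
  have hconj : ∀ c, ∀ g h : ρ.range, h ∈ C c → g * h * g⁻¹ ∈ C c := by
    intro c g h hh
    have h1 : ((g * h * g⁻¹ : ρ.range) : GL (Fin 2) ℂ).1.trace = (h : GL (Fin 2) ℂ).1.trace :=
      Matrix.trace_units_conj (g : GL (Fin 2) ℂ) (h : GL (Fin 2) ℂ).1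
    show ‖((g * h * g⁻¹ : ρ.range) : GL (Fin 2) ℂ).1.trace‖ ^ 2 = c
    rw [h1]
    exact hh
  have hcpos : ∀ c ∈ V, 0 ≤ c := by
    intro c hc
    obtain ⟨g, -, rfl⟩ := Finset.mem_image.mp hc
    positivity
  have hge : DensGE (fun p => ∑ c ∈ V, c * (if FrobIn ρ.rangeRestrict (C c) p then 1 else 0))
      (∑ c ∈ V, c * ((Nat.card (C c) : ℝ) / Nat.card ρ.range)) := by
    refine DensGE.sum V (fun c hc => DensGE.const_mul
      (cheb _ ρ.rangeRestrict ρ.rangeRestrict_surjective hlev' (C c) (hconj c)) (hcpos c hc))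
      fun c hc s hs => ?_
    refine summable_of_bounded (B := c) (fun p => ?_) hs
    have := hcpos c hc
    split_ifs
    · rw [mul_one, abs_of_nonneg this]
    · simpa using this
  have hle : DensLE (fun p => ∑ c ∈ V, c * (if FrobIn ρ.rangeRestrict (C c) p then 1 else 0))
      (1 + (∑ c ∈ V, c) * 0) := by
    have hbad : DensLE (fun p : Nat.Primes => if (p : ℕ) ∣ N then (1 : ℝ) else 0) 0 := by
      apply densLE_of_finite_support
      · intro p
        split_ifs <;> norm_num
      · refine Set.Finite.subset (Set.Finite.preimage (f := fun p : Nat.Primes => (p : ℕ))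
          (Subtype.val_injective.injOn) N.divisors.finite_toSet) ?_
        intro p hp
        rw [Function.mem_support] at hp
        have : (p : ℕ) ∣ N := by
          by_contra h
          exact hp (if_neg h)
        simp [this, hN]
    have hVnn : 0 ≤ ∑ c ∈ V, c := Finset.sum_nonneg hcpos
    refine DensLE.mono (fun p => ?_) (fun p => ?_) (hR.add (hbad.const_mul hVnn))
    · refine Finset.sum_nonneg fun c hc => mul_nonneg (hcpos c hc) ?_
      split_ifs <;> norm_num
    · by_cases hpN : (p : ℕ) ∣ N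
      · rw [if_pos hpN, if_pos hpN, zero_add, mul_one]
        refine Finset.sum_le_sum fun c hc => mul_le_of_le_one_right (hcpos c hc) ?_
        split_ifs <;> norm_num
      · rw [if_neg hpN, if_neg hpN, mul_zero, add_zero]
        have hone : ∀ c ∈ V, c * (if FrobIn ρ.rangeRestrict (C c) p then 1 else 0) ≤
            if c = ‖α p‖ ^ 2 then ‖α p‖ ^ 2 else 0 := by
          intro c hc
          by_cases hF : FrobIn ρ.rangeRestrict (C c) p
          · obtain ⟨A, hA, -, σ, hσ, hσC⟩ := hF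
            have h1 : ‖(ρ σ).1.trace‖ ^ 2 = c := hσC
            rw [hfrob p p.2 hpN A hA σ hσ] at h1
            rw [if_pos h1.symm, ← h1]
            refine mul_le_of_le_one_right (by positivity) ?_
            split_ifs <;> norm_num
          · rw [if_neg hF, mul_zero]
            split_ifs <;> positivity
        refine (Finset.sum_le_sum hone).trans ?_
        rw [Finset.sum_ite_eq']
        split_ifs
        · exact le_rfl
        · positivity
  have hcomp := hge.le_of_densLE hle
  rw [mul_zero, add_zero] at hcomp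
  have hcardpos : (0 : ℝ) < Fintype.card ρ.range := by exact_mod_cast Fintype.card_pos
  have hsum : ∑ c ∈ V, c * ((Nat.card (C c) : ℝ) / Nat.card ρ.range) =
      (∑ g : ρ.range, f g) / Fintype.card ρ.range := by
    rw [← Finset.sum_fiberwise_of_maps_to (s := Finset.univ) (t := V) (g := f)
      (fun g _ => Finset.mem_image_of_mem f (Finset.mem_univ g)), Finset.sum_div]
    refine Finset.sum_congr rfl fun c _ => ?_
    have h1 : ∑ g ∈ Finset.univ.filter (fun g => f g = c), f g =
        ∑ g ∈ Finset.univ.filter (fun g => f g = c), c :=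
      Finset.sum_congr rfl fun g hg => (Finset.mem_filter.mp hg).2
    rw [h1, Finset.sum_const, nsmul_eq_mul, Nat.card_eq_fintype_card, Nat.card_eq_fintype_card]
    have h2 : Fintype.card (C c) = (Finset.univ.filter fun g => f g = c).card :=
      Fintype.card_subtype _
    rw [h2]
    ring
  rw [hsum, div_le_iff₀ hcardpos] at hcomp
  have : 2 * (Fintype.card ρ.range : ℝ) ≤ ∑ g : ρ.range, f g := havg
  linarith

end Fermat.Agent.WOne
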