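import Fermat.Agent.WOne.P7Ultra

set_option autoImplicit false

/-!
# Specialising a representation with finite image to `ℂ`
-/

open Matrix

namespace Fermat.Agent.WOne

theorem exists_hom_to_complex {K : Type} [Field K] (ι : K →+* ℂ) (S : Type) [CommRing S]
    [Nontrivial S] [Algebra K S] [Algebra.FiniteType K S] :
    ∃ ψ : S →+* ℂ, ∀ x : K, ψ (algebraMap K S x) = ι x := by
  obtain ⟨m, hm⟩ := Ideal.exists_maximal S
  letI : Field (S ⧸ m) := Ideal.Quotient.field m
  have : Algebra.FiniteType K (S ⧸ m) :=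
    Algebra.FiniteType.of_surjective (Ideal.Quotient.mkₐ K m) (Ideal.Quotient.mkₐ_surjective K m)
  have hfin : Module.Finite K (S ⧸ m) := finite_of_finite_type_of_isJacobsonRing K (S ⧸ m)
  letI : Algebra K ℂ := ι.toAlgebra
  have : Algebra.IsAlgebraic K (S ⧸ m) := Algebra.IsAlgebraic.of_finite K (S ⧸ m)
  let ψ : (S ⧸ m) →ₐ[K] ℂ := IsAlgClosed.lift
  refine ⟨ψ.toRingHom.comp (Ideal.Quotient.mk m), fun x => ?_⟩
  exact ψ.commutes x

theorem exists_specialization {K : Type} [Field K] (ι : K →+* ℂ) {𝕂 : Type} [Field 𝕂]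
    [Algebra K 𝕂] {Γ : Type} [Group Γ] (ρ : Γ →* GL (Fin 2) 𝕂) (hfin : Finite ρ.range) :
    ∃ ρC : Γ →* GL (Fin 2) ℂ, (∀ σ, ρ σ = 1 → ρC σ = 1) ∧
      (∀ (σ : Γ) (x : K), (ρ σ).1.trace = algebraMap K 𝕂 x → (ρC σ).1.trace = ι x) ∧
      (∀ (σ : Γ) (x : K), (ρ σ).1.det = algebraMap K 𝕂 x → (ρC σ).1.det = ι x) := by
  classical
  set s : Set 𝕂 := Set.range fun x : ρ.range × Fin 2 × Fin 2 =>
    (x.1 : GL (Fin 2) 𝕂).1 x.2.1 x.2.2 with hs
  have hsfin : s.Finite := Set.finite_range _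
  let S : Subalgebra K 𝕂 := Algebra.adjoin K s
  have hmem : ∀ (σ : Γ) (i j : Fin 2), (ρ σ).1 i j ∈ S := fun σ i j =>
    Algebra.subset_adjoin ⟨(⟨ρ σ, σ, rfl⟩, i, j), rfl⟩
  have hFT : Algebra.FiniteType K S := by
    rw [← Subalgebra.fg_iff_finiteType]
    exact ⟨hsfin.toFinset, by rw [hsfin.coe_toFinset]⟩
  obtain ⟨ψ, hψ⟩ := exists_hom_to_complex ι S
  let f : Γ →* Matrix (Fin 2) (Fin 2) S :=
    { toFun := fun σ => Matrix.of fun i j => ⟨(ρ σ).1 i j, hmem σ i j⟩
      map_one' := by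
        ext i j
        simp only [map_one, Units.val_one, Matrix.of_apply]
        fin_cases i <;> fin_cases j <;> simp
      map_mul' := fun σ τ => by
        ext i j
        rw [Matrix.of_apply, Matrix.mul_apply]
        show (ρ (σ * τ)).1 i j = _
        rw [map_mul, Units.val_mul, Matrix.mul_apply]
        simp }
  have hf : ∀ σ i j, ((f σ i j : S) : 𝕂) = (ρ σ).1 i j := fun σ i j => rfl
  let ρS : Γ →* GL (Fin 2) S := f.toHomUnits
  have hρS : ∀ σ, (ρS σ).1 = f σ := fun σ => rfl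
  let ρC : Γ →* GL (Fin 2) ℂ := (Matrix.GeneralLinearGroup.map ψ).comp ρS
  have hρC : ∀ σ, (ρC σ).1 = (f σ).map ψ := fun σ => rfl
  refine ⟨ρC, fun σ hσ => ?_, fun σ x hx => ?_, fun σ x hx => ?_⟩
  · have h1 : f σ = 1 := by
      ext i j
      rw [hf, hσ]
      fin_cases i <;> fin_cases j <;> simp
    apply Units.ext
    rw [hρC, h1, Units.val_one]
    ext i j
    fin_cases i <;> fin_cases j <;> simp
  · have h1 : (f σ).trace = algebraMap K S x := by
      apply Subtype.ext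
      rw [Matrix.trace_fin_two] at hx ⊢
      exact hx
    have h2 := AddMonoidHom.map_trace ψ.toAddMonoidHom (f σ)
    rw [h1] at h2
    rw [hρC, ← hψ x]
    exact h2.symm
  · have h1 : (f σ).det = algebraMap K S x := by
      apply Subtype.ext
      rw [Matrix.det_fin_two] at hx ⊢
      exact hx
    have h2 := RingHom.map_det ψ (f σ)
    rw [h1, hψ] at h2
    rw [hρC]
    exact h2.symm

end Fermat.Agent.WOne
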