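import Fermat.Agent.WOne.P7Level

set_option autoImplicit false

/-!
# The ultraproduct representation in characteristic zero
-/

open Filter Topology NumberField Matrix

local notation "Γℚ" => (AlgebraicClosure ℚ ≃ₐ[ℚ] AlgebraicClosure ℚ)

namespace Fermat.Agent.WOne

section Ultra

variable (k : ℕ → Type) [∀ n, Field (k n)]

/-- Sequences with finite support. -/
def finIdeal : Ideal (∀ n, k n) where
  carrier := {x | {n | x n ≠ 0}.Finite}
  add_mem' := by
    intro x y hx hy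
    refine (hx.union hy).subset fun n hn => ?_
    by_contra h
    simp only [Set.mem_union, Set.mem_ofPred_eq, not_or, not_not] at h
    exact hn (by rw [Pi.add_apply, h.1, h.2, add_zero])
  zero_mem' := by simp
  smul_mem' := by
    intro c x hx
    refine hx.subset fun n hn => ?_
    intro h
    exact hn (by rw [smul_eq_mul, Pi.mul_apply, h, mul_zero])

lemma mem_finIdeal {x : ∀ n, k n} : x ∈ finIdeal k ↔ {n | x n ≠ 0}.Finite := Iff.rfl

lemma finIdeal_ne_top : finIdeal k ≠ ⊤ := by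
  rw [Ne, Ideal.eq_top_iff_one, mem_finIdeal]
  intro h
  have : {n : ℕ | (1 : ∀ n, k n) n ≠ 0} = Set.univ := by
    ext n
    simp
  rw [this] at h
  exact Set.infinite_univ h

/-- A maximal ideal containing the sequences with finite support. -/
noncomputable def ultraIdeal : Ideal (∀ n, k n) :=
  (Ideal.exists_le_maximal _ (finIdeal_ne_top k)).choose

instance ultraIdeal_isMaximal : (ultraIdeal k).IsMaximal :=
  (Ideal.exists_le_maximal _ (finIdeal_ne_top k)).choose_spec.1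

lemma finIdeal_le : finIdeal k ≤ ultraIdeal k :=
  (Ideal.exists_le_maximal _ (finIdeal_ne_top k)).choose_spec.2

/-- The ultraproduct field. -/
def Ultra : Type := (∀ n, k n) ⧸ ultraIdeal k

noncomputable instance : Field (Ultra k) := Ideal.Quotient.field (ultraIdeal k)

/-- The projection onto the ultraproduct. -/
noncomputable def toUltra : (∀ n, k n) →+* Ultra k := Ideal.Quotient.mk (ultraIdeal k)

variable {k}

lemma toUltra_eq_of_eventually {x y : ∀ n, k n} (n₀ : ℕ) (h : ∀ n, n₀ ≤ n → x n = y n) :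
    toUltra k x = toUltra k y := by
  refine Ideal.Quotient.eq.mpr (finIdeal_le k ?_)
  rw [mem_finIdeal]
  refine (Set.finite_Iio n₀).subset fun n hn => ?_
  by_contra hlt
  exact hn (by rw [Pi.sub_apply, h n (not_lt.mp hlt), sub_self])

lemma toUltra_ne_zero {x : ∀ n, k n} (n₀ : ℕ) (h : ∀ n, n₀ ≤ n → x n ≠ 0) :
    toUltra k x ≠ 0 := by
  intro h0
  have h1 : toUltra k (x * fun n => (x n)⁻¹) = toUltra k 1 :=
    toUltra_eq_of_eventually n₀ fun n hn => mul_inv_cancel₀ (h n hn)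
  rw [map_mul, h0, zero_mul, map_one] at h1
  exact zero_ne_one h1

end Ultra

section Finiteness

lemma root_pow_eq_one {k : Type*} [Field k] {M : Matrix (Fin 2) (Fin 2) k} {T : ℕ}
    (hM : M ^ T = 1) {c : k} (hc : c ^ 2 - M.trace * c + M.det = 0) : c ^ T = 1 := by
  obtain ⟨v, hv, h⟩ := GL2.exists_eigenvector hc
  have h1 : ∀ j : ℕ, M ^ j *ᵥ v = c ^ j • v := by
    intro j
    induction j with
    | zero => simp
    | succ j ih => rw [pow_succ', ← Matrix.mulVec_mulVec, ih, Matrix.mulVec_smul, h, smul_smul,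
        pow_succ]
  have h2 := h1 T
  rw [hM, Matrix.one_mulVec] at h2
  have h3 : (c ^ T - 1) • v = 0 := by rw [sub_smul, one_smul, ← h2, sub_self]
  exact sub_eq_zero.mp ((smul_eq_zero.mp h3).resolve_right hv)

lemma finite_traces {k : Type*} [Field k] [IsAlgClosed k] {T : ℕ} (hT : 0 < T) :
    {t : k | ∃ M : Matrix (Fin 2) (Fin 2) k, M ^ T = 1 ∧ M.trace = t}.Finite := by
  classical
  set R : Finset k := (Polynomial.nthRoots T (1 : k)).toFinset
  refine ((R ×ˢ R).image fun x => x.1 + x.2).finite_toSet.subset ?_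
  rintro t ⟨M, hM, rfl⟩
  obtain ⟨α, hα⟩ := GL2.exists_root M.trace M.det
  have hβ : (M.trace - α) ^ 2 - M.trace * (M.trace - α) + M.det = 0 := by
    linear_combination hα
  rw [Finset.mem_coe, Finset.mem_image]
  refine ⟨(α, M.trace - α), ?_, by ring⟩
  rw [Finset.mem_product]
  refine ⟨?_, ?_⟩
  · rw [Multiset.mem_toFinset, Polynomial.mem_nthRoots hT]
    exact root_pow_eq_one hM hα
  · rw [Multiset.mem_toFinset, Polynomial.mem_nthRoots hT]
    exact root_pow_eq_one hM hβ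

lemma unipotent_eq_one {k : Type*} [Field k] {ℓ : ℕ} [CharP k ℓ] {g : GL (Fin 2) k} {m : ℕ}
    (hm : g ^ m = 1) (hm0 : 0 < m) (hmℓ : m < ℓ) (ht : g.1.trace = 2) (hd : g.1.det = 1) :
    g = 1 := by
  obtain ⟨n, rfl⟩ : ∃ n, m = n + 1 := ⟨m - 1, by lia⟩
  obtain ⟨-, hν⟩ := GL2.sub_sq_eq_zero (M := g.1) (c := 1) (by rw [ht, hd]; norm_num)
    (by rw [ht, hd]; norm_num)
  have h1 := GL2.pow_eq_of_sq_zero (M := g.1) (c := 1) hν (by abel) n
  have h2 : g.1 ^ (n + 1) = 1 := by rw [← Units.val_pow_eq_pow_val, hm, Units.val_one]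
  rw [h2, one_pow, one_pow, mul_one] at h1
  have h3 : ((n + 1 : ℕ) : k) • (g.1 - (1 : k) • (1 : Matrix (Fin 2) (Fin 2) k)) = 0 := by
    have := h1.symm
    rwa [one_smul k (1 : Matrix (Fin 2) (Fin 2) k), add_eq_left, ← one_smul k (1 : Matrix (Fin 2) (Fin 2) k)] at this
  have h4 : ((n + 1 : ℕ) : k) ≠ 0 := by
    rw [Ne, CharP.cast_eq_zero_iff k ℓ]
    intro h
    exact absurd (Nat.le_of_dvd hm0 h) (not_le.mpr hmℓ)
  have h5 := (smul_eq_zero.mp h3).resolve_left h4
  rw [one_smul, sub_eq_zero] at h5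
  exact Units.ext h5

end Finiteness

section Family

variable {N : ℕ} {K : Type} [Field K] [NumberField K] {a e : ℕ → 𝓞 K}
  (ℓ : ℕ → ℕ) [hℓ : ∀ n, Fact (ℓ n).Prime] (φ : ∀ n, 𝓞 K →+* ZMod (ℓ n))
  (M : ∀ n, ModRep N a e (ℓ n) (φ n))

/-- The map from the integers of `K` to the ultraproduct. -/
noncomputable def intUltra : 𝓞 K →+* Ultra (fun n => (M n).k) :=
  (toUltra _).comp (RingHom.pi fun n => (algebraMap (ZMod (ℓ n)) (M n).k).comp (φ n))

/-- The family of representations as matrices over the product. -/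
noncomputable def prodMat : Γℚ →* Matrix (Fin 2) (Fin 2) (∀ n, (M n).k) where
  toFun σ := Matrix.of fun i j n => ((M n).ρ σ).1 i j
  map_one' := by
    ext i j n
    rw [Matrix.of_apply, map_one, Units.val_one]
    fin_cases i <;> fin_cases j <;> simp
  map_mul' σ τ := by
    ext i j n
    rw [Matrix.of_apply, map_mul, Units.val_mul, Matrix.mul_apply, Matrix.mul_apply,
      Finset.sum_apply]
    rfl

/-- The representation over the ultraproduct. -/
noncomputable def ultraRep : Γℚ →* GL (Fin 2) (Ultra fun n => (M n).k) :=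
  (Matrix.GeneralLinearGroup.map (toUltra _)).comp (prodMat ℓ φ M).toHomUnits

lemma ultraRep_apply (σ : Γℚ) (i j : Fin 2) :
    (ultraRep ℓ φ M σ).1 i j = toUltra _ (fun n => ((M n).ρ σ).1 i j) := rfl

lemma ultraRep_eq_one {σ : Γℚ} (n₀ : ℕ) (h : ∀ n, n₀ ≤ n → (M n).ρ σ = 1) :
    ultraRep ℓ φ M σ = 1 := by
  apply Units.ext
  ext i j
  rw [ultraRep_apply, Units.val_one]
  rw [toUltra_eq_of_eventually (y := fun n => (1 : Matrix (Fin 2) (Fin 2) (M n).k) i j) n₀
    fun n hn => by rw [h n hn, Units.val_one]]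
  fin_cases i <;> fin_cases j
  · simp only [Matrix.one_apply_eq]
    exact map_one _
  · simp only [Fin.zero_eta, Fin.mk_one, ne_eq, zero_ne_one, not_false_eq_true,
      Matrix.one_apply_ne]
    exact map_zero _
  · simp only [Fin.zero_eta, Fin.mk_one, ne_eq, one_ne_zero, not_false_eq_true,
      Matrix.one_apply_ne]
    exact map_zero _
  · simp only [Matrix.one_apply_eq]
    exact map_one _

lemma ultraRep_trace {σ : Γℚ} {x : 𝓞 K} (n₀ : ℕ)
    (h : ∀ n, n₀ ≤ n → ((M n).ρ σ).1.trace = algebraMap (ZMod (ℓ n)) (M n).k (φ n x)) :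
    (ultraRep ℓ φ M σ).1.trace = intUltra ℓ φ M x := by
  rw [Matrix.trace_fin_two, ultraRep_apply, ultraRep_apply, ← map_add]
  refine toUltra_eq_of_eventually n₀ fun n hn => ?_
  have := h n hn
  rw [Matrix.trace_fin_two] at this
  exact this

lemma ultraRep_det {σ : Γℚ} {x : 𝓞 K} (n₀ : ℕ)
    (h : ∀ n, n₀ ≤ n → ((M n).ρ σ).1.det = algebraMap (ZMod (ℓ n)) (M n).k (φ n x)) :
    (ultraRep ℓ φ M σ).1.det = intUltra ℓ φ M x := by
  rw [Matrix.det_fin_two, ultraRep_apply, ultraRep_apply, ultraRep_apply, ultraRep_apply,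
    ← map_mul, ← map_mul, ← map_sub]
  refine toUltra_eq_of_eventually n₀ fun n hn => ?_
  have := h n hn
  rw [Matrix.det_fin_two] at this
  exact this

variable (hge : ∀ n, n ≤ ℓ n)

include hge in
lemma intUltra_injective : Function.Injective (intUltra ℓ φ M) := by
  rw [injective_iff_map_eq_zero]
  intro x hx
  by_contra hne
  obtain ⟨B, hB⟩ := exists_bound_ne_zero K {x} (by simpa using hne)
  refine toUltra_ne_zero (k := fun n => (M n).k) B (fun n hn => ?_) hx
  have h1 := hB (ℓ n) (hℓ n).out (hn.trans (hge n)) (φ n) x (by simp)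
  show algebraMap (ZMod (ℓ n)) (M n).k (φ n x) ≠ 0
  rw [Ne, map_eq_zero]
  exact h1

include hge in
lemma ultra_frob {p : ℕ} (hp : p.Prime) (hpN : ¬ p ∣ N)
    {A : ValuationSubring (AlgebraicClosure ℚ)} (hA : A.LiesOverPrime p) {σ : Γℚ}
    (hσ : A.IsFrobeniusAt σ p) :
    (ultraRep ℓ φ M σ).1.trace = intUltra ℓ φ M (a p) ∧
    (ultraRep ℓ φ M σ).1.det = intUltra ℓ φ M (e p) := by
  have h : ∀ n, p + 1 ≤ n → p ≠ ℓ n := fun n hn h => by
    have := hge n
    lia
  exact ⟨ultraRep_trace ℓ φ M (p + 1) fun n hn => ((M n).frob p hp hpN (h n hn) A hA σ hσ).1,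
    ultraRep_det ℓ φ M (p + 1) fun n hn => ((M n).frob p hp hpN (h n hn) A hA σ hσ).2⟩

include hge in
lemma ultra_inertia {p : ℕ} (hp : p.Prime) (hpN : ¬ p ∣ N)
    {A : ValuationSubring (AlgebraicClosure ℚ)} (hA : A.LiesOverPrime p) {σ : Γℚ}
    (hσ : σ ∈ A.inertiaSubgroupIn ℚ) : ultraRep ℓ φ M σ = 1 := by
  refine ultraRep_eq_one ℓ φ M (p + 1) fun n hn => (M n).inertia p hp hpN ?_ A hA σ hσ
  intro h
  have := hge n
  lia

/-- The values `a p` form a finite set. -/
theorem finite_values {B : ℕ} (hge : ∀ n, n ≤ ℓ n) (hB : ∀ n, Nat.card (M n).ρ.range ≤ B)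
    (hfin : ∀ n, Finite (M n).ρ.range) :
    ∃ V : Finset (𝓞 K), ∀ p : ℕ, p.Prime → ¬ p ∣ N → a p ∈ V := by
  set 𝕃 := AlgebraicClosure (Ultra fun n => (M n).k)
  set T := B.factorial with hT
  have hT0 : 0 < T := Nat.factorial_pos _
  let Φ : 𝓞 K →+* 𝕃 := (algebraMap _ 𝕃).comp (intUltra ℓ φ M)
  have hΦ : Function.Injective Φ :=
    (algebraMap (Ultra fun n => (M n).k) 𝕃).injective.comp (intUltra_injective ℓ φ M hge)
  have hf := (finite_traces (k := 𝕃) hT0).preimage (f := Φ) hΦ.injOn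
  refine ⟨hf.toFinset, fun p hp hpN => ?_⟩
  rw [Set.Finite.mem_toFinset]
  obtain ⟨A, hA, σ, hσ⟩ := Fermat.Agent.Frob.exists_liesOverPrime_isFrobeniusAt
    (L := AlgebraicClosure ℚ) hp
  have hpow : ∀ n, (M n).ρ σ ^ T = 1 := by
    intro n
    have := hfin n
    have h1 : (⟨(M n).ρ σ, σ, rfl⟩ : (M n).ρ.range) ^ Nat.card (M n).ρ.range = 1 :=
      pow_card_eq_one'
    have h2 : (M n).ρ σ ^ Nat.card (M n).ρ.range = 1 := congrArg Subtype.val h1
    obtain ⟨c, hc⟩ := Nat.dvd_factorial (Nat.card_pos (α := (M n).ρ.range)) (hB n)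
    rw [hT, hc, pow_mul, h2, one_pow]
  have hu : ultraRep ℓ φ M (σ ^ T) = 1 :=
    ultraRep_eq_one ℓ φ M 0 fun n _ => by rw [map_pow, hpow n]
  refine ⟨((ultraRep ℓ φ M σ).1).map (algebraMap _ 𝕃), ?_, ?_⟩
  · have h1 : (ultraRep ℓ φ M σ).1 ^ T = 1 := by
      rw [← Units.val_pow_eq_pow_val, ← map_pow, hu, Units.val_one]
    have h2 := congrArg (RingHom.mapMatrix (algebraMap (Ultra fun n => (M n).k) 𝕃)) h1
    rw [map_pow, map_one] at h2
    exact h2
  · have h1 := AddMonoidHom.map_trace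
      (algebraMap (Ultra fun n => (M n).k) 𝕃).toAddMonoidHom (ultraRep ℓ φ M σ).1
    have h2 := (ultra_frob ℓ φ M hge hp hpN hA hσ).1
    rw [h2] at h1
    exact h1.symm

/-- For large `ℓ` the kernels of the representations coincide. -/
theorem ker_le (hN : N ≠ 0) {E : ℕ} (hE : 0 < E) (he : ∀ p : ℕ, p.Prime → ¬ p ∣ N → e p ^ E = 1)
    (hge : ∀ n, n ≤ ℓ n) {B : ℕ} (hB : ∀ n, Nat.card (M n).ρ.range ≤ B)
    (hfin : ∀ n, Finite (M n).ρ.range) :
    ∃ n₀ : ℕ, ∀ n m, n₀ ≤ n → n₀ ≤ m → ∀ σ : Γℚ, (M n).ρ σ = 1 → (M m).ρ σ = 1 := by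
  classical
  obtain ⟨V, hV⟩ := finite_values ℓ φ M hge hB hfin
  set R : Finset (𝓞 K) := (Polynomial.nthRoots E (1 : 𝓞 K)).toFinset with hRdef
  set F : Finset (𝓞 K) := ((V.image fun x => x - 2) ∪ (R.image fun x => x - 1)).filter (· ≠ 0)
    with hF
  obtain ⟨B₁, hB₁⟩ := exists_bound_ne_zero K F (fun x hx => (Finset.mem_filter.mp hx).2)
  refine ⟨max B₁ (B + 1), fun n m hn hm σ hσ => ?_⟩
  obtain ⟨p, hp, hpS, A, hA, τ, hτ, ⟨j, hj⟩, ⟨i, hi⟩⟩ :=
    exists_frobenius_hom ((M n).ρ.prod (M m).ρ) (level_prod _ _ (M n).level (M m).level) σ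
      (insert (ℓ n) (insert (ℓ m) N.divisors))
  rw [Finset.mem_insert, Finset.mem_insert, Nat.mem_divisors] at hpS
  push Not at hpS
  have hpN : ¬ p ∣ N := fun h => hN (hpS.2.2 h)
  have hn1 : (M n).ρ τ = 1 := by
    have := congrArg Prod.fst hi
    simp only [MonoidHom.prod_apply, Prod.pow_fst] at this
    rw [← this, hσ, one_pow]
  obtain ⟨t1, d1⟩ := (M n).frob p hp hpN hpS.1 A hA τ hτ
  obtain ⟨t2, d2⟩ := (M m).frob p hp hpN hpS.2.1 A hA τ hτ
  have hinj : Function.Injective (algebraMap (ZMod (ℓ n)) (M n).k) :=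
    (algebraMap (ZMod (ℓ n)) (M n).k).injective
  have hBn : B₁ ≤ ℓ n := ((le_max_left _ _).trans hn).trans (hge n)
  have ha : a p = 2 := by
    by_contra hne
    have hmem : a p - 2 ∈ F := by
      rw [hF, Finset.mem_filter, Finset.mem_union]
      exact ⟨Or.inl (Finset.mem_image_of_mem _ (hV p hp hpN)), sub_ne_zero.mpr hne⟩
    apply hB₁ (ℓ n) (hℓ n).out hBn (φ n) _ hmem
    apply hinj
    rw [hn1, Units.val_one, Matrix.trace_one] at t1
    rw [map_sub, map_sub, ← t1, map_zero, map_ofNat, map_ofNat]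
    simp
  have hep : e p = 1 := by
    by_contra hne
    have hmem : e p - 1 ∈ F := by
      rw [hF, Finset.mem_filter, Finset.mem_union]
      refine ⟨Or.inr (Finset.mem_image_of_mem _ ?_), sub_ne_zero.mpr hne⟩
      rw [hRdef, Multiset.mem_toFinset, Polynomial.mem_nthRoots hE]
      exact he p hp hpN
    apply hB₁ (ℓ n) (hℓ n).out hBn (φ n) _ hmem
    apply hinj
    rw [hn1, Units.val_one, Matrix.det_one] at d1
    rw [map_sub, map_sub, ← d1, map_zero, map_one, map_one, sub_self]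
  have hm1 : (M m).ρ τ = 1 := by
    have : CharP (M m).k (ℓ m) :=
      charP_of_injective_algebraMap (algebraMap (ZMod (ℓ m)) (M m).k).injective (ℓ m)
    have := hfin m
    have h1 : (⟨(M m).ρ τ, τ, rfl⟩ : (M m).ρ.range) ^ Nat.card (M m).ρ.range = 1 :=
      pow_card_eq_one'
    have h2 : (M m).ρ τ ^ Nat.card (M m).ρ.range = 1 := congrArg Subtype.val h1
    refine unipotent_eq_one (ℓ := ℓ m) h2 Nat.card_pos ?_ ?_ ?_
    · have h3 := hB m
      have h4 := hge m
      have h5 := (le_max_right B₁ (B + 1)).trans hm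
      lia
    · rw [t2, ha, map_ofNat, map_ofNat]
    · rw [d2, hep, map_one, map_one]
  have := congrArg Prod.snd hj
  simp only [MonoidHom.prod_apply, Prod.pow_snd] at this
  rw [← this, hm1, one_pow]

/-- The ultraproduct representation has finite level. -/
theorem ultra_level (hN : N ≠ 0) {E : ℕ} (hE : 0 < E)
    (he : ∀ p : ℕ, p.Prime → ¬ p ∣ N → e p ^ E = 1)
    (hge : ∀ n, n ≤ ℓ n) {B : ℕ} (hB : ∀ n, Nat.card (M n).ρ.range ≤ B) :
    GaloisFactorsThroughFiniteLevel (ultraRep ℓ φ M) := by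
  obtain ⟨n₀, h⟩ := ker_le ℓ φ M hN hE he hge hB fun n => finite_range _ (M n).level
  obtain ⟨L, hL, hρ⟩ := (M n₀).level
  exact ⟨L, hL, fun σ hσ => ultraRep_eq_one ℓ φ M n₀ fun n hn => h n₀ n le_rfl hn σ (hρ σ hσ)⟩

end Family

end Fermat.Agent.WOne
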